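import Fermat.Agent.S48.B2.Defs
import Fermat.Agent.NEB.EIG.H98_MonoDefs
import Fermat.Agent.NEB.EIG.H98_OrdInst
import Fermat.Agent.NEB.EIG.H34_Char1
import Fermat.Agent.GTor.H75_DescDefs

/-!
# S48 / B2, slice T (`Stmt_EigH`): interfaces (owner helper1)

Plan: `NOTES/plan/W_S48_B2T.md`.

**Design.**  Slice T is proved for `H = ⊥` (the curve `X₁(M)/±1`), `c = M`, `n = ℓ` prime, `ℓ ≥ 5`,
`ℓ ∤ φ(M)`: then `Γ_H = ±Γ₁(M)`, all characters live on `Gam1 M M = Γ₁(M)`, and helper98's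
`mono` is injective.  Target: `Stmt_EigBot (-1) (-1)`.

Leaves (each is a `Prop` below; files `S48/B2/T/H<seat>_<Leaf>.lean`, namespace
`Fermat.Agent.S48.B2.T.H<seat>`):

* `Stmt_Basis1`  : universal basis of `homPE (Γ₁(M), ℤ)`;
* `Stmt_Period1` : the period class of `G`: nonzero, parabolic, eigenvector of `TDadd`, `Dadd`;
* T-RED (pure algebra, reduction of an eigenvector of integer matrices): DONE, `T.H43.eigRed`;
* `Stmt_Dict`    : the torsion dictionary (from helper98's EIG-MONO leaves), `H = ⊥`;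
* `Stmt_Exist1`  : every `φ ∈ homPE (Γ₁(M), ℤ/ℓ)` is the character of a point of `J_H[ℓ]`
  ⟸ `Stmt_EisTw` + `Stmt_A1C` + `Stmt_OrdC` + `Stmt_A5C` + `Stmt_UnrC` + `Stmt_FinC`
  (+ `NEB.EIG.H46.stmt_A2H`, `GTor.H75.stmt_DescCore`, generic).

No `sorry`; everything here is a definition or a `Prop`.
-/

set_option autoImplicit false

noncomputable section

namespace Fermat.Agent.S48.B2.T

open AlgebraicCurve ModularCurve UpperHalfPlane CongruenceSubgroup Matrix.SpecialLinearGroup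
open Fermat.Agent.NEB Fermat.Agent.NEB.JH Fermat.Agent.NEB.H84 Fermat.Agent.NEB.EIG.H39
open Fermat.Agent.NEB.EIG.H98 Fermat.Agent.NEB.EIG.H34 Fermat.Agent.GTor
open scoped MatrixGroups ModularForm Manifold

/-! ## 0. The target -/

/-- The conclusion of `Stmt_EigH` for an arbitrary subgroup `H`. -/
def EigConcl (M : ℕ) [NeZero M] (χ : DirichletCharacter ℂ M) (b : ℕ → ℂ)
    (H : Subgroup (ZMod M)ˣ) (ℓ : ℕ) (k : Type) [Field k] (φ : integralClosure ℤ ℂ →+* k)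
    (dd : DiamondData M M H) (s s' : ℤ) : Prop :=
  ∃ (r : ℕ) (θ : ↥(torsH M M H ℓ) ≃+ (Fin r → ZMod ℓ)) (v : Fin r → k),
    v ≠ 0 ∧
    (∀ (q : ℕ) [NeZero q] (hβ : BetaOK M M q H), q.Prime → ¬ q ∣ M * ℓ →
      ∀ (X : ↥(torsH M M H ℓ) → ↥(torsH M M H ℓ)),
        (∀ x, ((X x : ↥(torsH M M H ℓ)) : JH M M H) = TH hβ (x : JH M M H)) →
        ∀ t : integralClosure ℤ ℂ,
          (t : ℂ) = b q * ((χ (q : ZMod M) : ℂ)) ^ s →
          applyMat θ X v = φ t • v) ∧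
    (∀ (d : (ZMod M)ˣ)
      (X : ↥(torsH M M H ℓ) → ↥(torsH M M H ℓ)),
        (∀ x, ((X x : ↥(torsH M M H ℓ)) : JH M M H) = dd.ρ d • (x : JH M M H)) →
        ∀ t : integralClosure ℤ ℂ,
          (t : ℂ) = ((χ (d : ZMod M) : ℂ)) ^ s' →
          applyMat θ X v = φ t • v)

/-- **Slice T, target**: `Stmt_EigH` for `H = ⊥` and `ℓ ∤ φ(M)`. -/
def Stmt_EigBot (s s' : ℤ) : Prop :=
  ∀ (M : ℕ) [NeZero M] (χ : DirichletCharacter ℂ M) (G : CuspForm (Gamma1 M) 2) (b : ℕ → ℂ),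
    2 ≤ M → B.IsEigenvec2 M χ G b → Int.HasNeb M χ 2 G →
      ∀ ℓ : ℕ, ℓ.Prime → 5 ≤ ℓ → ¬ ℓ ∣ Nat.totient M →
        ∀ (k : Type) [Field k] [CharP k ℓ] [IsAlgClosed k] (φ : integralClosure ℤ ℂ →+* k)
          (dd : DiamondData M M (⊥ : Subgroup (ZMod M)ˣ)),
          EigConcl M χ b ⊥ ℓ k φ dd s s'

/-! ## 1. Betti side: basis, period class, reduction -/

/-- `b` is a universal basis of `homPE (Γ₁(M), ·)` for torsion free coefficients. -/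
def IsPEBasis (M : ℕ) {r : ℕ} (b : Fin r → (Additive (Gam1 M M) →+ ℤ)) : Prop :=
  (∀ i, b i ∈ homPE (Gam1 M M) ℤ) ∧
    ∀ (A : Type) [AddCommGroup A] [IsAddTorsionFree A] (φ : Additive (Gam1 M M) →+ A),
      φ ∈ homPE (Gam1 M M) A → ∃! a : Fin r → A, ∀ γ, φ γ = ∑ i, b i γ • a i

/-- **T-BASIS**: port of `Betti.stmt_basis` (`Betti.exists_universal_basis`) to `Γ₁(M)`. -/
def Stmt_Basis1 : Prop :=
  ∀ (M : ℕ) [NeZero M], ∃ (r : ℕ) (b : Fin r → (Additive (Gam1 M M) →+ ℤ)), IsPEBasis M b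

/-- **T-PER**: the period class `γ ↦ ∫_{z₀}^{γ z₀} G(z) dz` of a weight two eigenvector with
nebentypus: nonzero (S21 injectivity), trivial on parabolic elements (cusp form), eigenvector of
the Betti Hecke operators `TDadd` (family `repD`) with eigenvalue `b_q χ(q)⁻¹` and of the diamond
operators `Dadd g` (`ψ ↦ ψ ∘ conj_g`) with eigenvalue `χ(d_g)`. -/
def Stmt_Period1 : Prop :=
  ∀ (M : ℕ) [NeZero M] (χ : DirichletCharacter ℂ M) (G : CuspForm (Gamma1 M) 2) (b : ℕ → ℂ),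
    2 ≤ M → B.IsEigenvec2 M χ G b → Int.HasNeb M χ 2 G →
      ∃ ψ : Additive (Gam1 M M) →+ ℂ, ψ ≠ 0 ∧ ψ ∈ homPE (Gam1 M M) ℂ ∧
        (∀ (q : ℕ) (hq : q.Prime) (hqM : ¬ q ∣ M) (γ : Additive (Gam1 M M)),
          TDadd M M dvd_rfl hq hqM ψ γ = b q * ((χ (q : ZMod M) : ℂ)) ^ (-1 : ℤ) * ψ γ) ∧
        (∀ (g : SL(2, ℤ)) (hg : (M : ℤ) ∣ g 1 0) (γ : Additive (Gam1 M M)),
          Dadd dvd_rfl g hg ψ γ = χ (((g 1 1 : ℤ) : ZMod M)) * ψ γ)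

-- **T-RED** (pure algebra) is DONE: `Fermat.Agent.S48.B2.T.H43.eigRed` (helper43).

/-! ## 2. The torsion dictionary for `H = ⊥` -/

/-- **T-DICT** (from helper98's EIG-MONO leaves `MONO1`, `CHAR1`, `INJ1`, `HK1`, `DIAM1`, `KUM1`
with `H = ⊥`, where `|H| = 1`): the relation `TorChar1 x φ` is the graph of an injective additive
map `J_H[n] → homPE (Γ₁(M), ℤ/n)`, equivariant for Hecke and diamond operators. -/
def Stmt_Dict : Prop :=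
  ∀ (M : ℕ) [NeZero M], 2 ≤ M → ∀ n : ℕ, n ≠ 0 → ∀ ι : Kbar →+* ℂ,
    (∀ x : JH M M (⊥ : Subgroup (ZMod M)ˣ), n • x = 0 →
      ∃ φ ∈ homPE (Gam1 M M) (ZMod n), TorChar1 M M ⊥ n ι x φ) ∧
    (∀ (x : JH M M (⊥ : Subgroup (ZMod M)ˣ)) (φ : Additive (Gam1 M M) →+ ZMod n),
      TorChar1 M M ⊥ n ι x φ → n • x = 0) ∧
    (∀ (x y : JH M M (⊥ : Subgroup (ZMod M)ˣ)) (φ : Additive (Gam1 M M) →+ ZMod n),
      TorChar1 M M ⊥ n ι x φ → TorChar1 M M ⊥ n ι y φ → x = y) ∧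
    (∀ (x : JH M M (⊥ : Subgroup (ZMod M)ˣ)) (φ ψ : Additive (Gam1 M M) →+ ZMod n),
      TorChar1 M M ⊥ n ι x φ → TorChar1 M M ⊥ n ι x ψ → φ = ψ) ∧
    (∀ (x y : JH M M (⊥ : Subgroup (ZMod M)ˣ)) (φ ψ : Additive (Gam1 M M) →+ ZMod n),
      TorChar1 M M ⊥ n ι x φ → TorChar1 M M ⊥ n ι y ψ → TorChar1 M M ⊥ n ι (x + y) (φ + ψ)) ∧
    (∀ (q : ℕ) (hq : q.Prime) (hqM : ¬ q ∣ M),
      haveI : NeZero q := ⟨hq.ne_zero⟩
      ∀ (hβ : BetaOK M M q (⊥ : Subgroup (ZMod M)ˣ)) (x : JH M M (⊥ : Subgroup (ZMod M)ˣ))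
        (φ : Additive (Gam1 M M) →+ ZMod n),
        TorChar1 M M ⊥ n ι x φ → TorChar1 M M ⊥ n ι (TH hβ x) (TDadd M M dvd_rfl hq hqM φ)) ∧
    (∀ (dd : DiamondData M M (⊥ : Subgroup (ZMod M)ˣ)) (d : (ZMod M)ˣ) (g : SL(2, ℤ))
      (hg : (M : ℤ) ∣ g 1 0), ((g 0 0 : ℤ) : ZMod M) = (d : ZMod M) →
      ∀ (x : JH M M (⊥ : Subgroup (ZMod M)ˣ)) (φ : Additive (Gam1 M M) →+ ZMod n),
        TorChar1 M M ⊥ n ι x φ → TorChar1 M M ⊥ n ι (dd.ρ d • x) (Dadd dvd_rfl g hg φ))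

/-! ## 3. Existence of torsion points -/

/-- **T-EXIST**: every character of `Γ₁(M)` with values in `ℤ/ℓ`, trivial on parabolic and
elliptic elements, is the character of a point of `J_H` (`H = ⊥`). -/
def Stmt_Exist1 : Prop :=
  ∀ (M : ℕ) [NeZero M], 2 ≤ M → ∀ ℓ : ℕ, ℓ.Prime → 5 ≤ ℓ → ¬ ℓ ∣ Nat.totient M →
    ∀ (ι : Kbar →+* ℂ) (φ : Additive (Gam1 M M) →+ ZMod ℓ), φ ∈ homPE (Gam1 M M) (ZMod ℓ) →
      ∃ x : JH M M (⊥ : Subgroup (ZMod M)ˣ), TorChar1 M M ⊥ ℓ ι x φ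

/-- The function field of `X₁(M)/±1` over `ℂ`, inside `ℂ((q))`. -/
abbrev FC (M : ℕ) : IntermediateField ℂ (LaurentSeries ℂ) :=
  laurentBaseChange ℂ (FHQ M M (⊥ : Subgroup (ZMod M)ˣ))

/-- **E-EIS** (twisted Eisenstein series, port of `Lib/TwistedEisensteinChar.lean`,
`GTor/H98_Exist.lean`): a nonzero holomorphic form of some weight `k`, bounded at the cusps, with
multiplier `ζ^φ` on `Γ₁(M)`, together with a nonzero modular form of weight `k` on `Γ₀(M)`. -/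
def Stmt_EisTw : Prop :=
  ∀ (M : ℕ) [NeZero M], 2 ≤ M → ∀ n : ℕ, n ≠ 0 →
    ∀ φ : Additive (Gam1 M M) →+ ZMod n, φ ∈ homPE (Gam1 M M) (ZMod n) →
      ∃ (k : ℤ) (R : ℍ → ℂ) (B : ModularForm (Gamma0 M) k),
        IsTw1 M M n k φ R ∧ R ≠ 0 ∧ B ≠ 0

/-- **E-A1C**: every element of `F_{H,ℂ}` is `A / B`, `B ≠ 0` a modular form on `Γ₀(M)`, `A` a
form on `Γ₁(M)` of the same weight, invariant under `Γ_H = ±Γ₁(M)`. -/
def Stmt_A1C : Prop :=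
  ∀ (M : ℕ) [NeZero M], 2 ≤ M → ∀ f : ↥(FC M),
    ∃ (k : ℤ) (A : ℍ → ℂ) (B : ModularForm (Gamma0 M) k),
      IsW M k A ∧ B ≠ 0 ∧
      (∀ γ : SL(2, ℤ), γ ∈ Gamma0 M → ((γ 0 0 : ℤ) : ZMod M) ∈ cosetSet M ⊥ 1 →
        A ∣[k] γ = A) ∧
      qLaurent A = (f : LaurentSeries ℂ) * qLaurent (B : ℍ → ℂ)

/-- The place `v` of `F_{H,ℂ}` is the analytic order function `ord` (at a point of `ℍ` or at a
cusp), up to the index `e`: `ord A - ord B = e · ord_v (A / B)`. -/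
def IsAnPlace (M : ℕ) (v : Place ℂ ↥(FC M)) (ord : ℤ → (ℍ → ℂ) → ℤ) (e : ℕ) : Prop :=
  ∀ (f : ↥(FC M)) (k : ℤ) (A B : ℍ → ℂ), f ≠ 0 → IsRep M (f : LaurentSeries ℂ) k A B →
    ord k A - ord k B = (e : ℤ) * v.ord f

/-- **E-ORD**: every point of `ℍ` and every cusp defines a place of `F_{H,ℂ}`; the index divides
`6` at a point and `M / (width in Γ₀(M))` at a cusp (because `F_{0,ℂ} ⊆ F_{H,ℂ}` contains a
function of that order: `GTor.Clo.stmt_A3`, `stmt_A4`). -/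
def Stmt_OrdC : Prop :=
  ∀ (M : ℕ) [NeZero M], 2 ≤ M →
    (∀ z : ℍ, ∃ (v : Place ℂ ↥(FC M)) (e : ℕ), 0 < e ∧ e ∣ 6 ∧ IsAnPlace M v (ordPt z) e) ∧
    (∀ σ : SL(2, ℤ), ∃ (v : Place ℂ ↥(FC M)) (e : ℕ), 0 < e ∧ e ∣ M / cuspWidth M σ ∧
      IsAnPlace M v (ordCu M σ) e)

/-- **E-A5C**: every place of `F_{H,ℂ}` is the place of a point or of a cusp. -/
def Stmt_A5C : Prop :=
  ∀ (M : ℕ) [NeZero M], 2 ≤ M → ∀ v : Place ℂ ↥(FC M),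
    (∃ (z : ℍ) (e : ℕ), 0 < e ∧ e ∣ 6 ∧ IsAnPlace M v (ordPt z) e) ∨
    (∃ (σ : SL(2, ℤ)) (e : ℕ), 0 < e ∧ e ∣ M / cuspWidth M σ ∧ IsAnPlace M v (ordCu M σ) e)

/-- **E-UNR**: the function `(R / B)^ℓ` of a twisted form `R` is unramified at every place. -/
def Stmt_UnrC : Prop :=
  ∀ (M : ℕ) [NeZero M], 2 ≤ M → ∀ ℓ : ℕ, ℓ.Prime → 5 ≤ ℓ → ¬ ℓ ∣ Nat.totient M →
    ∀ (φ : Additive (Gam1 M M) →+ ZMod ℓ), φ ∈ homPE (Gam1 M M) (ZMod ℓ) →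
      ∀ (k : ℤ) (R : ℍ → ℂ) (B : ModularForm (Gamma0 M) k) (f : ↥(FC M)),
        IsTw1 M M ℓ k φ R → B ≠ 0 → f ≠ 0 →
        qLaurent (fun z => R z ^ ℓ) = (f : LaurentSeries ℂ) * qLaurent (fun z => B z ^ ℓ) →
        ∀ v : Place ℂ ↥(FC M), (ℓ : ℤ) ∣ v.ord f

/-- **E-FIN**: the group of unramified Kummer classes of `F_{H,ℂ}` is finite (it embeds into
`Hom(Γ₁(M), ℤ/n)` by the character of the `n`-th root). -/
def Stmt_FinC : Prop :=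
  ∀ (M : ℕ) [NeZero M], 2 ≤ M → ∀ n : ℕ, n ≠ 0 → Finite (UnrKummer ℂ ↥(FC M) n)

end Fermat.Agent.S48.B2.T
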