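import Fermat.Agent.S48.B2.Defs

/-!
# S48 / B2 / slice T, leaf T-ASM (helper1): the abstract core

Pure algebra.  `C : J → P → Prop` is the graph of an injective additive map
`J[ℓ] → P` (`P` finite); `β i ∈ P` are `ℤ/ℓ`-independent characters of points `pts i`;
`w ∈ k^{r'}` is a nonzero vector.  Then there are coordinates `θ` of `J[ℓ]` and a nonzero vector
`v` such that every operator `(X_J, X_P)` compatible with `C`, whose matrix `A` on `β` has `w` as an
eigenvector, has `v` as an eigenvector (for `applyMat θ`), with the same eigenvalue.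
-/

set_option autoImplicit false
set_option linter.unusedVariables false
set_option linter.unusedSectionVars false
set_option linter.style.haveILetI false

noncomputable section

namespace Fermat.Agent.S48.B2.T.H01

open Fermat.Agent.S48.B2

variable {J : Type*} [AddCommGroup J] {P : Type*} [AddCommGroup P]

/-- The graph of the relation `C`, as a subgroup of `J × P`. -/
def graphSub (C : J → P → Prop) (h0 : C 0 0)
    (hadd : ∀ x y φ ψ, C x φ → C y ψ → C (x + y) (φ + ψ))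
    (hneg : ∀ x φ, C x φ → C (-x) (-φ)) : AddSubgroup (J × P) where
  carrier := {p | C p.1 p.2}
  zero_mem' := h0
  add_mem' := fun {a b} ha hb => hadd _ _ _ _ ha hb
  neg_mem' := fun {a} ha => hneg _ _ ha

section Rel

variable (ℓ : ℕ) (C : J → P → Prop)
  (c1 : ∀ x, ℓ • x = 0 → ∃ φ, C x φ) (c2 : ∀ x φ, C x φ → ℓ • x = 0)
  (c4 : ∀ x φ ψ, C x φ → C x ψ → φ = ψ)
  (c5 : ∀ x y φ ψ, C x φ → C y ψ → C (x + y) (φ + ψ))

include c1 c4 c5 in
theorem rel_zero : C 0 0 := by
  obtain ⟨φ, hφ⟩ := c1 0 (smul_zero _)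
  have h2 := c5 _ _ _ _ hφ hφ
  rw [add_zero] at h2
  have h3 := c4 _ _ _ h2 hφ
  have : φ = 0 := by simpa using h3
  rwa [this] at hφ

include c1 c2 c4 c5 in
theorem rel_neg (x : J) (φ : P) (h : C x φ) : C (-x) (-φ) := by
  have hx : ℓ • (-x) = 0 := by rw [smul_neg, c2 x φ h, neg_zero]
  obtain ⟨ψ, hψ⟩ := c1 (-x) hx
  have h2 := c5 _ _ _ _ h hψ
  rw [add_neg_cancel] at h2
  have h3 := c4 _ _ _ h2 (rel_zero ℓ C c1 c4 c5)
  have : ψ = -φ := by
    rw [eq_neg_iff_add_eq_zero, add_comm]; exact h3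
  rwa [this] at hψ

include c1 c2 c4 c5 in
theorem rel_sum {ι : Type*} (s : Finset ι) (n : ι → ℤ) (x : ι → J) (φ : ι → P)
    (h : ∀ i, C (x i) (φ i)) : C (∑ i ∈ s, n i • x i) (∑ i ∈ s, n i • φ i) := by
  let G := graphSub C (rel_zero ℓ C c1 c4 c5) c5 (rel_neg ℓ C c1 c2 c4 c5)
  have h1 : ∑ i ∈ s, n i • ((x i, φ i) : J × P) ∈ G :=
    G.sum_mem fun i _ => G.zsmul_mem (h i) (n i)
  have h2 : ∑ i ∈ s, n i • ((x i, φ i) : J × P)
      = (∑ i ∈ s, n i • x i, ∑ i ∈ s, n i • φ i) := by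
    refine Prod.ext ?_ ?_
    · rw [Prod.fst_sum]; simp
    · rw [Prod.snd_sum]; simp
  rw [h2] at h1
  exact h1

end Rel

section Basis

open Module

/-- Coordinates of a finite `ℤ/ℓ`-vector space in which a given independent family consists of
standard basis vectors. -/
theorem basis_core {T : Type*} [AddCommGroup T] [Finite T] (ℓ : ℕ) [Fact ℓ.Prime]
    [Module (ZMod ℓ) T] {r' : ℕ} (e : Fin r' → T) (hli : LinearIndependent (ZMod ℓ) e) :
    ∃ (r : ℕ) (θ : T ≃+ (Fin r → ZMod ℓ)) (σ : Fin r' → Fin r),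
      Function.Injective σ ∧ ∀ i, θ (e i) = Pi.single (σ i) 1 := by
  classical
  obtain ⟨b, B0, hmem, hB0⟩ : ∃ (b : Set T) (B0 : Basis ↥b (ZMod ℓ) T),
      (∀ i, e i ∈ b) ∧ ∀ x : ↥b, B0 x = (x : T) :=
    ⟨_, Basis.extend hli.linearIndepOn_id,
      fun i => hli.linearIndepOn_id.subset_extend _ (Set.mem_range_self i),
      fun x => Basis.extend_apply_self _ x⟩
  letI : Fintype ↥b := Fintype.ofFinite _
  let ε : ↥b ≃ Fin (Fintype.card ↥b) := Fintype.equivFin ↥b
  let B : Basis (Fin (Fintype.card ↥b)) (ZMod ℓ) T := B0.reindex ε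
  let σ : Fin r' → Fin (Fintype.card ↥b) := fun i => ε ⟨e i, hmem i⟩
  have hσ : Function.Injective σ := by
    intro i j h
    have h1 := ε.injective h
    have h2 : e i = e j := congrArg Subtype.val h1
    exact hli.injective h2
  have hBσ : ∀ i, B (σ i) = e i := by
    intro i
    show (B0.reindex ε) (ε ⟨e i, hmem i⟩) = e i
    rw [Basis.reindex_apply, Equiv.symm_apply_apply]
    exact hB0 _
  refine ⟨_, B.equivFun.toAddEquiv, σ, hσ, fun i => ?_⟩
  show B.equivFun (e i) = Pi.single (σ i) 1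
  rw [← hBσ i]
  funext j
  rw [B.equivFun_self (σ i) j, Pi.single_apply]
  by_cases h : σ i = j
  · rw [if_pos h, if_pos h.symm]
  · rw [if_neg h, if_neg (fun h' => h h'.symm)]

end Basis

section Core

open Module

/-- **T-ASM, abstract core.** -/
theorem asm_core (ℓ : ℕ) (hℓ : ℓ.Prime) [Finite P] (C : J → P → Prop)
    (c1 : ∀ x, ℓ • x = 0 → ∃ φ, C x φ) (c2 : ∀ x φ, C x φ → ℓ • x = 0)
    (c3 : ∀ x y φ, C x φ → C y φ → x = y) (c4 : ∀ x φ ψ, C x φ → C x ψ → φ = ψ)
    (c5 : ∀ x y φ ψ, C x φ → C y ψ → C (x + y) (φ + ψ))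
    {r' : ℕ} (β : Fin r' → P) (pts : Fin r' → J) (hpts : ∀ i, C (pts i) (β i))
    (hβ : ∀ n : Fin r' → ℤ, ∑ i, n i • β i = 0 → ∀ i, (ℓ : ℤ) ∣ n i)
    (k : Type) [Field k] [CharP k ℓ] (w : Fin r' → k) (hw : w ≠ 0) :
    ∃ (r : ℕ) (θ : ↥((nsmulAddMonoidHom (α := J) ℓ).ker) ≃+ (Fin r → ZMod ℓ)) (v : Fin r → k),
      v ≠ 0 ∧
      ∀ (XJ : J → J) (XP : P → P) (A : Matrix (Fin r') (Fin r') ℤ) (μ : k),
        (∀ x φ, C x φ → C (XJ x) (XP φ)) →
        (∀ i, XP (β i) = ∑ m, A m i • β m) →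
        (A.map (Int.cast : ℤ → k)).mulVec w = μ • w →
        ∀ X : ↥((nsmulAddMonoidHom (α := J) ℓ).ker) → ↥((nsmulAddMonoidHom (α := J) ℓ).ker),
          (∀ x, ((X x : ↥((nsmulAddMonoidHom (α := J) ℓ).ker)) : J) = XJ x) →
          applyMat θ X v = μ • v := by
  classical
  haveI : Fact ℓ.Prime := ⟨hℓ⟩
  haveI : NeZero ℓ := ⟨hℓ.ne_zero⟩
  have hTmem : ∀ x : J, x ∈ (nsmulAddMonoidHom (α := J) ℓ).ker ↔ ℓ • x = 0 := fun x => by
    rw [AddMonoidHom.mem_ker, nsmulAddMonoidHom_apply]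
  have hkill : ∀ x : ↥((nsmulAddMonoidHom (α := J) ℓ).ker), ℓ • x = 0 := fun x =>
    Subtype.ext (by simpa using (hTmem x).1 x.2)
  letI : Module (ZMod ℓ) ↥((nsmulAddMonoidHom (α := J) ℓ).ker) := AddCommGroup.zmodModule hkill
  -- finiteness
  haveI hfin : Finite ↥((nsmulAddMonoidHom (α := J) ℓ).ker) := by
    choose f hf using fun x : ↥((nsmulAddMonoidHom (α := J) ℓ).ker) => c1 x ((hTmem x).1 x.2)
    exact Finite.of_injective f (fun x y h => Subtype.ext (c3 _ _ _ (hf x) (h ▸ hf y)))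
  -- the points
  let e : Fin r' → ↥((nsmulAddMonoidHom (α := J) ℓ).ker) :=
    fun i => ⟨pts i, (hTmem _).2 (c2 _ _ (hpts i))⟩
  have hrel0 := rel_zero ℓ C c1 c4 c5
  have hli : LinearIndependent (ZMod ℓ) e := by
    rw [Fintype.linearIndependent_iff]
    intro g hg i
    have h1 : ∀ i, g i • e i = ((g i).val : ℤ) • e i := by
      intro i
      conv_lhs => rw [← ZMod.natCast_zmod_val (g i)]
      rw [Nat.cast_smul_eq_nsmul, natCast_zsmul]
    have h2 : ∑ i, ((g i).val : ℤ) • pts i = 0 := by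
      have := congrArg (fun x : ↥((nsmulAddMonoidHom (α := J) ℓ).ker) => (x : J)) hg
      simp only [h1] at this
      simpa using this
    have h3 := rel_sum ℓ C c1 c2 c4 c5 Finset.univ (fun i => ((g i).val : ℤ)) pts β hpts
    rw [h2] at h3
    have h4 := c4 _ _ _ h3 hrel0
    have h5 := hβ _ h4 i
    have h6 : ℓ ∣ (g i).val := by exact_mod_cast h5
    have h7 : (g i).val = 0 := Nat.eq_zero_of_dvd_of_lt h6 (ZMod.val_lt _)
    exact (ZMod.val_eq_zero _).1 h7
  -- coordinates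
  obtain ⟨r, θ, σ, hσ, hθ⟩ := basis_core ℓ e hli
  have hθsymm : ∀ i, θ.symm (Pi.single (σ i) 1) = e i := by
    intro i
    rw [← hθ i, AddEquiv.symm_apply_apply]
  let v : Fin r → k := fun a => ∑ i, if a = σ i then w i else 0
  have hvσ : ∀ i, v (σ i) = w i := by
    intro i
    show (∑ j, if σ i = σ j then w j else 0) = w i
    rw [Finset.sum_eq_single i]
    · simp
    · intro j _ hj
      rw [if_neg]
      exact fun h => hj (hσ h).symm
    · intro h; exact absurd (Finset.mem_univ i) h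
  refine ⟨_, θ, v, ?_, ?_⟩
  · intro hv
    apply hw
    funext i
    rw [← hvσ i, hv]; rfl
  intro XJ XP A μ hX hA hμ X hXJ
  -- the action of `X` on the points
  have hXe : ∀ i, X (e i) = ∑ m, A m i • e m := by
    intro i
    apply Subtype.ext
    rw [hXJ]
    have h1 : C (XJ (pts i)) (XP (β i)) := hX _ _ (hpts i)
    rw [hA i] at h1
    have h2 := rel_sum ℓ C c1 c2 c4 c5 Finset.univ (fun m => A m i) pts β hpts
    have h3 := c3 _ _ _ h1 h2
    show XJ (pts i) = _
    rw [h3]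
    simp [e]
  have hθX : ∀ i a, θ (X (e i)) a = ∑ m, if a = σ m then ((A m i : ℤ) : ZMod ℓ) else 0 := by
    intro i a
    rw [hXe i, map_sum, Finset.sum_apply]
    refine Finset.sum_congr rfl fun m _ => ?_
    rw [map_zsmul, hθ m, Pi.smul_apply, Pi.single_apply]
    by_cases h : a = σ m
    · rw [if_pos h, if_pos h]; simp
    · rw [if_neg h, if_neg h]; simp
  funext a
  unfold applyMat
  have hcast : ∀ z : ZMod ℓ, (ZMod.cast z : k) = ZMod.castHom (dvd_refl ℓ) k z := fun z => rfl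
  -- only the indices `σ i` contribute
  have h1 : ∀ j, (ZMod.cast (θ (X (θ.symm (Pi.single j 1))) a) : k) * v j
      = ∑ i, if j = σ i then (ZMod.cast (θ (X (e i)) a) : k) * w i else 0 := by
    intro j
    show _ * (∑ i, if j = σ i then w i else 0) = _
    rw [Finset.mul_sum]
    refine Finset.sum_congr rfl fun i _ => ?_
    by_cases h : j = σ i
    · rw [if_pos h, if_pos h, h, hθsymm i]
    · rw [if_neg h, if_neg h, mul_zero]
  have hL : (∑ j, (ZMod.cast (θ (X (θ.symm (Pi.single j 1))) a) : k) * v j)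
      = ∑ i, (ZMod.cast (θ (X (e i)) a) : k) * w i := by
    simp only [h1]
    rw [Finset.sum_comm]
    refine Finset.sum_congr rfl fun i _ => ?_
    rw [Finset.sum_ite_eq' Finset.univ (σ i)]
    simp
  rw [hL]
  have hc : ∀ i, (ZMod.cast (θ (X (e i)) a) : k)
      = ∑ m, if a = σ m then ((A m i : ℤ) : k) else 0 := by
    intro i
    rw [hθX i a, hcast, map_sum]
    refine Finset.sum_congr rfl fun m _ => ?_
    by_cases h : a = σ m
    · rw [if_pos h, if_pos h, map_intCast]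
    · rw [if_neg h, if_neg h, map_zero]
  simp only [hc]
  -- now pure bookkeeping
  rw [Pi.smul_apply, smul_eq_mul]
  show _ = μ * ∑ i, if a = σ i then w i else 0
  simp only [Finset.sum_mul]
  rw [Finset.sum_comm, Finset.mul_sum]
  refine Finset.sum_congr rfl fun m _ => ?_
  by_cases h : a = σ m
  · simp only [if_pos h]
    have := congrFun hμ m
    simp only [Matrix.mulVec, dotProduct, Matrix.map_apply, Pi.smul_apply, smul_eq_mul] at this
    exact this
  · simp [if_neg h]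

end Core

end Fermat.Agent.S48.B2.T.H01
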