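import Fermat.Agent.S48.B2.T.Defs
import Fermat.Agent.Betti.Basis

/-!
# S48 / B2, slice T, leaf T-BASIS (helper43)

`stmt_Basis1 : Stmt_Basis1`: a universal basis of `homPE (Γ₁(M), ·)` for torsion free
coefficients (`Betti.exists_universal_basis` with `P` = parabolic elements and elements of finite
order; `Γ₁(M) = Gam1 M M` is finitely generated because it contains `Γ(M²)`).
-/

set_option autoImplicit false

noncomputable section

namespace Fermat.Agent.S48.B2.T.H43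

open CongruenceSubgroup ModularCurve ModularCurve.Period
open Fermat.Agent.NEB.EIG.H39 Fermat.Agent.GTor
open scoped MatrixGroups

/-- `Γ₀(M) ∩ Γ₁(c)` contains `Γ(M c)`. -/
theorem gamma_le_gam1' (M c : ℕ) : Gamma (M * c) ≤ Gam1 M c := by
  intro γ hγ
  rw [Gamma_mem] at hγ
  obtain ⟨h00, -, h10, -⟩ := hγ
  have h10' : ((M * c : ℕ) : ℤ) ∣ γ 1 0 := by
    rw [← ZMod.intCast_zmod_eq_zero_iff_dvd]
    exact h10
  have h00' : ((M * c : ℕ) : ℤ) ∣ γ 0 0 - 1 := by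
    rw [← ZMod.intCast_zmod_eq_zero_iff_dvd, Int.cast_sub, Int.cast_one, h00, sub_self]
  have hM : (M : ℤ) ∣ ((M * c : ℕ) : ℤ) := ⟨c, by push_cast; ring⟩
  have hc : (c : ℤ) ∣ ((M * c : ℕ) : ℤ) := ⟨M, by push_cast; ring⟩
  exact ⟨hM.trans h10', hc.trans h10', hc.trans h00'⟩

/-- `Γ₀(M) ∩ Γ₁(c)` is finitely generated. -/
theorem groupFG_gam1' (M c : ℕ) [NeZero M] [NeZero c] : Group.FG ↥(Gam1 M c) := by
  haveI := Fermat.Agent.Betti.fg_SL2Z
  haveI : NeZero (M * c) := ⟨mul_ne_zero (NeZero.ne M) (NeZero.ne c)⟩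
  haveI : (Gam1 M c).FiniteIndex := Subgroup.finiteIndex_of_le (gamma_le_gam1' M c)
  exact Subgroup.fg_of_index_ne_zero (Gam1 M c)

/-- A universal basis of `homPE (Γ, ·)` for any finitely generated subgroup `Γ ≤ SL₂(ℤ)`. -/
theorem exists_peBasis (Γ : Subgroup SL(2, ℤ)) [Group.FG Γ] :
    ∃ (r : ℕ) (b : Fin r → (Additive Γ →+ ℤ)), (∀ i, b i ∈ homPE Γ ℤ) ∧
      ∀ (A : Type) [AddCommGroup A] [IsAddTorsionFree A] (φ : Additive Γ →+ A),
        φ ∈ homPE Γ A → ∃! a : Fin r → A, ∀ γ, φ γ = ∑ i, b i γ • a i := by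
  obtain ⟨r, b, hb, huniv⟩ := Fermat.Agent.Betti.exists_universal_basis (Q := Additive Γ)
    ({x | (((Additive.toMul x : Γ) : SL(2, ℤ)) : Matrix (Fin 2) (Fin 2) ℤ).trace ^ 2 = 4} ∪
      {x | IsOfFinOrder (Additive.toMul x : Γ)})
  refine ⟨r, b, fun i => ⟨fun γ hγ => hb i (Additive.ofMul γ) (Or.inl hγ),
    fun γ hγ => hb i (Additive.ofMul γ) (Or.inr hγ)⟩, ?_⟩
  intro A _ _ φ hφ
  refine huniv A φ (fun x hx => ?_)
  rcases hx with hx | hx
  · exact hφ.1 (Additive.toMul x) hx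
  · exact hφ.2 (Additive.toMul x) hx

/-- **T-BASIS**. -/
theorem stmt_Basis1 : Stmt_Basis1 := by
  intro M _
  haveI := groupFG_gam1' M M
  exact exists_peBasis (Gam1 M M)

end Fermat.Agent.S48.B2.T.H43
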