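import Mathlib

/-!
# S48 B2, slice T, leaf EIG-RED (helper43): reduction of eigensystems

Pure algebra, no commutativity needed.

* `exists_common_kernel` : `R` a commutative ring, `ι : R → K` an injective ring homomorphism into
  a field, `φ : R → k` a ring homomorphism into a field.  If the matrices `A i` over `R` have a
  common nonzero kernel vector over `K`, then they have one over `k`.
  (Proof: otherwise finitely many of them have an injective stacked matrix `B` over `k`, with a
  left inverse `C`; the polynomial `det (X · B) ∈ R[X_{ab}]` specialises to `det (C · B) = 1` in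
  `k`, but it vanishes over `K` because `(X · B) w = 0`.)
* `isIntegral_of_eigen` : eigenvalues of integer matrices are algebraic integers.
* `eigRed` : integer matrices `T i` with a common eigenvector `w ≠ 0` over `ℂ`, eigenvalues
  `lam i`: for every ring homomorphism `φ : integralClosure ℤ ℂ → k` into a field there is
  `v ≠ 0` in `k^r` with `T i v = φ (lam i) v`.
-/

set_option autoImplicit false

namespace Fermat.Agent.S48.B2.T.H43

open Matrix

section Key

variable {R K k : Type*} [CommRing R] [Field K] [Field k]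

/-- The finite case. -/
theorem exists_common_kernel_fin (ι : R →+* K) (hι : Function.Injective ι) (φ : R →+* k)
    {r : ℕ} {J : Type*} [Fintype J] (A : J → Matrix (Fin r) (Fin r) R)
    (w : Fin r → K) (hw : w ≠ 0) (hA : ∀ j, (A j).map ι *ᵥ w = 0) :
    ∃ v : Fin r → k, v ≠ 0 ∧ ∀ j, (A j).map φ *ᵥ v = 0 := by
  classical
  by_contra hcon
  push Not at hcon
  -- the stacked matrix
  set B : Matrix (J × Fin r) (Fin r) R := fun x b => A x.1 x.2 b with hB
  have hker : ∀ v : Fin r → k, (B.map φ) *ᵥ v = 0 → v = 0 := by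
    intro v hv
    by_contra hv0
    obtain ⟨j, hj⟩ := hcon v hv0
    apply hj
    funext a
    have := congrFun hv (j, a)
    simpa [Matrix.mulVec, dotProduct, hB] using this
  have hinj : Function.Injective (Matrix.toLin' (B.map φ)) := by
    rw [← LinearMap.ker_eq_bot, LinearMap.ker_eq_bot']
    intro v hv
    exact hker v (by simpa [Matrix.toLin'_apply] using hv)
  obtain ⟨g, hg⟩ := LinearMap.exists_leftInverse_of_injective (Matrix.toLin' (B.map φ))
    (LinearMap.ker_eq_bot.mpr hinj)
  set Cb : Matrix (Fin r) (J × Fin r) k := LinearMap.toMatrix' g with hCb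
  have hCB : (Cb * B.map φ : Matrix (Fin r) (Fin r) k) = 1 := by
    have h1 : (Cb * B.map φ : Matrix (Fin r) (Fin r) k)
        = LinearMap.toMatrix' (g.comp (Matrix.toLin' (B.map φ))) := by
      rw [LinearMap.toMatrix'_comp, LinearMap.toMatrix'_toLin']
    rw [h1, hg, LinearMap.toMatrix'_id]
  -- the polynomial ring
  let P := MvPolynomial (Fin r × (J × Fin r)) R
  set X : Matrix (Fin r) (J × Fin r) P := fun a x => MvPolynomial.X (a, x) with hX
  set BP : Matrix (J × Fin r) (Fin r) P := B.map (MvPolynomial.C) with hBP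
  set D : P := (X * BP).det with hD
  -- specialisation to `k`
  let ψ : P →+* k := MvPolynomial.eval₂Hom φ (fun p => Cb p.1 p.2)
  have hψX : X.map ψ = Cb := by
    ext a x
    show MvPolynomial.eval₂Hom φ (fun p : Fin r × (J × Fin r) => Cb p.1 p.2)
      (MvPolynomial.X (a, x)) = Cb a x
    rw [MvPolynomial.coe_eval₂Hom, MvPolynomial.eval₂_X]
  have hψB : BP.map ψ = B.map φ := by
    ext x b
    show MvPolynomial.eval₂Hom φ (fun p : Fin r × (J × Fin r) => Cb p.1 p.2)
      (MvPolynomial.C (B x b)) = φ (B x b)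
    rw [MvPolynomial.coe_eval₂Hom, MvPolynomial.eval₂_C]
  have hψD : ψ D = 1 := by
    rw [hD, RingHom.map_det, RingHom.mapMatrix_apply, Matrix.map_mul, hψX, hψB, hCB,
      Matrix.det_one]
  -- specialisation to `K[X]`
  let θ : P →+* MvPolynomial (Fin r × (J × Fin r)) K := MvPolynomial.map ι
  have hθinj : Function.Injective θ := MvPolynomial.map_injective ι hι
  have hθD : θ D = 0 := by
    rw [hD, RingHom.map_det, RingHom.mapMatrix_apply, Matrix.map_mul]
    apply Matrix.exists_mulVec_eq_zero_iff.mp
    refine ⟨fun b => (MvPolynomial.C (w b) : MvPolynomial (Fin r × (J × Fin r)) K), ?_, ?_⟩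
    · intro h0
      apply hw
      funext b
      have := congrFun h0 b
      exact MvPolynomial.C_injective (Fin r × (J × Fin r)) K (by simpa using this)
    · rw [← Matrix.mulVec_mulVec]
      have hz : (BP.map θ) *ᵥ
          (fun b => (MvPolynomial.C (w b) : MvPolynomial (Fin r × (J × Fin r)) K)) = 0 := by
        funext x
        have h2 := congrFun (hA x.1) x.2
        simp only [Matrix.mulVec, dotProduct, Matrix.map_apply, Pi.zero_apply] at h2 ⊢
        have h3 : ∀ b, θ (BP x b) * MvPolynomial.C (w b)
            = MvPolynomial.C (ι (A x.1 x.2 b) * w b) := by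
          intro b
          show MvPolynomial.map ι (MvPolynomial.C (A x.1 x.2 b)) * MvPolynomial.C (w b) = _
          rw [MvPolynomial.map_C, ← MvPolynomial.C_mul]
        rw [Finset.sum_congr rfl (fun b _ => h3 b), ← map_sum, h2, map_zero]
      rw [hz, Matrix.mulVec_zero]
  have hD0 : D = 0 := hθinj (by rw [hθD, map_zero])
  rw [hD0, map_zero] at hψD
  exact zero_ne_one hψD

/-- **Common kernel vectors specialise**: any family of matrices. -/
theorem exists_common_kernel (ι : R →+* K) (hι : Function.Injective ι) (φ : R →+* k)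
    {r : ℕ} {I : Type*} (A : I → Matrix (Fin r) (Fin r) R)
    (w : Fin r → K) (hw : w ≠ 0) (hA : ∀ i, (A i).map ι *ᵥ w = 0) :
    ∃ v : Fin r → k, v ≠ 0 ∧ ∀ i, (A i).map φ *ᵥ v = 0 := by
  classical
  set S : Set (Matrix (Fin r) (Fin r) k) := Set.range (fun i => (A i).map φ) with hS
  have hfg : (Submodule.span k S).FG := IsNoetherian.noetherian _
  obtain ⟨s', hs', hspan⟩ := (Submodule.fg_span_iff_fg_span_finset_subset S).mp hfg
  have hidx : ∀ x : s', ∃ i : I, (A i).map φ = (x : Matrix (Fin r) (Fin r) k) := by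
    intro x
    have := hs' x.2
    rw [hS] at this
    exact this
  choose idx hidx using hidx
  obtain ⟨v, hv0, hv⟩ := exists_common_kernel_fin ι hι φ (fun x : s' => A (idx x)) w hw
    (fun x => hA (idx x))
  refine ⟨v, hv0, fun i => ?_⟩
  have hmem : (A i).map φ ∈ Submodule.span k (s' : Set (Matrix (Fin r) (Fin r) k)) := by
    rw [← hspan]
    exact Submodule.subset_span ⟨i, rfl⟩
  have key : ∀ M ∈ Submodule.span k (s' : Set (Matrix (Fin r) (Fin r) k)), M *ᵥ v = 0 := by
    intro M hM
    induction hM using Submodule.span_induction with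
    | mem x hx =>
      have := hv ⟨x, hx⟩
      rwa [hidx ⟨x, hx⟩] at this
    | zero => exact Matrix.zero_mulVec v
    | add x y _ _ hx hy => rw [Matrix.add_mulVec, hx, hy, add_zero]
    | smul c x _ hx => rw [Matrix.smul_mulVec, hx, smul_zero]
  exact key _ hmem

end Key

/-- Eigenvalues of integer matrices are algebraic integers. -/
theorem isIntegral_of_eigen {r : ℕ} (T : Matrix (Fin r) (Fin r) ℤ) (lam : ℂ) (w : Fin r → ℂ)
    (hw : w ≠ 0) (h : (T.map (Int.cast : ℤ → ℂ)) *ᵥ w = lam • w) : IsIntegral ℤ lam := by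
  classical
  refine ⟨T.charpoly, Matrix.charpoly_monic T, ?_⟩
  have hdet : (Matrix.scalar (Fin r) lam - T.map (Int.cast : ℤ → ℂ)).det = 0 := by
    apply Matrix.exists_mulVec_eq_zero_iff.mp
    refine ⟨w, hw, ?_⟩
    rw [Matrix.sub_mulVec, h]
    funext a
    simp [Matrix.mulVec, dotProduct, Matrix.scalar_apply, Matrix.diagonal_apply]
  have hmap : (T.map (Int.cast : ℤ → ℂ)).charpoly = T.charpoly.map (Int.castRingHom ℂ) := by
    have := Matrix.charpoly_map T (Int.castRingHom ℂ)
    simpa [RingHom.mapMatrix_apply] using this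
  rw [← Polynomial.eval_map, algebraMap_int_eq, ← hmap, Matrix.eval_charpoly]
  exact hdet

/-- **EIG-RED**: a common eigenvector over `ℂ` of integer matrices gives a common eigenvector
over `k` with the reduced eigenvalues, for every `φ : ℤ̄ → k`. -/
theorem eigRed {r : ℕ} {I : Type*} (T : I → Matrix (Fin r) (Fin r) ℤ) (lam : I → ℂ)
    (w : Fin r → ℂ) (hw : w ≠ 0)
    (h : ∀ i, ((T i).map (Int.cast : ℤ → ℂ)) *ᵥ w = lam i • w)
    {k : Type*} [Field k] (φ : integralClosure ℤ ℂ →+* k) :
    (∀ i, IsIntegral ℤ (lam i)) ∧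
      ∃ v : Fin r → k, v ≠ 0 ∧ ∀ (i : I) (t : integralClosure ℤ ℂ), (t : ℂ) = lam i →
        ((T i).map (Int.cast : ℤ → k)) *ᵥ v = φ t • v := by
  classical
  have hint : ∀ i, IsIntegral ℤ (lam i) := fun i => isIntegral_of_eigen (T i) (lam i) w hw (h i)
  refine ⟨hint, ?_⟩
  let R := integralClosure ℤ ℂ
  let ι : R →+* ℂ := algebraMap R ℂ
  have hι : Function.Injective ι := Subtype.val_injective
  let t : I → R := fun i => ⟨lam i, hint i⟩
  let A : I → Matrix (Fin r) (Fin r) R := fun i =>
    (T i).map (Int.cast : ℤ → R) - Matrix.scalar (Fin r) (t i)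
  have hA : ∀ i, (A i).map ι *ᵥ w = 0 := by
    intro i
    have h1 : (A i).map ι = (T i).map (Int.cast : ℤ → ℂ) - Matrix.scalar (Fin r) (lam i) := by
      ext a b
      by_cases hab : a = b
      · subst hab
        simp [A, ι, t, Matrix.scalar_apply]
      · simp [A, ι, t, Matrix.scalar_apply, hab]
    rw [h1, Matrix.sub_mulVec, h i]
    funext a
    simp [Matrix.mulVec, dotProduct, Matrix.scalar_apply, Matrix.diagonal_apply]
  obtain ⟨v, hv0, hv⟩ := exists_common_kernel ι hι φ A w hw hA
  refine ⟨v, hv0, fun i t' ht' => ?_⟩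
  have ht : t' = t i := Subtype.ext ht'
  subst ht
  have h2 : (A i).map φ = (T i).map (Int.cast : ℤ → k) - Matrix.scalar (Fin r) (φ (t i)) := by
    ext a b
    by_cases hab : a = b
    · subst hab
      simp [A, Matrix.scalar_apply]
    · simp [A, Matrix.scalar_apply, hab]
  have h3 := hv i
  rw [h2, Matrix.sub_mulVec, sub_eq_zero] at h3
  rw [h3]
  funext a
  simp [Matrix.mulVec, dotProduct, Matrix.scalar_apply, Matrix.diagonal_apply]

end Fermat.Agent.S48.B2.T.H43
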