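import Fermat.Agent.S48.B2.T.H55_PerHecke

/-!
# S48 / B2, slice T, leaf T-PER (helper55): `stmt_Period1 : Stmt_Period1`

The period class `perCls M G` of a weight two eigenvector `G` with nebentypus `χ` is not zero,
vanishes on parabolic elements and on elements of finite order, and

* `TDadd (perCls G) = b_q χ(q)⁻¹ • perCls G` : the sum of the slashes of `G` by the
  representatives `repD` is `G ∣ diag(q, 1) + χ(q)⁻¹ ∑_j G ∣ (1 j; 0 q) = χ(q)⁻¹ T_q G`
  (helper19's `TChiForm`), and `T_q G = b_q G` by the `q`-expansion;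
* `Dadd g (perCls G) = χ(d_g) • perCls G`.
-/

set_option autoImplicit false

noncomputable section

namespace Fermat.Agent.S48.B2.T.H55

open ModularCurve ModularCurve.Period UpperHalfPlane CongruenceSubgroup Filter Topology Function
open Matrix.SpecialLinearGroup ModularForm
open Fermat.Agent.NEB.EIG.H39 Fermat.Agent.NEB.EIG.H98 Fermat.Agent.GTor Fermat.Agent.Betti
open Fermat.Agent.S48.B1.H19 Fermat.Agent.S48.B1.H55
open scoped MatrixGroups ModularForm Manifold Pointwise OnePoint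

theorem det_pos_repD (M q : ℕ) (x : OnePoint (ZMod q)) : 0 < (repD M q x).val.det := by
  induction x using OnePoint.rec with
  | infty =>
    have := ModularForm.det_heckeDiagMatrix_pos q
    rwa [Matrix.GeneralLinearGroup.val_det_apply] at this
  | coe j =>
    have h1 := ModularForm.det_heckeMatrix_pos q j.val
    rw [Matrix.GeneralLinearGroup.val_det_apply] at h1
    rw [repD_coe, Units.val_mul, Matrix.det_mul]
    have h2 : ((mapGL ℝ (kappaSL M q) : GL (Fin 2) ℝ) : Matrix (Fin 2) (Fin 2) ℝ).det = 1 :=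
      Fermat.Agent.S21.det_coe_GL (kappaSL M q)
    rw [h2, one_mul]
    exact h1

/-- The value of the character at the lower right entry of `κ`. -/
theorem chi_kappa {M q : ℕ} (χ : DirichletCharacter ℂ M) (hq : q.Prime) (hqM : ¬ q ∣ M) :
    χ (q : ZMod M) * χ (((kappaSL M q 1 1 : ℤ)) : ZMod M) = 1 := by
  have hcop : Nat.Coprime q M := coprime_of_prime_not_dvd hq hqM
  rw [kappaSL_11 hcop, ← map_mul]
  have h := bez_eq hcop
  have h2 : ((q : ZMod M)) * ((bezS M q : ℤ) : ZMod M) = 1 := by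
    have h3 := congrArg (fun z : ℤ => (z : ZMod M)) h
    simp only [Int.cast_sub, Int.cast_mul, Int.cast_natCast, ZMod.natCast_self, mul_zero, sub_zero,
      Int.cast_one] at h3
    exact h3
  rw [h2, map_one]

/-- `T_q G = b_q G` as functions. -/
theorem TChi_eq_smul {M : ℕ} [NeZero M] (χ : DirichletCharacter ℂ M) (G : CuspForm (Gamma1 M) 2)
    (b : ℕ → ℂ) (hG : B.IsEigenvec2 M χ G b) (hneb : Int.HasNeb M χ 2 G) (q : ℕ) (hq : q.Prime)
    (hqM : ¬ q ∣ M) :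
    TChi 2 q (χ (q : ZMod M)) (⇑G) = b q • (⇑G : ℍ → ℂ) := by
  have h1 : TChiForm χ G hneb q hq hqM = b q • G := by
    apply coeffSeq_injective
    rw [coeffSeq_smul]
    funext n
    rw [coeffSeq_apply, qCoeff_TChiForm, Pi.smul_apply, smul_eq_mul, coeffSeq_apply]
    have h2 := hG.hecke q hq hqM n
    rw [← h2]
    norm_num
  have h3 := congrArg (fun F : CuspForm (Gamma1 M) 2 => (⇑F : ℍ → ℂ)) h1
  exact h3

/-- The sum of the slashes of `G` by the representatives of the double coset of `diag(q, 1)`. -/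
theorem sum_slash_repD {M : ℕ} [NeZero M] (χ : DirichletCharacter ℂ M)
    (G : CuspForm (Gamma1 M) 2) (b : ℕ → ℂ) (hG : B.IsEigenvec2 M χ G b)
    (hneb : Int.HasNeb M χ 2 G) (q : ℕ) [Fact q.Prime] (hqM : ¬ q ∣ M) :
    ∑ x : OnePoint (ZMod q), (⇑G : ℍ → ℂ) ∣[(2 : ℤ)] repD M q x =
      (b q * (χ (q : ZMod M))⁻¹) • (⇑G : ℍ → ℂ) := by
  have hq : q.Prime := Fact.out
  have hcop : Nat.Coprime q M := coprime_of_prime_not_dvd hq hqM
  have hκ : kappaSL M q ∈ Gamma0 M := kappaSL_mem_Gamma0 hcop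
  have hχ := chi_kappa χ hq hqM
  have hχ0 : χ (q : ZMod M) ≠ 0 := left_ne_zero_of_mul_eq_one hχ
  have hχinv : χ (((kappaSL M q 1 1 : ℤ)) : ZMod M) = (χ (q : ZMod M))⁻¹ :=
    eq_inv_of_mul_eq_one_right hχ
  have hterm : ∀ j : ZMod q, (⇑G : ℍ → ℂ) ∣[(2 : ℤ)] repD M q (j : OnePoint (ZMod q)) =
      (χ (q : ZMod M))⁻¹ • ((⇑G : ℍ → ℂ) ∣[(2 : ℤ)] heckeMatrix q j.val) := by
    intro j
    rw [repD_coe, SlashAction.slash_mul]
    have h1 : (⇑G : ℍ → ℂ) ∣[(2 : ℤ)] (mapGL ℝ (kappaSL M q)) =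
        (χ (q : ZMod M))⁻¹ • (⇑G : ℍ → ℂ) := by
      have h2 := hneb (kappaSL M q) hκ
      rw [hχinv] at h2
      exact h2
    rw [h1]
    exact smul_slash_rep 2 _ _ (j : OnePoint (ZMod q))
  have hsum := Fintype.sum_option
    (fun x : OnePoint (ZMod q) => (⇑G : ℍ → ℂ) ∣[(2 : ℤ)] repD M q x)
  refine Eq.trans hsum ?_
  have hT := TChi_eq_smul χ G b hG hneb q hq hqM
  rw [TChi, heckeU_def, sum_range_eq_sum_zmod'] at hT
  have e1 : (⇑G : ℍ → ℂ) ∣[(2 : ℤ)] repD M q (none : OnePoint (ZMod q)) =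
      (⇑G : ℍ → ℂ) ∣[(2 : ℤ)] heckeDiagMatrix q := rfl
  have e2 : ∀ j : ZMod q, (⇑G : ℍ → ℂ) ∣[(2 : ℤ)] repD M q (some j : OnePoint (ZMod q)) =
      (χ (q : ZMod M))⁻¹ • ((⇑G : ℍ → ℂ) ∣[(2 : ℤ)] heckeMatrix q j.val) := hterm
  rw [e1]
  simp only [e2]
  rw [← Finset.smul_sum]
  have hU : ∑ x : ZMod q, (⇑G : ℍ → ℂ) ∣[(2 : ℤ)] heckeMatrix q x.val =
      b q • (⇑G : ℍ → ℂ) - χ (q : ZMod M) • ((⇑G : ℍ → ℂ) ∣[(2 : ℤ)] heckeDiagMatrix q) :=
    eq_sub_of_add_eq hT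
  rw [hU, smul_sub, smul_smul, smul_smul, inv_mul_cancel₀ hχ0, one_smul, mul_comm]
  abel

/-- **T-PER.** -/
theorem stmt_Period1 : Stmt_Period1 := by
  intro M _ χ G b hM2 hG hneb
  refine ⟨perCls M G, perCls_ne_zero G hG.ne_zero, perCls_mem_homPE G, ?_, ?_⟩
  · intro q hq hqM γ
    haveI : Fact q.Prime := ⟨hq⟩
    have hfam : IsHeckeFamily (inc (Gam1 M M)) (repD M q) := stmt_FAM_hecke M M q dvd_rfl hq hqM
    have hsum := sum_slash_repD χ G b hG hneb q hqM
    have h1 : perCls M ((b q * (χ (q : ZMod M))⁻¹) • G) =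
        hfam.heckeOp (inc_injective _) (perCls M G) :=
      perCls_heckeOp hfam (det_pos_repD M q) G _ hsum.symm
    have h2 : TDadd M M dvd_rfl hq hqM (perCls M G) =
        hfam.heckeOp (inc_injective _) (perCls M G) := rfl
    rw [h2, ← h1, perCls_smul, AddMonoidHom.smul_apply, smul_eq_mul, zpow_neg_one]
  · intro g hg γ
    obtain ⟨γ, rfl⟩ : ∃ g' : Gam1 M M, Additive.ofMul g' = γ := ⟨Additive.toMul γ, rfl⟩
    have hg0 : g ∈ Gamma0 M := Betti.mem_Gamma0_of_dvd hg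
    have h1 : Dadd dvd_rfl g hg (perCls M G) (Additive.ofMul γ) =
        perCls M G (Additive.ofMul
          (conjEnd (inc_injective (Gam1 M M)) ⟨mapGL ℝ g, gam0_mem_Nrm dvd_rfl hg⟩ γ)) := rfl
    rw [h1]
    refine perCls_conj G g _ (hneb g hg0) γ _ ?_
    apply Betti.mapGL_real_injective
    have h2 := e_conjEnd (inc_injective (Gam1 M M)) ⟨mapGL ℝ g, gam0_mem_Nrm dvd_rfl hg⟩ γ
    rw [inc_apply, inc_apply] at h2
    rw [h2, map_mul, map_mul, map_inv]

end Fermat.Agent.S48.B2.T.H55
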