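import Fermat.Agent.S48.B2.T.Defs
import Fermat.Agent.NEB.EIG.H98_MonoH

/-!
# S48 / B2, slice T, leaf T-DICT (helper98): the torsion dictionary

`stmt_Dict : Stmt_Dict`.

General lemmas on the relation `TorChar1 M c H n ι x φ` (any `M`, `c`, `H`, `n`):

* `torChar1_tors`     : `TorChar1 x φ → n • x = 0`;
* `hasChar1_inv`      : `HasChar1 f φ → HasChar1 f⁻¹ (-φ)`;
* `torChar1_sub`      : `TorChar1 x φ → TorChar1 y ψ → TorChar1 (x - y) (φ - ψ)`;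
* `torChar1_zero_tors`: `TorChar1 x 0 → |H| • x = 0`;
* `torChar1_inj`      : `|H| = 1`, `TorChar1 x φ`, `TorChar1 y φ` `⟹ x = y`;
* `torChar1_TH`, `torChar1_diamond` : Hecke and diamond operators.
(`exists_torChar1`, `torChar1_unique`, `torChar1_add` are in `NEB/EIG/H98_MonoAsm.lean`.)
-/

set_option autoImplicit false
set_option linter.unusedSectionVars false

noncomputable section

namespace Fermat.Agent.S48.B2.T.H98

open AlgebraicCurve ModularCurve UpperHalfPlane CongruenceSubgroup Matrix.SpecialLinearGroup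
open Fermat.Agent.NEB Fermat.Agent.NEB.JH Fermat.Agent.NEB.H84 Fermat.Agent.NEB.EIG.H39
open Fermat.Agent.NEB.EIG.H98 Fermat.Agent.NEB.EIG.H34 Fermat.Agent.GTor
open scoped MatrixGroups ModularForm Manifold

variable {M c : ℕ} {H : Subgroup (ZMod c)ˣ} {n : ℕ} (ι : Kbar →+* ℂ)

/-- a class with a character is killed by `n` -/
theorem torChar1_tors (hc2 : 2 ≤ c) (hc : c ∣ M) (hM : M ≠ 0) (hn : n ≠ 0)
    {x : JH M c H} {φ : Additive (Gam1 M c) →+ ZMod n} (h : TorChar1 M c H n ι x φ) :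
    n • x = 0 := by
  obtain ⟨D, f, hf, hx, hD, -⟩ := h
  have h2 := (Fermat.Agent.NEB.EIG.H12.stmt_KUM1 M c H n hc2 hc hM hn).2 D f f n hf hD rfl
  rw [hx, ← natCast_zsmul]
  exact h2

/-- the character of the inverse -/
theorem hasChar1_inv (hc2 : 2 ≤ c) (hc : c ∣ M) (hM : M ≠ 0) (hn : n ≠ 0)
    {f : ↥(FHbar M c H)} (hf : f ≠ 0) {φ : Additive (Gam1 M c) →+ ZMod n}
    (h : HasChar1 M c H n ι f φ) : HasChar1 M c H n ι f⁻¹ (-φ) := by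
  have : NeZero M := ⟨hM⟩
  obtain ⟨-, hmul, hpow⟩ :=
    Fermat.Agent.NEB.EIG.H34.stmt_CHAR1_of (n := n) (stmt_A1H M c H) hc2 hc hM hn ι
  -- `f ^ m` has character `m • φ`
  have hp : ∀ m : ℕ, HasChar1 M c H n ι (f ^ (m + 1)) ((m + 1) • φ) := by
    intro m
    induction m with
    | zero => simpa using h
    | succ m ih =>
      have := hmul _ _ _ _ (pow_ne_zero _ hf) hf ih h
      rw [← pow_succ, ← succ_nsmul] at this
      exact this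
  obtain ⟨m, rfl⟩ : ∃ m, n = m + 1 := ⟨n - 1, by omega⟩
  have hi := hpow f⁻¹ (inv_ne_zero hf)
  have hφ : (m + 1) • φ = 0 := by
    ext γ
    have h1 : ((m + 1 : ℕ) : ZMod (m + 1)) = 0 := ZMod.natCast_self (m + 1)
    show (m + 1) • φ γ = 0
    rw [nsmul_eq_mul, h1, zero_mul]
  by_cases hm : m = 0
  · subst hm
    have h0 : φ = 0 := by simpa using hφ
    subst h0
    simpa using hi
  · obtain ⟨m', rfl⟩ : ∃ m', m = m' + 1 := ⟨m - 1, by omega⟩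
    have h3 := hmul _ _ _ _ (pow_ne_zero _ hf) (pow_ne_zero _ (inv_ne_zero hf)) (hp m') hi
    have e1 : f ^ (m' + 1) * f⁻¹ ^ (m' + 1 + 1) = f⁻¹ := by
      rw [pow_succ f⁻¹ (m' + 1), ← mul_assoc, ← mul_pow, mul_inv_cancel₀ hf, one_pow, one_mul]
    have e2 : (m' + 1) • φ + 0 = -φ := by
      rw [add_zero, eq_neg_iff_add_eq_zero, ← succ_nsmul]
      exact hφ
    rw [e1, e2] at h3
    exact h3

theorem torChar1_neg (hc2 : 2 ≤ c) (hc : c ∣ M) (hM : M ≠ 0) (hn : n ≠ 0)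
    {x : JH M c H} {φ : Additive (Gam1 M c) →+ ZMod n} (h : TorChar1 M c H n ι x φ) :
    TorChar1 M c H n ι (-x) (-φ) := by
  obtain ⟨D, f, hf, hx, hD, hchar⟩ := h
  refine ⟨-D, f⁻¹, inv_ne_zero hf, by rw [hx]; rfl, fun v => ?_,
    hasChar1_inv ι hc2 hc hM hn hf hchar⟩
  rw [v.ord_inv, ← hD v]
  show (n : ℤ) * (-(D : Divisor Kbar ↥(FHbar M c H))) v = _
  rw [Finsupp.neg_apply]
  ring

theorem torChar1_sub (hc2 : 2 ≤ c) (hc : c ∣ M) (hM : M ≠ 0) (hn : n ≠ 0)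
    {x y : JH M c H} {φ ψ : Additive (Gam1 M c) →+ ZMod n}
    (h₁ : TorChar1 M c H n ι x φ) (h₂ : TorChar1 M c H n ι y ψ) :
    TorChar1 M c H n ι (x - y) (φ - ψ) := by
  rw [sub_eq_add_neg, sub_eq_add_neg]
  exact torChar1_add ι hc2 hc hM hn h₁ (torChar1_neg ι hc2 hc hM hn h₂)

/-- a class with trivial character is killed by `|H|` -/
theorem torChar1_zero_tors (hc2 : 2 ≤ c) (hc : c ∣ M) (hM : M ≠ 0) (hn : n ≠ 0)
    {x : JH M c H} (h : TorChar1 M c H n ι x 0) : Nat.card H • x = 0 := by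
  obtain ⟨D, f, hf, hx, hD, hchar⟩ := h
  obtain ⟨g, hg⟩ := Fermat.Agent.NEB.EIG.H46.stmt_INJ1 M c H n hc2 hc hM hn ι f hf hchar
  have h2 := (Fermat.Agent.NEB.EIG.H12.stmt_KUM1 M c H n hc2 hc hM hn).2 D f g (Nat.card H)
    hf hD hg
  rw [hx, ← natCast_zsmul]
  exact h2

/-- for `|H| = 1` the character determines the class -/
theorem torChar1_inj (hc2 : 2 ≤ c) (hc : c ∣ M) (hM : M ≠ 0) (hn : n ≠ 0)
    (hH : Nat.card H = 1) {x y : JH M c H} {φ : Additive (Gam1 M c) →+ ZMod n}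
    (h₁ : TorChar1 M c H n ι x φ) (h₂ : TorChar1 M c H n ι y φ) : x = y := by
  have h := torChar1_sub ι hc2 hc hM hn h₁ h₂
  rw [sub_self] at h
  have h0 := torChar1_zero_tors ι hc2 hc hM hn h
  rw [hH, one_smul] at h0
  exact sub_eq_zero.mp h0

/-- Hecke operators -/
theorem torChar1_TH (hc2 : 2 ≤ c) (hc : c ∣ M) (hM : M ≠ 0) (hn : n ≠ 0)
    {ℓ : ℕ} (hℓ : ℓ.Prime) (hℓM : ¬ ℓ ∣ M) :
    haveI : NeZero ℓ := ⟨hℓ.ne_zero⟩
    ∀ (hβ : BetaOK M c ℓ H) {x : JH M c H} {φ : Additive (Gam1 M c) →+ ZMod n},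
      TorChar1 M c H n ι x φ → TorChar1 M c H n ι (TH hβ x) (TDadd M c hc hℓ hℓM φ) := by
  have : NeZero ℓ := ⟨hℓ.ne_zero⟩
  intro hβ x φ h
  have hFF := isFF_FHbar' (H := H) hc2 hc hM
  have hFF' : Fermat.Agent.RED.IsFF Kbar ↥(FHbar (M * ℓ) c H) :=
    isFF_FHbar' hc2 (Dvd.dvd.mul_right hc ℓ) (mul_ne_zero hM hℓ.ne_zero)
  have : NeZero M := ⟨hM⟩
  obtain ⟨D, f, hf, hxD, hD, hchar⟩ := h
  obtain ⟨E, hE, hT0, hEv⟩ := TH_kummer hFF hFF' hβ ((n : ℕ) : ℤ) D hf hD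
  have hch := Fermat.Agent.NEB.EIG.H94.stmt_HK1 M c H n hc2 hc hM hn ι ℓ hℓ hℓM hβ f _ hf hchar
  exact ⟨E, THfn hβ f, hT0, by rw [hxD, hE], hEv, hch⟩

/-- diamond operators -/
theorem torChar1_diamond (hc2 : 2 ≤ c) (hc : c ∣ M) (hM : M ≠ 0) (hn : n ≠ 0)
    (dd : DiamondData M c H) (d : (ZMod c)ˣ) (g : SL(2, ℤ)) (hg : (M : ℤ) ∣ g 1 0)
    (hgd : ((g 0 0 : ℤ) : ZMod c) = (d : ZMod c))
    {x : JH M c H} {φ : Additive (Gam1 M c) →+ ZMod n} (h : TorChar1 M c H n ι x φ) :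
    TorChar1 M c H n ι (dd.ρ d • x) (Dadd hc g hg φ) := by
  have : NeZero M := ⟨hM⟩
  obtain ⟨D, f, hf, hxD, hD, hchar⟩ := h
  obtain ⟨E, hE, hT0, hEv⟩ := diamond_kummer dd d ((n : ℕ) : ℤ) D hf hD
  have hch := Fermat.Agent.NEB.EIG.H12.stmt_DIAM1 M c H n hc2 hc hM hn ι dd d g hg hgd f _ hf hchar
  exact ⟨E, dd.ρ d f, hT0, by rw [hxD, hE], hEv, hch⟩

/-- **T-DICT**. -/
theorem stmt_Dict : Stmt_Dict := by
  intro M _ h2 n hn ι
  have hM : M ≠ 0 := NeZero.ne M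
  have hc : M ∣ M := dvd_rfl
  refine ⟨fun x hx => ?_, fun x φ h => torChar1_tors ι h2 hc hM hn h,
    fun x y φ h₁ h₂ => torChar1_inj ι h2 hc hM hn Subgroup.card_bot h₁ h₂,
    fun x φ ψ h₁ h₂ => torChar1_unique ι h2 hc hM hn h₁ h₂,
    fun x y φ ψ h₁ h₂ => torChar1_add ι h2 hc hM hn h₁ h₂,
    fun q hq hqM hβ x φ h => torChar1_TH ι h2 hc hM hn hq hqM hβ h,
    fun dd d g hg hgd x φ h => torChar1_diamond ι h2 hc hM hn dd d g hg hgd h⟩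
  exact exists_torChar1 ι h2 hc hM hn x (by rw [natCast_zsmul]; exact hx)

end Fermat.Agent.S48.B2.T.H98
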