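import Fermat.Agent.S48.B2.T.Defs
import Fermat.Agent.S48.B2.T.H01_AsmCore
import Fermat.Agent.S48.B2.T.H43_Basis
import Fermat.Agent.S48.B2.T.H43_EigRed
import Fermat.Agent.S48.B2.T.H55_Period
import Fermat.Agent.S48.B2.T.H98_Dict
import Fermat.Agent.NEB.EIG.H39_EigA2
import Fermat.Agent.GTor.H56_FinUnr

/-!
# S48 / B2 / slice T, leaf T-ASM (helper1)

`Stmt_Exist1 → B2.Stmt_EigBot (-1) (-1)`, from the landed leaves T-BASIS (`H43.stmt_Basis1`),
T-PER (`H55.stmt_Period1`), T-RED (`H43.eigRed`), T-DICT (`H98.stmt_Dict`) and the abstract core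
`H01.asm_core`.
-/

set_option autoImplicit false
set_option linter.unusedVariables false
set_option linter.unusedSectionVars false
set_option linter.style.haveILetI false

noncomputable section

namespace Fermat.Agent.S48.B2.T.H01

open AlgebraicCurve ModularCurve UpperHalfPlane CongruenceSubgroup Matrix.SpecialLinearGroup
open Fermat.Agent.NEB Fermat.Agent.NEB.JH Fermat.Agent.NEB.H84 Fermat.Agent.NEB.EIG.H39
open Fermat.Agent.NEB.EIG.H98 Fermat.Agent.NEB.EIG.H34 Fermat.Agent.GTor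
open Fermat.Agent.Betti ModularCurve.Period
open scoped MatrixGroups ModularForm Manifold

/-! ## 1. Natural operators on `Hom(Γ, ·)` and their matrices -/

section Op

variable {Γ : Subgroup SL(2, ℤ)} {r : ℕ} (bas : Fin r → (Additive Γ →+ ℤ))
  (op : ∀ (A : Type) [AddCommGroup A], (Additive Γ →+ A) → (Additive Γ →+ A))
  (hadd : ∀ (A : Type) [AddCommGroup A] (φ ψ : Additive Γ →+ A),
    op A (φ + ψ) = op A φ + op A ψ)
  (hcomp : ∀ (A B : Type) [AddCommGroup A] [AddCommGroup B] (u : A →+ B)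
    (φ : Additive Γ →+ A), op B (u.comp φ) = u.comp (op A φ))

include hadd in
theorem op_zero (A : Type) [AddCommGroup A] : op A 0 = 0 := by
  have h := hadd A 0 0
  rw [add_zero] at h
  exact left_eq_add.mp h

include hadd in
theorem op_sum (A : Type) [AddCommGroup A] {ι : Type*} (s : Finset ι)
    (f : ι → (Additive Γ →+ A)) : op A (∑ i ∈ s, f i) = ∑ i ∈ s, op A (f i) := by
  classical
  induction s using Finset.induction_on with
  | empty => simpa using op_zero op hadd A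
  | insert a s ha ih => rw [Finset.sum_insert ha, Finset.sum_insert ha, hadd, ih]

/-- The matrix of an operator preserving `homPE (Γ, ℤ)` in a universal basis. -/
theorem exists_mat
    (hbasU : ∀ (A : Type) [AddCommGroup A] [IsAddTorsionFree A] (φ : Additive Γ →+ A),
      φ ∈ homPE Γ A → ∃! a : Fin r → A, ∀ γ, φ γ = ∑ i, bas i γ • a i)
    (hPE : ∀ i, op ℤ (bas i) ∈ homPE Γ ℤ) :
    ∃ A : Matrix (Fin r) (Fin r) ℤ, ∀ i, op ℤ (bas i) = ∑ m, A m i • bas m := by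
  choose a ha _ using fun i => hbasU ℤ (op ℤ (bas i)) (hPE i)
  refine ⟨fun m i => a i m, fun i => ?_⟩
  refine AddMonoidHom.ext fun γ => ?_
  rw [ha i γ, AddMonoidHom.finsetSum_apply]
  refine Finset.sum_congr rfl fun m _ => ?_
  rw [AddMonoidHom.smul_apply, smul_eq_mul, smul_eq_mul, mul_comm]

include hadd hcomp in
/-- The coordinates of an eigenvector form an eigenvector of the matrix. -/
theorem mulVec_of_eig
    (hbasU : ∀ (A : Type) [AddCommGroup A] [IsAddTorsionFree A] (φ : Additive Γ →+ A),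
      φ ∈ homPE Γ A → ∃! a : Fin r → A, ∀ γ, φ γ = ∑ i, bas i γ • a i)
    (A : Matrix (Fin r) (Fin r) ℤ) (hA : ∀ i, op ℤ (bas i) = ∑ m, A m i • bas m)
    (ψ : Additive Γ →+ ℂ) (hψ : ψ ∈ homPE Γ ℂ) (c : Fin r → ℂ)
    (hc : ∀ γ, ψ γ = ∑ i, bas i γ • c i) (lam : ℂ) (hlam : ∀ γ, op ℂ ψ γ = lam * ψ γ) :
    (A.map (Int.cast : ℤ → ℂ)).mulVec c = lam • c := by
  classical
  -- `ψ = ∑ u_i ∘ bas i`
  have hψsum : ψ = ∑ i, (zmultiplesHom ℂ (c i)).comp (bas i) := by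
    refine AddMonoidHom.ext fun γ => ?_
    rw [hc γ, AddMonoidHom.finsetSum_apply]
    rfl
  have hop : ∀ γ, op ℂ ψ γ = ∑ m, bas m γ • (A.map (Int.cast : ℤ → ℂ)).mulVec c m := by
    intro γ
    rw [hψsum, op_sum op hadd, AddMonoidHom.finsetSum_apply]
    simp only [hcomp, hA, AddMonoidHom.comp_apply, AddMonoidHom.finsetSum_apply,
      AddMonoidHom.smul_apply, map_sum, zmultiplesHom_apply, Matrix.mulVec, dotProduct,
      Matrix.map_apply, Finset.smul_sum, smul_eq_mul, zsmul_eq_mul, Int.cast_mul]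
    rw [Finset.sum_comm]
    refine Finset.sum_congr rfl fun m _ => Finset.sum_congr rfl fun i _ => ?_
    ring
  have hopPE : op ℂ ψ ∈ homPE Γ ℂ := by
    refine ⟨fun γ hγ => ?_, fun γ hγ => ?_⟩
    · rw [hlam, hψ.1 γ hγ, mul_zero]
    · rw [hlam, hψ.2 γ hγ, mul_zero]
  obtain ⟨a, -, hau⟩ := hbasU ℂ (op ℂ ψ) hopPE
  have h1 := hau _ hop
  have h2 := hau (lam • c) (fun γ => by
    rw [hlam, hc γ, Finset.mul_sum]
    refine Finset.sum_congr rfl fun i _ => ?_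
    simp only [Pi.smul_apply, smul_eq_mul, zsmul_eq_mul]
    ring)
  rw [h1, h2]

include hcomp in
/-- The matrix of the operator on the reductions of the basis. -/
theorem red_of_mat (ℓ : ℕ) (A : Matrix (Fin r) (Fin r) ℤ)
    (hA : ∀ i, op ℤ (bas i) = ∑ m, A m i • bas m) (i : Fin r) :
    op (ZMod ℓ) ((Int.castAddHom (ZMod ℓ)).comp (bas i))
      = ∑ m, A m i • ((Int.castAddHom (ZMod ℓ)).comp (bas m)) := by
  rw [hcomp, hA]
  refine AddMonoidHom.ext fun γ => ?_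
  simp only [AddMonoidHom.comp_apply, AddMonoidHom.finsetSum_apply, AddMonoidHom.smul_apply,
    map_sum, map_zsmul]

end Op

/-! ## 2. Parabolic and elliptic elements -/

section PE

variable {Γ : Subgroup SL(2, ℤ)}

/-- An integer valued parabolic homomorphism is in `homPE`. -/
theorem mem_homPE_int {φ : Additive Γ →+ ℤ} (hφ : IsParabolicHom Γ φ) : φ ∈ homPE Γ ℤ := by
  refine ⟨hφ, fun γ hγ => ?_⟩
  obtain ⟨n, hn, hγn⟩ := hγ.exists_pow_eq_one
  have h1 : (n : ℤ) * φ (Additive.ofMul γ) = 0 := by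
    have h2 : φ (Additive.ofMul (γ ^ n)) = n • φ (Additive.ofMul γ) := by
      rw [ofMul_pow, map_nsmul]
    rw [hγn] at h2
    have h3 : φ (Additive.ofMul (1 : Γ)) = 0 := map_zero φ
    rw [h3] at h2
    rw [← nsmul_eq_mul]
    exact h2.symm
  rcases mul_eq_zero.mp h1 with h | h
  · exact absurd (by exact_mod_cast h) hn.ne'
  · exact h

/-- Reduction of the coefficients preserves `homPE`. -/
theorem comp_mem_homPE {A B : Type*} [AddCommGroup A] [AddCommGroup B] (u : A →+ B)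
    {φ : Additive Γ →+ A} (hφ : φ ∈ homPE Γ A) : u.comp φ ∈ homPE Γ B := by
  refine ⟨fun γ hγ => ?_, fun γ hγ => ?_⟩
  · show u (φ _) = 0
    rw [hφ.1 γ hγ, map_zero]
  · show u (φ _) = 0
    rw [hφ.2 γ hγ, map_zero]

/-- The Betti Hecke operator `TDadd` preserves parabolic homomorphisms. -/
theorem TDadd_isPar {M c : ℕ} (hc : c ∣ M) {q : ℕ} (hq : q.Prime) (hqM : ¬ q ∣ M)
    {A : Type*} [AddCommGroup A] {φ : Additive (Gam1 M c) →+ A}
    (hφ : IsParabolicHom (Gam1 M c) φ) :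
    IsParabolicHom (Gam1 M c) (TDadd M c hc hq hqM φ) := by
  haveI : Fact q.Prime := ⟨hq⟩
  intro γ hγ
  refine Fermat.Agent.Betti.H76.heckeOp_vanishes_gen (stmt_FAM_hecke M c q hc hq hqM)
    (inc_injective _)
    {γ : Gam1 M c | ((γ : SL(2, ℤ)) : Matrix (Fin 2) (Fin 2) ℤ).trace ^ 2 = 4}
    (fun γ hγ n _ i κ h => ?_) φ (fun γ hγ => hφ γ hγ) γ hγ
  exact Fermat.Agent.Betti.parabolic_stable M _ ⟨γ, Gam1_le_Gamma0 M c γ.2⟩ hγ n i
    ⟨κ, Gam1_le_Gamma0 M c κ.2⟩ h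

/-- The reductions mod `ℓ` of a universal basis are independent. -/
theorem indep_mod {r : ℕ} (bas : Fin r → (Additive Γ →+ ℤ)) (hbasPE : ∀ i, bas i ∈ homPE Γ ℤ)
    (hbasU : ∀ (A : Type) [AddCommGroup A] [IsAddTorsionFree A] (φ : Additive Γ →+ A),
      φ ∈ homPE Γ A → ∃! a : Fin r → A, ∀ γ, φ γ = ∑ i, bas i γ • a i)
    (ℓ : ℕ) (hℓ : ℓ ≠ 0) (n : Fin r → ℤ)
    (h : ∑ i, n i • ((Int.castAddHom (ZMod ℓ)).comp (bas i)) = 0) : ∀ i, (ℓ : ℤ) ∣ n i := by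
  classical
  have hℓ' : (ℓ : ℤ) ≠ 0 := by exact_mod_cast hℓ
  set f : Additive Γ →+ ℤ := ∑ i, n i • bas i with hf
  have hfPE : f ∈ homPE Γ ℤ := (homPE Γ ℤ).sum_mem fun i _ => (homPE Γ ℤ).zsmul_mem (hbasPE i) _
  have hfγ : ∀ γ, f γ = ∑ i, bas i γ • n i := by
    intro γ
    rw [hf, AddMonoidHom.finsetSum_apply]
    refine Finset.sum_congr rfl fun i _ => ?_
    rw [AddMonoidHom.smul_apply, smul_eq_mul, smul_eq_mul, mul_comm]
  have hdvd : ∀ γ, (ℓ : ℤ) ∣ f γ := by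
    intro γ
    have h1 := congrArg (fun φ : Additive Γ →+ ZMod ℓ => φ γ) h
    simp only [AddMonoidHom.finsetSum_apply, AddMonoidHom.smul_apply, AddMonoidHom.comp_apply,
      AddMonoidHom.zero_apply, Int.coe_castAddHom] at h1
    rw [← ZMod.intCast_zmod_eq_zero_iff_dvd]
    rw [hf, AddMonoidHom.finsetSum_apply]
    push_cast
    simpa [AddMonoidHom.smul_apply] using h1
  let g : Additive Γ →+ ℤ :=
    { toFun := fun γ => f γ / ℓ
      map_zero' := by simp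
      map_add' := fun x y => by
        show f (x + y) / ℓ = f x / ℓ + f y / ℓ
        rw [map_add, Int.add_ediv_of_dvd_left (hdvd x)] }
  have hgγ : ∀ γ, f γ = ℓ * g γ := fun γ => (Int.mul_ediv_cancel' (hdvd γ)).symm
  have hgPE : g ∈ homPE Γ ℤ := by
    refine ⟨fun γ hγ => ?_, fun γ hγ => ?_⟩
    · show f _ / (ℓ : ℤ) = 0
      rw [hfPE.1 γ hγ, Int.zero_ediv]
    · show f _ / (ℓ : ℤ) = 0
      rw [hfPE.2 γ hγ, Int.zero_ediv]
  obtain ⟨a, ha, -⟩ := hbasU ℤ g hgPE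
  obtain ⟨a', -, ha'u⟩ := hbasU ℤ f hfPE
  have h1 := ha'u n hfγ
  have h2 := ha'u (fun i => ℓ * a i) (fun γ => by
    rw [hgγ γ, ha γ, Finset.mul_sum]
    refine Finset.sum_congr rfl fun i _ => ?_
    simp only [smul_eq_mul]
    ring)
  intro i
  have h3 : n i = ℓ * a i := by
    have := congrFun (h1.trans h2.symm) i
    exact this
  exact ⟨a i, h3⟩

end PE

/-! ## 3. The assembly -/

section Final

/-- The value of `χ` at the lower right entry of `g ∈ Γ₀(M)` with upper left entry `d`. -/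
theorem chi_lower {M : ℕ} [NeZero M] (χ : DirichletCharacter ℂ M) (d : (ZMod M)ˣ) (g : SL(2, ℤ))
    (hg : (M : ℤ) ∣ g 1 0) (hgd : ((g 0 0 : ℤ) : ZMod M) = (d : ZMod M)) :
    χ (((g 1 1 : ℤ) : ZMod M)) = ((χ (d : ZMod M) : ℂ)) ^ (-1 : ℤ) := by
  have hdet := sl_det g
  have h0 : ((g 1 0 : ℤ) : ZMod M) = 0 := (ZMod.intCast_zmod_eq_zero_iff_dvd _ _).mpr hg
  have h1 := congrArg (fun z : ℤ => (z : ZMod M)) hdet
  simp only [Int.cast_sub, Int.cast_mul, Int.cast_one, h0, mul_zero, sub_zero, hgd] at h1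
  have h2 : χ (d : ZMod M) * χ (((g 1 1 : ℤ) : ZMod M)) = 1 := by
    rw [← map_mul, h1, map_one]
  rw [zpow_neg_one]
  exact eq_inv_of_mul_eq_one_right h2

/-- **T-ASM**: slice T from the existence of torsion points. -/
theorem eigBot_of (hExist : Stmt_Exist1) : Fermat.Agent.S48.B2.Stmt_EigBot (-1) (-1) := by
  intro M _ χ G b hM2 hG hneb ℓ hℓ h5 hℓφ k _ _ _ φ dd
  classical
  haveI : NeZero ℓ := ⟨hℓ.ne_zero⟩
  -- an embedding `ℚ̄ → ℂ`
  have halg : Algebra.IsAlgebraic ℚ (AlgebraicClosure ℚ) := AlgebraicClosure.isAlgebraic ℚ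
  obtain ⟨ι⟩ : Nonempty (Kbar →+* ℂ) :=
    ⟨((IsAlgClosed.lift : AlgebraicClosure ℚ →ₐ[ℚ] ℂ) : AlgebraicClosure ℚ →+* ℂ)⟩
  -- the leaves
  obtain ⟨d1, d2, d3, d4, d5, d6, d7⟩ := H98.stmt_Dict M hM2 ℓ hℓ.ne_zero ι
  obtain ⟨r', bas, hbasPE, hbasU⟩ := H43.stmt_Basis1 M
  obtain ⟨ψ, hψ0, hψPE, hψT, hψD⟩ := H55.stmt_Period1 M χ G b hM2 hG hneb
  obtain ⟨c, hc, -⟩ := hbasU ℂ ψ hψPE
  have hc0 : c ≠ 0 := by
    rintro rfl
    apply hψ0
    refine AddMonoidHom.ext fun γ => ?_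
    rw [hc γ]; simp
  -- the operators
  let I := {q : ℕ // q.Prime ∧ ¬ q ∣ M} ⊕ {g : SL(2, ℤ) // (M : ℤ) ∣ g 1 0}
  let op : I → ∀ (A : Type) [AddCommGroup A],
      (Additive (Gam1 M M) →+ A) → (Additive (Gam1 M M) →+ A) :=
    fun i => match i with
      | Sum.inl q => fun A _ φ => TDadd M M dvd_rfl q.2.1 q.2.2 φ
      | Sum.inr g => fun A _ φ => Dadd dvd_rfl g.1 g.2 φ
  have hadd : ∀ (i : I) (A : Type) [AddCommGroup A] (φ ψ : Additive (Gam1 M M) →+ A),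
      op i A (φ + ψ) = op i A φ + op i A ψ := by
    rintro (q | g) A _ φ ψ
    · haveI : Fact q.1.Prime := ⟨q.2.1⟩
      exact IsHeckeFamily.heckeOp_add _ _ φ ψ
    · rfl
  have hcomp : ∀ (i : I) (A B : Type) [AddCommGroup A] [AddCommGroup B] (u : A →+ B)
      (φ : Additive (Gam1 M M) →+ A), op i B (u.comp φ) = u.comp (op i A φ) := by
    rintro (q | g) A B _ _ u φ
    · haveI : Fact q.1.Prime := ⟨q.2.1⟩
      exact IsHeckeFamily.heckeOp_comp _ _ u φ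
    · rfl
  have hPEop : ∀ (i : I) (j : Fin r'), op i ℤ (bas j) ∈ homPE (Gam1 M M) ℤ := by
    rintro (q | g) j
    · exact mem_homPE_int (TDadd_isPar dvd_rfl q.2.1 q.2.2 (hbasPE j).1)
    · exact mem_homPE_int (isPar_tw _ (hbasPE j).1)
  choose A hA using fun i => exists_mat bas (op i) hbasU (hPEop i)
  let lam : I → ℂ := fun i => match i with
      | Sum.inl q => b q.1 * ((χ (q.1 : ZMod M) : ℂ)) ^ (-1 : ℤ)
      | Sum.inr g => χ (((g.1 1 1 : ℤ) : ZMod M))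
  have heig : ∀ i, ((A i).map (Int.cast : ℤ → ℂ)).mulVec c = lam i • c := by
    intro i
    refine mulVec_of_eig bas (op i) (hadd i) (hcomp i) hbasU (A i) (hA i) ψ hψPE c hc (lam i) ?_
    rcases i with q | g
    · exact fun γ => hψT q.1 q.2.1 q.2.2 γ
    · exact fun γ => hψD g.1 g.2 γ
  obtain ⟨-, w, hw0, hw⟩ := H43.eigRed A lam c hc0 heig φ
  -- the points
  let β : Fin r' → (Additive (Gam1 M M) →+ ZMod ℓ) :=
    fun i => (Int.castAddHom (ZMod ℓ)).comp (bas i)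
  have hβPE : ∀ i, β i ∈ homPE (Gam1 M M) (ZMod ℓ) := fun i => comp_mem_homPE _ (hbasPE i)
  choose pts hpts using fun i => hExist M hM2 ℓ hℓ h5 hℓφ ι (β i) (hβPE i)
  -- finiteness of the group of characters
  haveI := H43.groupFG_gam1' M M
  haveI : Finite (Additive (Gam1 M M) →+ ZMod ℓ) :=
    Fermat.Agent.GTor.H56.finite_addMonoidHom_of_fg _ _
  obtain ⟨r, θ, v, hv, hmain⟩ := asm_core ℓ hℓ (TorChar1 M M ⊥ ℓ ι)
    (fun x hx => (d1 x hx).imp fun φ h => h.2) d2 d3 d4 d5 β pts hpts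
    (indep_mod bas hbasPE hbasU ℓ hℓ.ne_zero) k w hw0
  refine ⟨r, θ, v, hv, ?_, ?_⟩
  · intro q _ hβq hq hqMℓ X hX t ht
    have hqM : ¬ q ∣ M := fun h => hqMℓ (Dvd.dvd.mul_right h ℓ)
    refine hmain (fun x => TH hβq x) (op (Sum.inl ⟨q, hq, hqM⟩) (ZMod ℓ))
      (A (Sum.inl ⟨q, hq, hqM⟩)) (φ t) ?_ ?_ ?_ X hX
    · intro x φ' h
      exact d6 q hq hqM hβq x φ' h
    · intro i
      exact red_of_mat bas (op (Sum.inl ⟨q, hq, hqM⟩)) (hcomp (Sum.inl ⟨q, hq, hqM⟩)) ℓ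
        (A (Sum.inl ⟨q, hq, hqM⟩)) (hA (Sum.inl ⟨q, hq, hqM⟩)) i
    · exact hw (Sum.inl ⟨q, hq, hqM⟩) t ht
  · intro d X hX t ht
    obtain ⟨g, hg, hgd⟩ := Fermat.Agent.NEB.EIG.H39.exists_gam0 (NeZero.ne M) (dvd_refl M) d
    refine hmain (fun x => dd.ρ d • x) (op (Sum.inr ⟨g, hg⟩) (ZMod ℓ))
      (A (Sum.inr ⟨g, hg⟩)) (φ t) ?_ ?_ ?_ X hX
    · intro x φ' h
      exact d7 dd d g hg hgd.symm x φ' h
    · intro i
      exact red_of_mat bas (op (Sum.inr ⟨g, hg⟩)) (hcomp (Sum.inr ⟨g, hg⟩)) ℓ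
        (A (Sum.inr ⟨g, hg⟩)) (hA (Sum.inr ⟨g, hg⟩)) i
    · refine hw (Sum.inr ⟨g, hg⟩) t ?_
      rw [ht]
      exact (chi_lower χ d g hg hgd.symm).symm

end Final

end Fermat.Agent.S48.B2.T.H01
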