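/-
S48 (row 43), mountain B, part B2, slice T, leaf E-A5C, part A5C-SLASH (helper25).

`stmt_A5Slash : T.H96.Stmt_A5Slash`: the order of vanishing of `A ∣[k] δ` at `z` is the order of
`A` at `δ • z` (`A` holomorphic on the upper half plane, `δ ∈ SL₂(ℤ)`).

Proof: `A ∣[k] δ = (δ⁻¹ • A) · j(δ, ·)^(-k)` in the ring `S24.Hol`; the automorphy factor is
holomorphic without zeros, and `S24.Hol.ordNat_smul` moves the point.
-/
import Fermat.Agent.S48.B2.T.H96_A5Defs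

set_option autoImplicit false

noncomputable section

namespace Fermat.Agent.S48.B2.T.H25

open UpperHalfPlane CongruenceSubgroup Matrix.SpecialLinearGroup
open Fermat.Agent.NEB.EIG.H98 Fermat.Agent.S24
open scoped MatrixGroups ModularForm Manifold

/-- The automorphy factor `τ ↦ j(δ, τ)^(-k)` as an element of `Hol`. -/
def denomHol (δ : SL(2, ℤ)) (k : ℤ) : Hol :=
  ⟨fun τ : ℍ => denom (δ : GL (Fin 2) ℝ) τ ^ (-k), mdifferentiable_denom_zpow _ _⟩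

theorem denomHol_apply (δ : SL(2, ℤ)) (k : ℤ) (τ : ℍ) :
    (denomHol δ k : ℍ → ℂ) τ = denom (δ : GL (Fin 2) ℝ) τ ^ (-k) := rfl

theorem denomHol_apply_ne_zero (δ : SL(2, ℤ)) (k : ℤ) (τ : ℍ) :
    (denomHol δ k : ℍ → ℂ) τ ≠ 0 := by
  rw [denomHol_apply]
  exact zpow_ne_zero _ (denom_ne_zero _ τ)

theorem denomHol_ne_zero (δ : SL(2, ℤ)) (k : ℤ) : denomHol δ k ≠ 0 := by
  intro h
  have := congrFun (congrArg Subtype.val h) UpperHalfPlane.I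
  exact denomHol_apply_ne_zero δ k UpperHalfPlane.I this

theorem ordNat_denomHol (z : ℍ) (δ : SL(2, ℤ)) (k : ℤ) : Hol.ordNat z (denomHol δ k) = 0 :=
  (Hol.ordNat_eq_zero_iff z (denomHol_ne_zero δ k)).mpr (denomHol_apply_ne_zero δ k z)

/-- The slash action in terms of the action of `SL₂(ℤ)` on `Hol`. -/
theorem slash_eq_hol (δ : SL(2, ℤ)) (k : ℤ) (A : Hol) :
    (A : ℍ → ℂ) ∣[k] δ = ((δ⁻¹ • A * denomHol δ k : Hol) : ℍ → ℂ) := by
  funext τ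
  rw [ModularForm.SL_slash_apply]
  show _ = ((δ⁻¹ • A : Hol) : ℍ → ℂ) τ * (denomHol δ k : ℍ → ℂ) τ
  rw [Hol.smul_apply, inv_inv, denomHol_apply]

theorem ordPt_zero (z : ℍ) (k : ℤ) : ordPt z k (0 : ℍ → ℂ) = 0 := by
  have h : analyticOrderAt ((0 : ℍ → ℂ) ∘ UpperHalfPlane.ofComplex) (z : ℂ) = ⊤ := by
    rw [analyticOrderAt_eq_top]
    exact Filter.Eventually.of_forall fun w => rfl
  show ((analyticOrderNatAt ((0 : ℍ → ℂ) ∘ UpperHalfPlane.ofComplex) (z : ℂ) : ℕ) : ℤ) = 0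
  unfold analyticOrderNatAt
  rw [h]
  rfl

/-- The order of `A ∣[k] δ` at `z` is the order of `A` at `δ • z`. -/
theorem ordPt_slash (z : ℍ) (δ : SL(2, ℤ)) (k : ℤ) {A : ℍ → ℂ}
    (hA : MDifferentiable 𝓘(ℂ) 𝓘(ℂ) A) : ordPt z k (A ∣[k] δ) = ordPt (δ • z) k A := by
  by_cases hA0 : A = 0
  · subst hA0
    rw [SlashAction.zero_slash, ordPt_zero, ordPt_zero]
  have hne : (⟨A, hA⟩ : Hol) ≠ 0 := hol_ne_zero hA hA0
  have hsm : (δ⁻¹ • (⟨A, hA⟩ : Hol)) ≠ 0 := by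
    intro h
    apply hne
    have := congrArg (fun f : Hol => δ • f) h
    simpa using this
  have e := slash_eq_hol δ k ⟨A, hA⟩
  have e' : A ∣[k] δ = ((δ⁻¹ • (⟨A, hA⟩ : Hol) * denomHol δ k : Hol) : ℍ → ℂ) := e
  have hmd : MDifferentiable 𝓘(ℂ) 𝓘(ℂ) (A ∣[k] δ) := by
    rw [e']
    exact (δ⁻¹ • (⟨A, hA⟩ : Hol) * denomHol δ k : Hol).2
  rw [ordPt_eq_ordNat z k hmd, ordPt_eq_ordNat (δ • z) k hA]
  have h1 : (⟨A ∣[k] δ, hmd⟩ : Hol) = δ⁻¹ • (⟨A, hA⟩ : Hol) * denomHol δ k :=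
    Subtype.ext e'
  rw [h1, Hol.ordNat_mul z hsm (denomHol_ne_zero δ k), ordNat_denomHol, add_zero,
    Hol.ordNat_smul, inv_inv]

/-- **A5C-SLASH**. -/
theorem stmt_A5Slash : Fermat.Agent.S48.B2.T.H96.Stmt_A5Slash :=
  fun z δ k _ hA => ordPt_slash z δ k hA

end Fermat.Agent.S48.B2.T.H25
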