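/-
S48 (row 43), mountain B, part B2, slice T, leaf E-A1C (helper25).
Plan: NOTES/plan/W_S48_B2T.md §4.2.

`stmt_A1C : T.Stmt_A1C`: every element of `F_{H,ℂ} = laurentBaseChange ℂ (FHQ M M ⊥)` is `A / B`
with `B ≠ 0` a modular form on `Γ₀(M)` and `A` a form of the same weight on `Γ₁(M)`, invariant
under `Γ_H = ±Γ₁(M)`.

Generic form (`a1C`): any `c ∣ M`, `2 ≤ c`, `H ≤ (ℤ/c)ˣ`.

Proof: the relation `Rel M γ x x` (the ratio `x` is fixed by the slash action of `γ`) holds for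
every `x ∈ F_H · ℂ` and every `γ ∈ Γ_H` (`rel_self_of_mem`: induction on the generators, which
are constants, the `j(q^d)` and the Eisenstein generators `e_{aH}`, `NEB.H84.rel_eisGen`); then
the norm trick of `NEB.EIG.H98.stmt_A1H` (`NEB.H84.exists_norm`).
-/
import Fermat.Agent.S48.B2.T.Defs
import Fermat.Agent.NEB.EIG.H98_A1H
import Fermat.Agent.NEB.H84_Ker

set_option autoImplicit false
set_option linter.unusedSectionVars false
set_option linter.unusedVariables false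

noncomputable section

namespace Fermat.Agent.S48.B2.T.H25

open AlgebraicCurve ModularCurve UpperHalfPlane CongruenceSubgroup Matrix.SpecialLinearGroup
open Fermat.Agent.NEB Fermat.Agent.NEB.JH Fermat.Agent.NEB.H84 Fermat.Agent.GTor
open Fermat.Agent.NEB.EIG.H98
open Fermat.Agent.S23.H22 (Nice)
open Fermat.Agent.GTor.H56 (qLaurent_mul qLaurent_injective qLaurent_eq_zero_iff qLaurent_zero)
open scoped MatrixGroups ModularForm Manifold

variable {M c : ℕ} [NeZero M] (H : Subgroup (ZMod c)ˣ)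

/-- For `γ ∈ Γ_H` the class of `a_γ` lies in `±H`. -/
theorem dUnit_inv_mem (hc : c ∣ M) {γ : SL(2, ℤ)} (hγ : γ ∈ Gamma0 M)
    (ha : ((γ 0 0 : ℤ) : ZMod c) ∈ cosetSet c H 1) :
    (dUnit hc γ hγ)⁻¹ ∈ H ∨ -(dUnit hc γ hγ)⁻¹ ∈ H := by
  obtain ⟨h, hh, h1 | h1⟩ := ha
  · left
    have : (dUnit hc γ hγ)⁻¹ = h := by
      apply Units.ext
      rw [one_mul] at h1
      rw [← h1]
      rfl
    rw [this]
    exact hh
  · right
    have : -(dUnit hc γ hγ)⁻¹ = h := by
      apply Units.ext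
      rw [one_mul] at h1
      rw [Units.val_neg]
      have h2 : (((dUnit hc γ hγ)⁻¹ : (ZMod c)ˣ) : ZMod c) = ((γ 0 0 : ℤ) : ZMod c) := rfl
      rw [h2, h1, neg_neg]
    rw [this]
    exact hh

/-- The Eisenstein generators are fixed by `Γ_H`. -/
theorem rel_gen_self (hc2 : 2 ≤ c) (hc : c ∣ M) {γ : SL(2, ℤ)} (hγ : γ ∈ Gamma0 M)
    (ha : ((γ 0 0 : ℤ) : ZMod c) ∈ cosetSet c H 1) (a : (ZMod c)ˣ) :
    Rel M γ (coeffEmb ℂ (eisGen c (cosetSet c H a))) (coeffEmb ℂ (eisGen c (cosetSet c H a))) := by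
  have h := rel_eisGen hc hγ (cosetSet c H a) (zero_not_mem_cosetSet H hc2 a)
    (neg_mem_cosetSet H a)
  rw [← coe_dUnit hc γ hγ, cosetSet_translate, mul_comm,
    cosetSet_mul_of_mem H a _ (dUnit_inv_mem H hc hγ ha)] at h
  exact h

theorem rel_zero (M : ℕ) (γ : SL(2, ℤ)) : Rel M γ 0 0 := by
  have := rel_C M γ 0
  rwa [map_zero] at this

theorem rel_one (M : ℕ) (γ : SL(2, ℤ)) : Rel M γ 1 1 := by
  have := rel_C M γ 1
  rwa [map_one] at this

/-- **Every element of `F_H · ℂ` is fixed by `Γ_H`.** -/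
theorem rel_self_of_mem (hc2 : 2 ≤ c) (hc : c ∣ M) {γ : SL(2, ℤ)} (hγ : γ ∈ Gamma0 M)
    (ha : ((γ 0 0 : ℤ) : ZMod c) ∈ cosetSet c H 1) {x : LaurentSeries ℂ}
    (hx : x ∈ laurentBaseChange ℂ (FHQ M c H)) : Rel M γ x x := by
  have hx' := mem_laurentBaseChange_iff.mp hx
  clear hx
  induction hx' using Subfield.closure_induction with
  | mem w hw =>
    rcases hw with ⟨a, rfl⟩ | ⟨z, hz, rfl⟩
    · rw [algebraMap_laurentSeries_eq_single]
      exact rel_C M γ a
    · refine FHQ_induction M c H (P := fun z => Rel M γ (coeffEmb ℂ z) (coeffEmb ℂ z))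
        ?_ ?_ ?_ ?_ ?_ ?_ ?_ ?_ hz
      · intro r
        have e : coeffEmb ℂ (algebraMap ℚ (LaurentSeries ℚ) r) =
            HahnSeries.C (algebraMap ℚ ℂ r) := by
          rw [algebraMap_laurentSeries_eq_single, coeffEmb, coeffMap_single]
          rfl
        rw [e]
        exact rel_C M γ _
      · intro d hd0 hd
        have hmem : qExpand ℚ d jq ∈ modularFunctionFieldFull M :=
          IntermediateField.subset_adjoin ℚ _ ⟨d, hd0, hd, rfl⟩
        exact rel_coeffEmb_full hγ hmem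
      · intro a
        exact rel_gen_self H hc2 hc hγ ha a
      · rw [map_one]
        exact rel_one M γ
      · intro x y hx hy
        rw [map_add]
        exact rel_add hγ hx hy
      · intro x hx
        rw [map_neg]
        exact rel_neg hγ hx
      · intro x hx
        rw [map_inv₀]
        by_cases hx0 : coeffEmb ℂ x = 0
        · rw [hx0, inv_zero]
          exact rel_zero M γ
        · exact rel_inv hγ hx hx0
      · intro x y hx hy
        rw [map_mul]
        exact rel_mul hγ hx hy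
  | one => exact rel_one M γ
  | add x y _ _ hx hy => exact rel_add hγ hx hy
  | neg x _ hx => exact rel_neg hγ hx
  | inv x _ hx =>
    by_cases hx0 : x = 0
    · rw [hx0, inv_zero]
      exact rel_zero M γ
    · exact rel_inv hγ hx hx0
  | mul x y _ _ hx hy => exact rel_mul hγ hx hy

theorem one_mem_Gamma0_coset : (((1 : SL(2, ℤ)) 0 0 : ℤ) : ZMod c) ∈ cosetSet c H 1 :=
  ⟨1, H.one_mem, Or.inl (by simp)⟩

/-- **E-A1C**, generic form. -/
theorem a1C (hc2 : 2 ≤ c) (hc : c ∣ M) (f : ↥(laurentBaseChange ℂ (FHQ M c H))) :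
    ∃ (k : ℤ) (A : ℍ → ℂ) (B : ModularForm (Gamma0 M) k),
      IsW M k A ∧ B ≠ 0 ∧
      (∀ γ : SL(2, ℤ), γ ∈ Gamma0 M → ((γ 0 0 : ℤ) : ZMod c) ∈ cosetSet c H 1 →
        A ∣[k] γ = A) ∧
      qLaurent A = (f : LaurentSeries ℂ) * qLaurent (B : ℍ → ℂ) := by
  obtain ⟨k, A, B, hA, hB, hB0, hx, -⟩ :=
    rel_self_of_mem H hc2 hc (Gamma0 M).one_mem (one_mem_Gamma0_coset H) f.2
  obtain ⟨k', C, hC, hC0, hnorm⟩ := exists_norm hB hB0
  have hAC : IsW M (k + k') (A * C) := hA.mul hC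
  have hBC : IsW M (k + k') (B * C) := hB.mul hC
  have hBC0 : B * C ≠ 0 := isW_mul_ne_zero hB hC hB0 hC0
  have hxBC : qLaurent (A * C) = (f : LaurentSeries ℂ) * qLaurent (B * C) := by
    rw [qLaurent_mul hA.nice hC.nice, qLaurent_mul hB.nice hC.nice, hx]
    ring
  set B₀ := toModularForm0 hBC hnorm with hB₀
  have hB₀0 : B₀ ≠ 0 := by
    intro h0
    apply hBC0
    have : (B₀ : ℍ → ℂ) = 0 := by rw [h0]; rfl
    rwa [hB₀, toModularForm0_coe] at this
  refine ⟨k + k', A * C, B₀, hAC, hB₀0, ?_, ?_⟩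
  · intro γ hγ ha
    have hrelγ := rel_self_of_mem H hc2 hc hγ ha f.2
    have h1 := rel_slash_of_rep hγ hrelγ hAC hBC hBC0 hxBC
    apply qLaurent_injective (hAC.slash_Gamma0 hγ).nice hAC.nice
    rw [h1, hnorm γ hγ, hxBC]
  · exact hxBC

/-- **E-A1C**. -/
theorem stmt_A1C : Fermat.Agent.S48.B2.T.Stmt_A1C := by
  intro M _ hM f
  exact a1C (⊥ : Subgroup (ZMod M)ˣ) hM dvd_rfl f

end Fermat.Agent.S48.B2.T.H25
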