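import Fermat.Agent.S48.B2.T.H96_A5Defs
import Fermat.Agent.S48.B2.T.H25_A1C
import Fermat.Agent.NEB.H84_Fix

/-!
# S48 / B2, slice T, leaf E-A5C, part A5C-ACT (helper55)

`stmt_A5Act : T.H96.Stmt_A5Act` (unconditional): for `2 ≤ M`

* `Γ₀(M)` acts on `F_C = FC M` by `ℂ`-algebra maps `actC γ` whose graph is `NEB.H84.Rel M γ`
  (`exists_relC`: port of `NEB.H84.exists_relK` to `ℂ`; `actC`: port of `NEB.H84.actHom`);
* `actC γ` only depends on the class of `γ` modulo `Γ₁(M)`, `actC (γ γ') = actC γ' ∘ actC γ`,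
  `actC 1 = id`; hence every `actC γ` is surjective, so integral;
* `F_C` is integral over `F_0`: `x` is a root of `P = ∏_u (X - actC γ_u x)` (`u` in the image
  `NEB.H84.RangeU M` of `Γ₀(M) → ℤ/M`), `P` is fixed by every `actC δ`, so its coefficients are
  `Rel`-fixed by `Γ₀(M)` and lie in `F_0` (`NEB.H84.mem_FNL_of_rel`).
-/

set_option autoImplicit false
set_option linter.unusedSectionVars false
set_option linter.unusedVariables false

noncomputable section

namespace Fermat.Agent.S48.B2.T.H55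

open AlgebraicCurve ModularCurve UpperHalfPlane CongruenceSubgroup Matrix.SpecialLinearGroup
open Fermat.Agent.NEB Fermat.Agent.NEB.JH Fermat.Agent.NEB.H84 Fermat.Agent.GTor
open Fermat.Agent.NEB.EIG.H98 Fermat.Agent.S48.B2.T.H96
open Fermat.Agent.S48.B2.T.H25 (rel_zero rel_one)
open scoped MatrixGroups ModularForm Manifold Polynomial

variable {M : ℕ} [NeZero M]

/-! ## The graph of the action on `F_C` -/

/-- The Eisenstein generators over `ℂ`. -/
theorem relC_gen (h2 : 2 ≤ M) {γ : SL(2, ℤ)} (hγ : γ ∈ Gamma0 M) (a : (ZMod M)ˣ) :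
    Rel M γ (coeffEmb ℂ (eisGen M (cosetSet M (⊥ : Subgroup (ZMod M)ˣ) a)))
      (coeffEmb ℂ (eisGen M (cosetSet M (⊥ : Subgroup (ZMod M)ˣ)
        ((dUnit (dvd_refl M) γ hγ)⁻¹ * a)))) := by
  have := rel_eisGen (dvd_refl M) hγ (cosetSet M (⊥ : Subgroup (ZMod M)ˣ) a)
    (zero_not_mem_cosetSet ⊥ h2 a) (neg_mem_cosetSet ⊥ a)
  rw [← coe_dUnit (dvd_refl M) γ hγ, cosetSet_translate] at this
  exact this

/-- **Existence of the image** (port of `NEB.H84.exists_relK`). -/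
theorem exists_relC (h2 : 2 ≤ M) {γ : SL(2, ℤ)} (hγ : γ ∈ Gamma0 M) {x : LaurentSeries ℂ}
    (hx : x ∈ FC M) : ∃ y ∈ FC M, Rel M γ x y := by
  have hx' := mem_laurentBaseChange_iff.mp hx
  clear hx
  induction hx' using Subfield.closure_induction with
  | mem w hw =>
    rcases hw with ⟨a, rfl⟩ | ⟨z, hz, rfl⟩
    · refine ⟨_, (FC M).algebraMap_mem a, ?_⟩
      rw [algebraMap_laurentSeries_eq_single]
      exact rel_C M γ a
    · refine FHQ_induction M M (⊥ : Subgroup (ZMod M)ˣ)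
        (P := fun z => ∃ y ∈ FC M, Rel M γ (coeffEmb ℂ z) y) ?_ ?_ ?_ ?_ ?_ ?_ ?_ ?_ hz
      · intro r
        have e : coeffEmb ℂ (algebraMap ℚ (LaurentSeries ℚ) r) =
            HahnSeries.C (algebraMap ℚ ℂ r) := by
          rw [algebraMap_laurentSeries_eq_single, coeffEmb, coeffMap_single]
          rfl
        have e' : (HahnSeries.C (algebraMap ℚ ℂ r) : LaurentSeries ℂ) =
            algebraMap ℂ (LaurentSeries ℂ) (algebraMap ℚ ℂ r) := by
          rw [algebraMap_laurentSeries_eq_single]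
          rfl
        refine ⟨_, (FC M).algebraMap_mem (algebraMap ℚ ℂ r), ?_⟩
        rw [e, ← e']
        exact rel_C M γ _
      · intro d hd0 hd
        have hmem : qExpand ℚ d jq ∈ modularFunctionFieldFull M :=
          IntermediateField.subset_adjoin ℚ _ ⟨d, hd0, hd, rfl⟩
        exact ⟨_, coeffEmb_mem_laurentBaseChange ℂ (full_le_FHQ M M ⊥ hmem),
          rel_coeffEmb_full hγ hmem⟩
      · intro a
        exact ⟨_, coeffEmb_mem_laurentBaseChange ℂ (eisGen_mem_FHQ M M ⊥ _),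
          relC_gen h2 hγ a⟩
      · rw [map_one]
        exact ⟨1, one_mem _, rel_one M γ⟩
      · rintro x y ⟨x', hx', h1⟩ ⟨y', hy', h2'⟩
        rw [map_add]
        exact ⟨x' + y', add_mem hx' hy', rel_add hγ h1 h2'⟩
      · rintro x ⟨x', hx', h1⟩
        rw [map_neg]
        exact ⟨-x', neg_mem hx', rel_neg hγ h1⟩
      · rintro x ⟨x', hx', h1⟩
        rw [map_inv₀]
        by_cases hx0 : coeffEmb ℂ x = 0
        · rw [hx0, inv_zero]
          exact ⟨0, zero_mem _, rel_zero M γ⟩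
        · exact ⟨x'⁻¹, inv_mem hx', rel_inv hγ h1 hx0⟩
      · rintro x y ⟨x', hx', h1⟩ ⟨y', hy', h2'⟩
        rw [map_mul]
        exact ⟨x' * y', mul_mem hx' hy', rel_mul hγ h1 h2'⟩
  | one => exact ⟨1, one_mem _, rel_one M γ⟩
  | add x y _ _ hx hy =>
    obtain ⟨x', hx', h1⟩ := hx
    obtain ⟨y', hy', h2'⟩ := hy
    exact ⟨x' + y', add_mem hx' hy', rel_add hγ h1 h2'⟩
  | neg x _ hx =>
    obtain ⟨x', hx', h1⟩ := hx
    exact ⟨-x', neg_mem hx', rel_neg hγ h1⟩
  | inv x _ hx =>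
    obtain ⟨x', hx', h1⟩ := hx
    by_cases hx0 : x = 0
    · rw [hx0, inv_zero]
      exact ⟨0, zero_mem _, rel_zero M γ⟩
    · exact ⟨x'⁻¹, inv_mem hx', rel_inv hγ h1 hx0⟩
  | mul x y _ _ hx hy =>
    obtain ⟨x', hx', h1⟩ := hx
    obtain ⟨y', hy', h2'⟩ := hy
    exact ⟨x' * y', mul_mem hx' hy', rel_mul hγ h1 h2'⟩

/-! ## The action as algebra maps -/

section Act

variable (h2 : 2 ≤ M)

/-- The action of `γ ∈ Γ₀(M)` on `F_C`, as a function. -/
def actFunC (γ : Gamma0 M) (x : ↥(FC M)) : ↥(FC M) :=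
  ⟨Classical.choose (exists_relC h2 γ.2 x.2),
    (Classical.choose_spec (exists_relC h2 γ.2 x.2)).1⟩

theorem actFunC_rel (γ : Gamma0 M) (x : ↥(FC M)) :
    Rel M γ (x : LaurentSeries ℂ) ((actFunC h2 γ x : ↥(FC M)) : LaurentSeries ℂ) :=
  (Classical.choose_spec (exists_relC h2 γ.2 x.2)).2

theorem actFunC_eq {γ : Gamma0 M} {x y : ↥(FC M)}
    (h : Rel M γ (x : LaurentSeries ℂ) (y : LaurentSeries ℂ)) : actFunC h2 γ x = y :=
  Subtype.ext (rel_unique γ.2 (actFunC_rel h2 γ x) h)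

/-- The action of `γ ∈ Γ₀(M)` on `F_C`, as a `ℂ`-algebra homomorphism. -/
def actC (γ : Gamma0 M) : ↥(FC M) →ₐ[ℂ] ↥(FC M) where
  toFun := actFunC h2 γ
  map_one' := by
    apply actFunC_eq
    exact rel_one M γ
  map_mul' x y := by
    apply actFunC_eq
    exact rel_mul γ.2 (actFunC_rel h2 γ x) (actFunC_rel h2 γ y)
  map_zero' := by
    apply actFunC_eq
    exact rel_zero M γ
  map_add' x y := by
    apply actFunC_eq
    exact rel_add γ.2 (actFunC_rel h2 γ x) (actFunC_rel h2 γ y)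
  commutes' a := by
    apply actFunC_eq
    show Rel M γ (algebraMap ℂ (LaurentSeries ℂ) a) (algebraMap ℂ (LaurentSeries ℂ) a)
    rw [algebraMap_laurentSeries_eq_single]
    exact rel_C M γ a

theorem actC_rel (γ : Gamma0 M) (x : ↥(FC M)) :
    Rel M γ (x : LaurentSeries ℂ) ((actC h2 γ x : ↥(FC M)) : LaurentSeries ℂ) :=
  actFunC_rel h2 γ x

theorem actC_eq {γ : Gamma0 M} {x y : ↥(FC M)}
    (h : Rel M γ (x : LaurentSeries ℂ) (y : LaurentSeries ℂ)) : actC h2 γ x = y :=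
  actFunC_eq h2 h

/-- The relation only depends on the class modulo `Γ₁(M)`. -/
theorem rel_of_map_eq {γ₁ γ₂ : Gamma0 M} (h : Gamma0Map M γ₁ = Gamma0Map M γ₂)
    {x y : LaurentSeries ℂ} (hr : Rel M γ₂ x y) : Rel M γ₁ x y := by
  obtain ⟨k, A, B, hA, hB, hB0, hx, hy⟩ := hr
  refine ⟨k, A, B, hA, hB, hB0, hx, ?_⟩
  rw [slash_eq_of_map_eq hA γ₁ γ₂ h, slash_eq_of_map_eq hB γ₁ γ₂ h]
  exact hy

theorem actC_congr {γ₁ γ₂ : Gamma0 M} (h : Gamma0Map M γ₁ = Gamma0Map M γ₂) (x : ↥(FC M)) :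
    actC h2 γ₁ x = actC h2 γ₂ x :=
  actC_eq h2 (rel_of_map_eq h (actC_rel h2 γ₂ x))

include h2 in
theorem rel_one_self {x : LaurentSeries ℂ} (hx : x ∈ FC M) : Rel M 1 x x := by
  obtain ⟨y, -, k, A, B, hA, hB, hB0, hx', hy⟩ := exists_relC h2 (Gamma0 M).one_mem hx
  refine ⟨k, A, B, hA, hB, hB0, hx', ?_⟩
  rw [SlashAction.slash_one, SlashAction.slash_one]
  exact hx'

theorem actC_one (x : ↥(FC M)) : actC h2 1 x = x :=
  actC_eq h2 (rel_one_self h2 x.2)

theorem actC_mul (γ γ' : Gamma0 M) (x : ↥(FC M)) :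
    actC h2 (γ * γ') x = actC h2 γ' (actC h2 γ x) :=
  actC_eq h2 (rel_trans γ.2 γ'.2 (actC_rel h2 γ x) (actC_rel h2 γ' _))

theorem actC_surjective (γ : Gamma0 M) : Function.Surjective (actC h2 γ) := by
  intro y
  refine ⟨actC h2 γ⁻¹ y, ?_⟩
  rw [← actC_mul, inv_mul_cancel, actC_one]

theorem actC_isIntegral (γ : Gamma0 M) : (actC h2 γ).toRingHom.IsIntegral :=
  RingHom.isIntegral_of_surjective _ (actC_surjective h2 γ)

end Act

/-! ## `F_C` is integral over `F_0` -/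

section Integral

theorem isIntegralElem_inclC (h2 : 2 ≤ M) (x : ↥(FC M)) :
    (inclC M).toRingHom.IsIntegralElem x := by
  classical
  have : Finite (RangeU M) := Subtype.finite
  let _ : Fintype (RangeU M) := Fintype.ofFinite _
  let rep : RangeU M → Gamma0 M := fun u => Classical.choose u.2
  have hrep : ∀ u, Gamma0Map M (rep u) = u.1 := fun u => Classical.choose_spec u.2
  let r : RangeU M → ↥(FC M) := fun u => actC h2 (rep u) x
  let u₁ : RangeU M := ⟨1, 1, map_one _⟩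
  have hr1 : r u₁ = x := by
    show actC h2 (rep u₁) x = x
    rw [actC_congr h2 (γ₂ := 1) (by rw [hrep, map_one]), actC_one]
  set P : (↥(FC M))[X] := ∏ u : RangeU M, (Polynomial.X - Polynomial.C (r u)) with hP
  have hmonic : P.Monic :=
    Polynomial.monic_prod_of_monic _ _ (fun u _ => Polynomial.monic_X_sub_C _)
  have hroot : P.eval x = 0 := by
    rw [hP, Polynomial.eval_prod]
    apply Finset.prod_eq_zero (Finset.mem_univ u₁)
    rw [Polynomial.eval_sub, Polynomial.eval_X, Polynomial.eval_C, hr1, sub_self]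
  have hshift : ∀ (δ : Gamma0 M) (u : RangeU M), actC h2 δ (r u) = r (shiftEquiv δ u) := by
    intro δ u
    show actC h2 δ (actC h2 (rep u) x) = actC h2 (rep (shiftEquiv δ u)) x
    rw [← actC_mul]
    exact actC_congr h2 (by rw [map_mul, hrep, hrep, shiftEquiv_val]) x
  have hinv : ∀ δ : Gamma0 M, P.map (actC h2 δ).toRingHom = P := by
    intro δ
    rw [hP, Polynomial.map_prod]
    rw [← Equiv.prod_comp (shiftEquiv δ) (fun u => (Polynomial.X - Polynomial.C (r u)))]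
    apply Finset.prod_congr rfl
    intro u _
    rw [Polynomial.map_sub, Polynomial.map_X, Polynomial.map_C]
    congr 2
    exact hshift δ u
  have hcoeff : ∀ i, P.coeff i ∈ Set.range (inclC M).toRingHom := by
    intro i
    have hfix : ∀ γ : SL(2, ℤ), γ ∈ Gamma0 M →
        Rel M γ ((P.coeff i : ↥(FC M)) : LaurentSeries ℂ) (P.coeff i : ↥(FC M)) := by
      intro γ hγ
      have h1 := actC_rel h2 ⟨γ, hγ⟩ (P.coeff i)
      have h3 : actC h2 ⟨γ, hγ⟩ (P.coeff i) = P.coeff i := by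
        have := congrArg (fun p => p.coeff i) (hinv ⟨γ, hγ⟩)
        simpa [Polynomial.coeff_map] using this
      rwa [h3] at h1
    have hmem := mem_FNL_of_rel hfix
    exact ⟨⟨_, hmem⟩, Subtype.ext (coe_inclC M _)⟩
  have hl : P ∈ Polynomial.lifts (inclC M).toRingHom :=
    (Polynomial.lifts_iff_coeff_lifts _).mpr hcoeff
  obtain ⟨q, hq, -, hqm⟩ := Polynomial.lifts_and_natDegree_eq_and_monic hl hmonic
  refine ⟨q, hqm, ?_⟩
  rw [← Polynomial.eval_map, hq]
  exact hroot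

end Integral

/-- **A5C-ACT**. -/
theorem stmt_A5Act : Stmt_A5Act := by
  intro M _ h2
  refine ⟨fun x => isIntegralElem_inclC h2 x, fun γ hγ => ?_⟩
  exact ⟨actC h2 ⟨γ, hγ⟩, actC_isIntegral h2 ⟨γ, hγ⟩, fun x => actC_rel h2 ⟨γ, hγ⟩ x⟩

end Fermat.Agent.S48.B2.T.H55
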