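import Fermat.Agent.NEB.EIG.H98_OrdVal

/-!
# S48 / B2, slice T, leaf E-ORD (helper98), part 1: the place of a nontrivial order function

`exists_place_of_isOrdFun` : a nontrivial integer valued order function `ν` on a field `F ⊇ K`
(trivial on `K`) is `e · ord_v` for a place `v` of `F / K` and an integer `e ≥ 1`.
(Same construction as in `NEB.EIG.H98.exists_mul_of_dvd_ord`.)
-/

set_option autoImplicit false

noncomputable section

namespace Fermat.Agent.S48.B2.T.H98

open AlgebraicCurve Fermat.Agent.NEB.EIG.H98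

variable {K F : Type*} [Field K] [Field F] [Algebra K F]

/-- **The place of a nontrivial order function.** -/
theorem exists_place_of_isOrdFun {ν : F → ℤ} (hν : IsOrdFun K ν) {g₀ : F} (hg₀ : g₀ ≠ 0)
    (hne : ν g₀ ≠ 0) :
    ∃ (v : Place K F) (e : ℕ), 0 < e ∧ ∀ g : F, g ≠ 0 → ν g = (e : ℤ) * v.ord g := by
  classical
  set V : ValuationSubring F := hν.valSubring with hV
  have hν_mul : ∀ {g h : F}, g ≠ 0 → h ≠ 0 → ν (g * h) = ν g + ν h := fun hg hh =>
    hν.mul _ _ hg hh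
  have hν_inv : ∀ g : F, g ≠ 0 → ν g⁻¹ = - ν g := fun g hg => hν.inv g hg
  have hν_zpow : ∀ (g : F), g ≠ 0 → ∀ z : ℤ, ν (g ^ z) = z * ν g := fun g hg z => hν.zpow g hg z
  have hV_iff : ∀ {g : F}, g ≠ 0 → (g ∈ V ↔ 0 ≤ ν g) := fun hg => hν.mem_valSubring_iff hg
  have htop : V ≠ ⊤ := by
    intro htop
    have h1 : 0 ≤ ν g₀ := (hV_iff hg₀).mp (htop ▸ ValuationSubring.mem_top g₀)
    have h2 : 0 ≤ ν g₀⁻¹ := (hV_iff (inv_ne_zero hg₀)).mp (htop ▸ ValuationSubring.mem_top _)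
    rw [hν_inv g₀ hg₀] at h2
    omega
  -- a positive value exists
  have hex : ∃ m : ℕ, 0 < m ∧ ∃ g : F, g ≠ 0 ∧ ν g = (m : ℤ) := by
    obtain ⟨g, hg⟩ : ∃ g : F, g ∉ V := by
      by_contra hcon
      apply htop
      refine SetLike.ext fun x => ⟨fun _ => ValuationSubring.mem_top x, fun _ => ?_⟩
      by_contra hx
      exact hcon ⟨x, hx⟩
    have hg0 : g ≠ 0 := fun h0 => hg (h0 ▸ V.zero_mem)
    have hlt : ν g < 0 := by
      by_contra hcon
      exact hg ((hV_iff hg0).mpr (not_lt.mp hcon))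
    refine ⟨(- ν g).toNat, by omega, g⁻¹, inv_ne_zero hg0, ?_⟩
    rw [hν_inv g hg0]
    omega
  obtain ⟨e, ⟨he0, π₀, hπ₀, hπν⟩, hmin⟩ : ∃ e : ℕ, (0 < e ∧ ∃ g : F, g ≠ 0 ∧ ν g = (e : ℤ)) ∧
      ∀ m : ℕ, m < e → ¬ (0 < m ∧ ∃ g : F, g ≠ 0 ∧ ν g = (m : ℤ)) :=
    ⟨Nat.find hex, Nat.find_spec hex, fun m hm => Nat.find_min hex hm⟩
  -- Claim A
  have hA : ∀ {g : F}, g ≠ 0 → (e : ℤ) ∣ ν g := by
    intro g hg
    have hr0 : 0 ≤ ν g % (e : ℤ) := Int.emod_nonneg _ (by omega)
    have hr1 : ν g % (e : ℤ) < e := Int.emod_lt_of_pos _ (by omega)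
    have hg' : g * π₀ ^ (- (ν g / (e : ℤ))) ≠ 0 := mul_ne_zero hg (zpow_ne_zero _ hπ₀)
    have hval : ν (g * π₀ ^ (- (ν g / (e : ℤ)))) = ν g % (e : ℤ) := by
      rw [hν_mul hg (zpow_ne_zero _ hπ₀), hν_zpow _ hπ₀, hπν, Int.emod_def]
      ring
    by_contra hnd
    have hrpos : 0 < ν g % (e : ℤ) := by
      rcases hr0.lt_or_eq with h | h
      · exact h
      · exact absurd (Int.dvd_of_emod_eq_zero h.symm) hnd
    refine hmin (ν g % (e : ℤ)).toNat (by omega) ⟨by omega, _, hg', ?_⟩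
    rw [hval]
    omega
  have hπV : π₀ ∈ V := (hV_iff hπ₀).mpr (by rw [hπν]; omega)
  -- units of V
  have hunit : ∀ x : V, (x : F) ≠ 0 → ν (x : F) = 0 → IsUnit x := by
    intro x hx0 hx
    have hxinv : (x : F)⁻¹ ∈ V :=
      (hV_iff (inv_ne_zero hx0)).mpr (by rw [hν_inv _ hx0, hx, neg_zero])
    refine isUnit_iff_exists_inv.mpr ⟨⟨_, hxinv⟩, Subtype.ext ?_⟩
    simp [mul_inv_cancel₀ hx0]
  have hunit' : ∀ x : V, IsUnit x → ν (x : F) = 0 := by
    intro x hx
    obtain ⟨y, hy⟩ := isUnit_iff_exists_inv.mp hx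
    have hy' : (x : F) * (y : F) = 1 := by
      have := congrArg Subtype.val hy
      simpa using this
    have hx0 : (x : F) ≠ 0 := left_ne_zero_of_mul_eq_one hy'
    have hy0 : (y : F) ≠ 0 := right_ne_zero_of_mul_eq_one hy'
    have h1 := (hV_iff hx0).mp x.2
    have h2 := (hV_iff hy0).mp y.2
    have h3 : ν ((x : F) * (y : F)) = 0 := by
      rw [hy']
      exact hν.one
    rw [hν_mul hx0 hy0] at h3
    omega
  set p : V := ⟨π₀, hπV⟩ with hp
  have hp0 : p ≠ 0 := fun h0 => hπ₀ (congrArg Subtype.val h0)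
  have hpirr : Irreducible p := by
    refine ⟨fun hu => ?_, fun a b hab => ?_⟩
    · have := hunit' p hu
      rw [show ((p : V) : F) = π₀ from rfl, hπν] at this
      omega
    · have hab' : π₀ = (a : F) * (b : F) := congrArg Subtype.val hab
      have ha0 : (a : F) ≠ 0 := fun h0 => hπ₀ (by rw [hab', h0, zero_mul])
      have hb0 : (b : F) ≠ 0 := fun h0 => hπ₀ (by rw [hab', h0, mul_zero])
      have hsum : ν (a : F) + ν (b : F) = e := by
        rw [← hν_mul ha0 hb0, ← hab', hπν]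
      have ha1 := (hV_iff ha0).mp a.2
      have hb1 := (hV_iff hb0).mp b.2
      obtain ⟨qa, hqa⟩ := hA ha0
      obtain ⟨qb, hqb⟩ := hA hb0
      have he' : (0 : ℤ) < e := by omega
      have hqa0 : 0 ≤ qa := by
        by_contra hcon
        have : (e : ℤ) * qa < 0 := mul_neg_of_pos_of_neg he' (not_le.mp hcon)
        omega
      have hqb0 : 0 ≤ qb := by
        by_contra hcon
        have : (e : ℤ) * qb < 0 := mul_neg_of_pos_of_neg he' (not_le.mp hcon)
        omega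
      have hq : qa + qb = 1 := by
        have : (e : ℤ) * (qa + qb) = e * 1 := by rw [mul_add, ← hqa, ← hqb, hsum, mul_one]
        exact mul_left_cancel₀ (by omega) this
      have hcase : qa = 0 ∨ qb = 0 := by omega
      rcases hcase with h0 | h0
      · left
        exact hunit a ha0 (by rw [hqa, h0, mul_zero])
      · right
        exact hunit b hb0 (by rw [hqb, h0, mul_zero])
  have hfact : IsDiscreteValuationRing.HasUnitMulPowIrreducibleFactorization V := by
    refine ⟨p, hpirr, fun {x} hx => ?_⟩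
    have hx0 : (x : F) ≠ 0 := fun h0 => hx (Subtype.ext h0)
    obtain ⟨q, hq⟩ := hA hx0
    have hx1 := (hV_iff hx0).mp x.2
    have he' : (0 : ℤ) < e := by omega
    have hq0 : 0 ≤ q := by
      by_contra hcon
      have : (e : ℤ) * q < 0 := mul_neg_of_pos_of_neg he' (not_le.mp hcon)
      omega
    obtain ⟨m, rfl⟩ := Int.eq_ofNat_of_zero_le hq0
    refine ⟨m, ?_⟩
    have hu0 : (x : F) * (π₀ ^ m)⁻¹ ≠ 0 := mul_ne_zero hx0 (inv_ne_zero (pow_ne_zero _ hπ₀))
    have huν : ν ((x : F) * (π₀ ^ m)⁻¹) = 0 := by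
      rw [hν_mul hx0 (inv_ne_zero (pow_ne_zero _ hπ₀)), hν_inv _ (pow_ne_zero _ hπ₀),
        ← zpow_natCast, hν_zpow _ hπ₀, hπν, hq]
      ring
    have huV : (x : F) * (π₀ ^ m)⁻¹ ∈ V := (hV_iff hu0).mpr (by rw [huν])
    have hU : IsUnit (⟨_, huV⟩ : V) := hunit ⟨_, huV⟩ hu0 huν
    refine ⟨hU.unit, Subtype.ext ?_⟩
    simp only [IsUnit.unit_spec, MulMemClass.coe_mul, SubmonoidClass.coe_pow, hp]
    field_simp
  have hDVR : IsDiscreteValuationRing V :=
    IsDiscreteValuationRing.ofHasUnitMulPowIrreducibleFactorization hfact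
  let v : Place K F :=
    { toValuationSubring := V
      algebraMap_mem' := fun a => by
        by_cases ha : a = 0
        · rw [ha, map_zero]; exact V.zero_mem
        · have h0 : algebraMap K F a ≠ 0 := (map_ne_zero _).mpr ha
          exact (hV_iff h0).mpr (by rw [hν.const a ha])
      ne_top' := htop
      isPrincipalIdealRing' := inferInstance }
  have hp' : Irreducible (p : v.toValuationSubring) := hpirr
  refine ⟨v, e, he0, fun f hf => ?_⟩
  obtain ⟨u, hu⟩ := v.exists_unit_mul_zpow hf hp'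
  have huν : ν ((u : v.toValuationSubring) : F) = 0 := hunit' _ u.isUnit
  have hu0 : ((u : v.toValuationSubring) : F) ≠ 0 := by
    intro h0
    rw [h0, zero_mul] at hu
    exact hf hu
  conv_lhs => rw [hu]
  rw [hν_mul hu0 (zpow_ne_zero _ hπ₀), huν, zero_add, hν_zpow _ hπ₀, hπν]
  ring

end Fermat.Agent.S48.B2.T.H98
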