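import Fermat.Agent.S48.B2.T.Defs
import Fermat.Agent.S48.B2.T.H98_OrdPlace
import Fermat.Agent.GTor.Clo.A4
import Fermat.Agent.GTor.H58_A1
import Fermat.Agent.S24.H27_JOrd

/-!
# S48 / B2, slice T, leaf E-ORD (helper98): points and cusps are places of `F_{H,ℂ}`

`stmt_OrdC : Stmt_OrdC` (unconditional).

* `exists_isRepC` : every element of `FC M = F_{H,ℂ}` is a ratio `A / B` of forms on `Γ₁(M)`;
* `nuC`, `isOrdFun_nuC` : the order function on `FC M` induced by an order function on forms;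
* `exists_anPlace` : if some `f ∈ FC M` has order `m > 0`, the order function is `e · ord_v` for a
  place `v`, with `e ∣ m`;
* points: `m = ellOrder M z ∣ 6` from `GTor.Clo.stmt_A3`; cusps: `m = M / cuspWidth M σ` from
  `GTor.Clo.stmt_A4` (functions in `F_{0,ℂ} ⊆ F_{H,ℂ}` of order one at the place of `X₀(M)`).
-/

set_option autoImplicit false
set_option linter.unusedSectionVars false

noncomputable section

namespace Fermat.Agent.S48.B2.T.H98

open AlgebraicCurve ModularCurve UpperHalfPlane CongruenceSubgroup Matrix.SpecialLinearGroup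
open Fermat.Agent.NEB Fermat.Agent.NEB.JH Fermat.Agent.NEB.H84 Fermat.Agent.NEB.EIG.H39
open Fermat.Agent.NEB.EIG.H98 Fermat.Agent.NEB.EIG.H34 Fermat.Agent.GTor
open scoped MatrixGroups ModularForm Manifold

/-! ## Representations over `ℂ` -/

section Rep

variable {M : ℕ}

theorem isRep_zero (M : ℕ) : IsRep M 0 0 (fun _ => 0) (fun _ => 1) := by
  have := isRep_const M 0
  rwa [map_zero] at this

theorem isRep_algebraMap (M : ℕ) (a : ℂ) :
    IsRep M (algebraMap ℂ (LaurentSeries ℂ) a) 0 (fun _ => a) (fun _ => 1) := by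
  have h := isRep_const M a
  have e : (HahnSeries.C a : LaurentSeries ℂ) = algebraMap ℂ (LaurentSeries ℂ) a := by
    have h1 : algebraMap ℂ (PowerSeries ℂ) a = PowerSeries.C a := by simp
    rw [HahnSeries.algebraMap_apply', h1, HahnSeries.ofPowerSeries_C]
  rwa [e] at h

theorem isRep_inv {x : LaurentSeries ℂ} {k : ℤ} {A B : ℍ → ℂ} (h : IsRep M x k A B)
    (hx : x ≠ 0) : IsRep M x⁻¹ k B A := by
  have hA0 := h.num_ne_zero hx
  obtain ⟨hA, hB, hB0, e⟩ := h
  refine ⟨hB, hA, hA0, ?_⟩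
  rw [e, ← mul_assoc, inv_mul_cancel₀ hx, one_mul]

/-- Every element of `F_{H,ℂ}` is a ratio of two forms on `Γ₁(M)`. -/
theorem exists_isRepC (M : ℕ) [NeZero M] (h2 : 2 ≤ M) {x : LaurentSeries ℂ} (hx : x ∈ FC M) :
    ∃ (k : ℤ) (A B : ℍ → ℂ), IsRep M x k A B := by
  have hx' := mem_laurentBaseChange_iff.mp hx
  clear hx
  induction hx' using Subfield.closure_induction with
  | mem w hw =>
    rcases hw with ⟨a, rfl⟩ | ⟨z, hz, rfl⟩
    · exact ⟨0, _, _, isRep_algebraMap M a⟩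
    · have : Algebra.IsAlgebraic ℚ (AlgebraicClosure ℚ) := AlgebraicClosure.isAlgebraic ℚ
      have ι : Kbar →+* ℂ := (IsAlgClosed.lift : AlgebraicClosure ℚ →ₐ[ℚ] ℂ).toRingHom
      have hz' : coeffEmb Kbar z ∈ FHbar M M (⊥ : Subgroup (ZMod M)ˣ) :=
        coeffEmb_mem_laurentBaseChange Kbar hz
      obtain ⟨k, A, B, h⟩ := exists_isRep (H := (⊥ : Subgroup (ZMod M)ˣ))
        ι h2 dvd_rfl ⟨_, hz'⟩
      rw [coeffMap_coeffEmb_C] at h
      exact ⟨k, A, B, h⟩
  | one =>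
    have := isRep_const M 1
    rw [map_one] at this
    exact ⟨0, _, _, this⟩
  | add x y _ _ hx hy =>
    obtain ⟨k, A, B, h⟩ := hx
    obtain ⟨k', A', B', h'⟩ := hy
    exact ⟨_, _, _, h.add h'⟩
  | neg x _ hx =>
    obtain ⟨k, A, B, h⟩ := hx
    have := (isRep_const M (-1)).mul h
    have e : (HahnSeries.C (-1 : ℂ) : LaurentSeries ℂ) * x = -x := by
      rw [map_neg, map_one, neg_mul, one_mul]
    rw [e] at this
    exact ⟨_, _, _, this⟩
  | inv x _ hx =>
    obtain ⟨k, A, B, h⟩ := hx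
    by_cases hx0 : x = 0
    · rw [hx0, inv_zero]
      exact ⟨0, _, _, isRep_zero M⟩
    · exact ⟨k, B, A, isRep_inv h hx0⟩
  | mul x y _ _ hx hy =>
    obtain ⟨k, A, B, h⟩ := hx
    obtain ⟨k', A', B', h'⟩ := hy
    exact ⟨_, _, _, h.mul h'⟩

end Rep

/-! ## The order function on `F_{H,ℂ}` -/

section Nu

variable (M : ℕ) [NeZero M] (h2 : 2 ≤ M)

/-- The order function on `F_{H,ℂ}` induced by an order function on forms. -/
def nuC (ord : ℤ → (ℍ → ℂ) → ℤ) (f : ↥(FC M)) : ℤ :=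
  ord (Classical.choose (exists_isRepC M h2 f.2))
      (Classical.choose (Classical.choose_spec (exists_isRepC M h2 f.2)))
    - ord (Classical.choose (exists_isRepC M h2 f.2))
      (Classical.choose (Classical.choose_spec (Classical.choose_spec
        (exists_isRepC M h2 f.2))))

variable {M}

theorem coe_ne_zero_FC {f : ↥(FC M)} (hf : f ≠ 0) : (f : LaurentSeries ℂ) ≠ 0 :=
  fun h => hf (Subtype.ext h)

theorem nuC_eq {ord : ℤ → (ℍ → ℂ) → ℤ} (hord : IsOrdW M ord) {f : ↥(FC M)} (hf : f ≠ 0)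
    {k : ℤ} {A B : ℍ → ℂ} (h : IsRep M (f : LaurentSeries ℂ) k A B) :
    nuC M h2 ord f = ord k A - ord k B :=
  hord.ratio_eq (coe_ne_zero_FC hf)
    (Classical.choose_spec (Classical.choose_spec (Classical.choose_spec
      (exists_isRepC M h2 f.2)))) h

theorem isOrdFun_nuC {ord : ℤ → (ℍ → ℂ) → ℤ} (hord : IsOrdW M ord) :
    IsOrdFun ℂ (nuC M h2 ord) where
  mul := by
    intro g h hg hh
    obtain ⟨k, A, B, r⟩ := exists_isRepC M h2 g.2
    obtain ⟨k', A', B', r'⟩ := exists_isRepC M h2 h.2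
    have rr : IsRep M (((g * h : ↥(FC M)) : LaurentSeries ℂ)) (k + k') (A * A') (B * B') :=
      r.mul r'
    rw [nuC_eq h2 hord (mul_ne_zero hg hh) rr, nuC_eq h2 hord hg r, nuC_eq h2 hord hh r']
    have hA0 := r.num_ne_zero (coe_ne_zero_FC hg)
    have hA0' := r'.num_ne_zero (coe_ne_zero_FC hh)
    rw [hord.mul r.1 r'.1 hA0 hA0', hord.mul r.2.1 r'.2.1 r.2.2.1 r'.2.2.1]
    ring
  add := by
    intro g h hg hh hgh
    obtain ⟨k, A, B, r⟩ := exists_isRepC M h2 g.2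
    obtain ⟨k', A', B', r'⟩ := exists_isRepC M h2 h.2
    have rr : IsRep M (((g + h : ↥(FC M)) : LaurentSeries ℂ)) (k + k')
        (A * B' + B * A') (B * B') := r.add r'
    rw [nuC_eq h2 hord hgh rr, nuC_eq h2 hord hg r, nuC_eq h2 hord hh r']
    have hA0 := r.num_ne_zero (coe_ne_zero_FC hg)
    have hA0' := r'.num_ne_zero (coe_ne_zero_FC hh)
    have hN0 := rr.num_ne_zero (coe_ne_zero_FC hgh)
    have h1 : A * B' ≠ 0 := isW_mul_ne_zero r.1 r'.2.1 hA0 r'.2.2.1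
    have h2' : B * A' ≠ 0 := isW_mul_ne_zero r.2.1 r'.1 r.2.2.1 hA0'
    have h3 := hord.add (r.1.mul r'.2.1) (r.2.1.mul r'.1) h1 h2' hN0
    rw [hord.mul r.1 r'.2.1 hA0 r'.2.2.1] at h3
    have h4 : ord (k + k') (B * A') = ord k B + ord k' A' := hord.mul r.2.1 r'.1 r.2.2.1 hA0'
    rw [h4] at h3
    rw [hord.mul r.2.1 r'.2.1 r.2.2.1 r'.2.2.1]
    rcases min_le_iff.mp h3 with h5 | h5
    · exact min_le_iff.mpr (Or.inl (by omega))
    · exact min_le_iff.mpr (Or.inr (by omega))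
  const := by
    intro a ha
    have h0 : (algebraMap ℂ ↥(FC M) a) ≠ 0 := (map_ne_zero _).mpr ha
    have r : IsRep M (((algebraMap ℂ ↥(FC M) a : ↥(FC M)) : LaurentSeries ℂ)) 0
        (fun _ => a) (fun _ => 1) := isRep_algebraMap M a
    rw [nuC_eq h2 hord h0 r, hord.const a ha, hord.const 1 one_ne_zero, sub_zero]

include h2 in
/-- **The place of an order function on forms.** -/
theorem exists_anPlace {ord : ℤ → (ℍ → ℂ) → ℤ} (hord : IsOrdW M ord) (m : ℕ) (hm : 0 < m)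
    (hex : ∃ (f : ↥(FC M)) (k : ℤ) (A B : ℍ → ℂ), f ≠ 0 ∧ IsRep M (f : LaurentSeries ℂ) k A B ∧
      ord k A - ord k B = (m : ℤ)) :
    ∃ (v : Place ℂ ↥(FC M)) (e : ℕ), 0 < e ∧ e ∣ m ∧ IsAnPlace M v ord e := by
  obtain ⟨f, k, A, B, hf, hr, hval⟩ := hex
  have hν := isOrdFun_nuC h2 hord
  have hne : nuC M h2 ord f ≠ 0 := by
    rw [nuC_eq h2 hord hf hr, hval]
    exact_mod_cast hm.ne'
  obtain ⟨v, e, he, hve⟩ := exists_place_of_isOrdFun hν hf hne
  refine ⟨v, e, he, ?_, ?_⟩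
  · have h1 := hve f hf
    rw [nuC_eq h2 hord hf hr, hval] at h1
    exact Int.natCast_dvd_natCast.mp ⟨_, h1⟩
  · intro g k' A' B' hg hr'
    rw [← nuC_eq h2 hord hg hr']
    exact hve g hg

end Nu

/-! ## Functions of `F_{0,ℂ}` in `F_{H,ℂ}` -/

section Incl

variable {M : ℕ} [NeZero M]

theorem coe_mem_FC (f : FNL ℂ M) : (f : LaurentSeries ℂ) ∈ FC M :=
  laurentBaseChange_mono (full_le_FHQ M M ⊥) f.2

theorem isRep_of_isRatio {f : FNL ℂ M} {k : ℤ} {A B : ModularForm (Gamma0 M) k}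
    (h : IsRatio M f A B) : IsRep M (f : LaurentSeries ℂ) k (A : ℍ → ℂ) (B : ℍ → ℂ) :=
  ⟨isW_of_modularForm A, isW_of_modularForm B, fun h0 => h.1 (DFunLike.coe_injective h0), h.2⟩

/-- A function of `F_{0,ℂ}` of order one at a place, as a ratio of modular forms. -/
theorem exists_ratio_ord_one (u : Place ℂ (FNL ℂ M)) :
    ∃ (f : FNL ℂ M) (k : ℤ) (A B : ModularForm (Gamma0 M) k), f ≠ 0 ∧ IsRatio M f A B ∧
      u.ord f = 1 := by
  obtain ⟨π, hπ⟩ := IsDiscreteValuationRing.exists_irreducible u.toValuationSubring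
  have h1 : u.ord (π : FNL ℂ M) = 1 := u.ord_coe_irreducible hπ
  have h0 : (π : FNL ℂ M) ≠ 0 := by
    intro h
    rw [h, Place.ord_zero] at h1
    exact zero_ne_one h1
  obtain ⟨k, A, B, hr⟩ := Fermat.Agent.GTor.H58.stmt_A1 M (π : FNL ℂ M)
  exact ⟨_, k, A, B, h0, hr, h1⟩

end Incl

/-! ## The index at a point divides `6` -/

section Six

theorem jOrd_dvd_six (z : ℍ) : Fermat.Agent.S24.jOrd z ∣ 6 := by
  by_cases h0 : Fermat.Agent.S24.jAn z = 0
  · rw [Fermat.Agent.GTor.Clo.jOrd_of_zero z h0]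
    norm_num
  by_cases h1 : Fermat.Agent.S24.jAn z = 1728
  · rw [Fermat.Agent.GTor.Clo.jOrd_of_1728 z h1]
    norm_num
  rw [Fermat.Agent.S24.jOrd_eq_one z h0 h1]
  norm_num

theorem ellOrder_dvd_six (M : ℕ) [NeZero M] (z : ℍ) : ellOrder M z ∣ 6 := by
  have h1 : Fermat.Agent.GTor.Clo.ellStab M z ≤ MulAction.stabilizer SL(2, ℤ) z := inf_le_left
  have h2 := Subgroup.card_dvd_of_le h1
  rw [Fermat.Agent.GTor.Clo.card_stabilizer] at h2
  obtain ⟨e, he⟩ := Fermat.Agent.GTor.Clo.ell_two_dvd_card M z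
  have h3 : ellOrder M z = e := by
    rw [Fermat.Agent.GTor.Clo.ellOrder_eq, he]
    simp
  rw [he] at h2
  have h4 : e ∣ Fermat.Agent.S24.jOrd z := (Nat.mul_dvd_mul_iff_left (by norm_num)).mp h2
  rw [h3]
  exact h4.trans (jOrd_dvd_six z)

end Six

/-- **E-ORD**. -/
theorem stmt_OrdC : Stmt_OrdC := by
  intro M _ h2
  constructor
  · intro z
    obtain ⟨hpos, u, hu⟩ := Fermat.Agent.GTor.Clo.stmt_A3 M z
    obtain ⟨f, k, A, B, hf, hr, h1⟩ := exists_ratio_ord_one u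
    have hval := hu f k A B hf hr
    rw [h1, mul_one] at hval
    obtain ⟨v, e, he, hdvd, hv⟩ := exists_anPlace h2 (isOrdW_ordPt M z) (ellOrder M z) hpos
      ⟨⟨(f : LaurentSeries ℂ), coe_mem_FC f⟩, k, A, B,
        fun h => hf (Subtype.ext
          (by simpa using congrArg (fun t : ↥(FC M) => (t : LaurentSeries ℂ)) h)),
        isRep_of_isRatio hr, hval⟩
    exact ⟨v, e, he, hdvd.trans (ellOrder_dvd_six M z), hv⟩
  · intro σ
    obtain ⟨hw, hwM, u, hu⟩ := Fermat.Agent.GTor.Clo.stmt_A4 M σ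
    obtain ⟨f, k, A, B, hf, hr, h1⟩ := exists_ratio_ord_one u
    have hval := hu f k A B hf hr
    rw [h1, mul_one] at hval
    have hpos : 0 < M / cuspWidth M σ :=
      Nat.div_pos (Nat.le_of_dvd (Nat.pos_of_ne_zero (NeZero.ne M)) hwM) hw
    obtain ⟨v, e, he, hdvd, hv⟩ := exists_anPlace h2 (isOrdW_ordCu M σ) (M / cuspWidth M σ) hpos
      ⟨⟨(f : LaurentSeries ℂ), coe_mem_FC f⟩, k, A, B,
        fun h => hf (Subtype.ext
          (by simpa using congrArg (fun t : ↥(FC M) => (t : LaurentSeries ℂ)) h)),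
        isRep_of_isRatio hr, hval⟩
    exact ⟨v, e, he, hdvd, hv⟩

end Fermat.Agent.S48.B2.T.H98
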