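import Fermat.Agent.S48.B2.T.H96_A5C
import Fermat.Agent.S48.B2.T.H55_A5Act
import Fermat.Agent.S48.B2.T.H25_A5Slash
import Fermat.Agent.S48.B2.T.H98_OrdC

/-!
# S48 / B2, slice T, leaf E-A5C: `stmt_A5C : Stmt_A5C` (unconditional)

Assembly of `a5C_of` (helper96, the norm trick) with `T.H55.stmt_A5Act` (helper55),
`T.H25.stmt_A5Slash` (helper25) and `T.H98.stmt_OrdC` (helper98).
-/

set_option autoImplicit false

namespace Fermat.Agent.S48.B2.T.H96

/-- **E-A5C**: every place of `F_C` is the place of a point or of a cusp. -/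
theorem stmt_A5C : Fermat.Agent.S48.B2.T.Stmt_A5C :=
  a5C_of Fermat.Agent.S48.B2.T.H55.stmt_A5Act Fermat.Agent.S48.B2.T.H25.stmt_A5Slash
    Fermat.Agent.S48.B2.T.H98.stmt_OrdC

end Fermat.Agent.S48.B2.T.H96
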