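import Fermat.Agent.S48.B2.T.H01_Final
import Fermat.Agent.S48.B2.T.H96_A5CFinal

/-!
# S48 / B2 / slice T: DONE (helper1 + helpers 22, 25, 34, 43, 46, 55, 96, 98)

`stmt_EigBot : B2.Stmt_EigBot (-1) (-1)`, unconditional: the eigensystem of a weight two
eigenvector with nebentypus occurs in `J_H[ℓ] ⊗ k` (`H = ⊥`, `ℓ ≥ 5`, `ℓ ∤ φ(M)`).
-/

set_option autoImplicit false

namespace Fermat.Agent.S48.B2.T.H01

/-- **Slice T.** -/
theorem stmt_EigBot : Fermat.Agent.S48.B2.Stmt_EigBot (-1) (-1) :=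
  eigBot_of_A5C H96.stmt_A5C

end Fermat.Agent.S48.B2.T.H01
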