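import Fermat.Agent.S48.B2.T.Defs
import Fermat.Agent.GTor.H98_Exist

/-!
# S48 B2, slice T, leaf E-EIS (helper22): twisted Eisenstein series for a character of `Γ₁(M)`

Generic part: for a subgroup `Γ ≤ SL(2, ℤ)` containing `T` and a unitary character `χ : Γ → ℂˣ`
trivial on the upper triangular elements of `Γ`, the series
`gEis Γ χ k z = ∑ χ(γ)⁻¹ (c z + d)^(-k)` (sum over the bottom rows `(c, d)` of `Γ`), `k ≥ 4` even,
is holomorphic, bounded at all cusps, satisfies `gEis ∣[k] γ = χ(γ) • gEis` for `γ ∈ Γ` and tends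
to `1` or `2` at `i∞` (port of `Lib/TwistedEisensteinChar.lean`, helper96, from `Γ₀(N)` to `Γ`).

`stmt_EisTw : Stmt_EisTw`.
-/

set_option autoImplicit false

open UpperHalfPlane ModularForm EisensteinSeries Matrix Filter Topology Complex Set
open scoped MatrixGroups Manifold

noncomputable section

namespace Fermat.Agent.S48.B2.T.H22

open Fermat.Agent.Lib.TwistedEisenstein

section Generic

variable (Γ : Subgroup SL(2, ℤ)) (χ : ↥Γ →* ℂˣ)

/-- The weight function: `χ(γ)⁻¹` on the bottom row of `γ ∈ Γ`, zero elsewhere. -/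
def gWeight (v : Fin 2 → ℤ) : ℂ := by
  classical
  exact if h : ∃ γ : ↥Γ, bottomRow (γ : SL(2, ℤ)) = v
    then (((χ h.choose)⁻¹ : ℂˣ) : ℂ) else 0

/-- `χ` is trivial on the upper triangular elements of `Γ`. -/
def GTriv : Prop :=
  ∀ γ : ↥Γ, ((γ : SL(2, ℤ)) : Matrix (Fin 2) (Fin 2) ℤ) 1 0 = 0 → χ γ = 1

/-- `χ` is unitary. -/
def GUnitary : Prop := ∀ γ : ↥Γ, ‖((χ γ : ℂˣ) : ℂ)‖ = 1

variable {Γ χ}

theorem chi_eq_of_bottomRow_eq' (htri : GTriv Γ χ) {γ δ : ↥Γ}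
    (h : bottomRow (γ : SL(2, ℤ)) = bottomRow (δ : SL(2, ℤ))) : χ γ = χ δ := by
  have h1 : χ (γ * δ⁻¹) = 1 := htri _ (by
    have := mul_inv_lower_left_eq_zero h
    simpa using this)
  rw [map_mul, map_inv, mul_inv_eq_one] at h1
  exact h1

theorem gWeight_bottomRow (htri : GTriv Γ χ) (γ : ↥Γ) :
    gWeight Γ χ (bottomRow (γ : SL(2, ℤ))) = (((χ γ)⁻¹ : ℂˣ) : ℂ) := by
  classical
  have h : ∃ δ : ↥Γ, bottomRow (δ : SL(2, ℤ)) = bottomRow (γ : SL(2, ℤ)) := ⟨γ, rfl⟩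
  unfold gWeight
  rw [dif_pos h, chi_eq_of_bottomRow_eq' htri h.choose_spec]

theorem gWeight_of_not (v : Fin 2 → ℤ) (h : ¬ ∃ γ : ↥Γ, bottomRow (γ : SL(2, ℤ)) = v) :
    gWeight Γ χ v = 0 := by
  classical
  unfold gWeight
  rw [dif_neg h]

theorem norm_gWeight_le (hu : GUnitary Γ χ) (v : Fin 2 → ℤ) : ‖gWeight Γ χ v‖ ≤ 1 := by
  classical
  unfold gWeight
  split_ifs with h
  · rw [Units.val_inv_eq_inv_val, norm_inv, hu, inv_one]
  · simp

/-- **Transformation of the weight** under `γ ∈ Γ`. -/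
theorem wSlash_gWeight (htri : GTriv Γ χ) (γ : ↥Γ) :
    wSlash (gWeight Γ χ) (γ : SL(2, ℤ)) = fun v => ((χ γ : ℂˣ) : ℂ) * gWeight Γ χ v := by
  funext v
  rw [wSlash_apply]
  by_cases h : ∃ δ : ↥Γ, bottomRow (δ : SL(2, ℤ)) = v
  · obtain ⟨δ, rfl⟩ := h
    have h1 : bottomRow (δ : SL(2, ℤ)) ᵥ* (((γ : SL(2, ℤ))⁻¹ : SL(2, ℤ)) :
        Matrix (Fin 2) (Fin 2) ℤ) = bottomRow ((δ * γ⁻¹ : ↥Γ) : SL(2, ℤ)) := by
      rw [Subgroup.coe_mul, Subgroup.coe_inv, bottomRow_mul]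
    rw [h1, gWeight_bottomRow htri, gWeight_bottomRow htri, map_mul, map_inv]
    push_cast
    rw [mul_inv, inv_inv, mul_comm]
  · have h' : ¬ ∃ δ : ↥Γ, bottomRow (δ : SL(2, ℤ)) =
        v ᵥ* (((γ : SL(2, ℤ))⁻¹ : SL(2, ℤ)) : Matrix (Fin 2) (Fin 2) ℤ) := by
      rintro ⟨δ, hδ⟩
      refine h ⟨δ * γ, ?_⟩
      rw [Subgroup.coe_mul, bottomRow_mul, hδ, vecMul_inv_vecMul]
    rw [gWeight_of_not _ h, gWeight_of_not _ h', mul_zero]

theorem tInvariant_gWeight (hT : ModularGroup.T ∈ Γ) (htri : GTriv Γ χ) :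
    TInvariant (gWeight Γ χ) := by
  intro v
  have hT' : ModularGroup.T⁻¹ ∈ Γ := inv_mem hT
  have h1 := congrFun (wSlash_gWeight htri ⟨ModularGroup.T⁻¹, hT'⟩) v
  rw [wSlash_apply] at h1
  have h2 : χ ⟨ModularGroup.T⁻¹, hT'⟩ = 1 := htri _ (by
    show ((ModularGroup.T⁻¹ : SL(2, ℤ)) : Matrix (Fin 2) (Fin 2) ℤ) 1 0 = 0
    rw [Matrix.SpecialLinearGroup.coe_inv, Matrix.adjugate_fin_two]
    simp [ModularGroup.T])
  rw [h2] at h1
  simp only [inv_inv, Units.val_one, one_mul] at h1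
  exact h1

variable (Γ χ)

/-- **The twisted Eisenstein series** of weight `k` for the character `χ` of `Γ`. -/
def gEis (k : ℤ) : ℍ → ℂ := fun z => wEis k (gWeight Γ χ) z

variable {Γ χ} {k : ℤ}

theorem gEis_mdifferentiable (hk : 3 ≤ k) (hu : GUnitary Γ χ) :
    MDifferentiable 𝓘(ℂ) 𝓘(ℂ) (gEis Γ χ k) :=
  wEis_mdifferentiable hk (norm_gWeight_le hu)

/-- The transformation law: `gEis ∣[k] γ = χ γ • gEis` for `γ ∈ Γ`. -/
theorem gEis_slash (htri : GTriv Γ χ) (γ : ↥Γ) :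
    gEis Γ χ k ∣[k] (γ : SL(2, ℤ)) = ((χ γ : ℂˣ) : ℂ) • gEis Γ χ k := by
  have h := wEis_slash k (gWeight Γ χ) (γ : SL(2, ℤ))
  funext z
  have h2 := congrFun h z
  show (wEis k (gWeight Γ χ) ∣[k] (γ : SL(2, ℤ))) z = _
  rw [h2, wSlash_gWeight htri, wEis_const_mul]
  rfl

/-- The twisted Eisenstein series is bounded at every cusp. -/
theorem isBoundedAtImInfty_gEis_slash (hk : 3 ≤ k) (hu : GUnitary Γ χ) (A : SL(2, ℤ)) :
    IsBoundedAtImInfty (gEis Γ χ k ∣[k] A) :=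
  isBoundedAtImInfty_wEis_slash hk (norm_gWeight_le hu) A

/-! ### The limit at `i∞` -/

theorem gWeight_zero_one (htri : GTriv Γ χ) : gWeight Γ χ ![0, 1] = 1 := by
  have h := gWeight_bottomRow htri (1 : ↥Γ)
  rw [map_one] at h
  simpa [bottomRow_one] using h

/-- The weight of `(0, -1)` is `1` or `0`. -/
theorem gWeight_zero_neg_one (htri : GTriv Γ χ) :
    gWeight Γ χ ![0, -1] = 1 ∨ gWeight Γ χ ![0, -1] = 0 := by
  by_cases h : ∃ γ : ↥Γ, bottomRow (γ : SL(2, ℤ)) = ![0, -1]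
  · left
    obtain ⟨γ, hγ⟩ := h
    have h1 := gWeight_bottomRow htri γ
    have h2 : χ γ = 1 := htri γ (by
      have := congrFun hγ 0
      simpa [bottomRow] using this)
    rw [hγ, h2] at h1
    simpa using h1
  · right
    exact gWeight_of_not _ h

theorem limitTerm_gWeight_eq_zero (k : ℤ) (v : Fin 2 → ℤ)
    (hv : v ∉ ({![0, 1], ![0, -1]} : Finset (Fin 2 → ℤ))) :
    limitTerm k (gWeight Γ χ) v = 0 := by
  unfold limitTerm
  split_ifs with h0
  · by_cases h : ∃ γ : ↥Γ, bottomRow (γ : SL(2, ℤ)) = v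
    · exfalso
      obtain ⟨γ, rfl⟩ := h
      apply hv
      rcases bottomRow_one_eq_of_zero h0 with h1 | h1
      · have : bottomRow (γ : SL(2, ℤ)) = ![0, 1] := by
          funext j
          fin_cases j
          · exact h0
          · exact h1
        simp [this]
      · have : bottomRow (γ : SL(2, ℤ)) = ![0, -1] := by
          funext j
          fin_cases j
          · exact h0
          · exact h1
        simp [this]
    · rw [gWeight_of_not _ h, zero_mul]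
  · rfl

theorem tsum_limitTerm_gWeight (htri : GTriv Γ χ) (hk2 : Even k) :
    ∑' v : Fin 2 → ℤ, limitTerm k (gWeight Γ χ) v = 2 ∨
      ∑' v : Fin 2 → ℤ, limitTerm k (gWeight Γ χ) v = 1 := by
  rw [tsum_eq_sum (s := ({![0, 1], ![0, -1]} : Finset (Fin 2 → ℤ)))
    (fun v hv => limitTerm_gWeight_eq_zero k v hv)]
  have hne : (![0, 1] : Fin 2 → ℤ) ≠ ![0, -1] := by
    intro h
    have := congrFun h 1
    simp at this
  rw [Finset.sum_pair hne]
  have h1 : limitTerm k (gWeight Γ χ) ![0, 1] = 1 := by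
    simp [limitTerm, gWeight_zero_one htri]
  have hpow : ((-1 : ℂ)) ^ (-k) = 1 := by
    rw [_root_.zpow_neg, hk2.neg_one_zpow, inv_one]
  rcases gWeight_zero_neg_one htri with h | h
  · left
    have h2 : limitTerm k (gWeight Γ χ) ![0, -1] = 1 := by
      simp [limitTerm, h, hpow]
    rw [h1, h2]
    norm_num
  · right
    have h2 : limitTerm k (gWeight Γ χ) ![0, -1] = 0 := by
      simp [limitTerm, h]
    rw [h1, h2, add_zero]

/-- The twisted Eisenstein series does not vanish identically. -/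
theorem gEis_ne_zero (hk : 3 ≤ k) (hk2 : Even k) (hT : ModularGroup.T ∈ Γ)
    (hu : GUnitary Γ χ) (htri : GTriv Γ χ) : gEis Γ χ k ≠ 0 := by
  have h := tendsto_wEis hk (norm_gWeight_le hu) (tInvariant_gWeight hT htri)
  have hL : (∑' v : Fin 2 → ℤ, limitTerm k (gWeight Γ χ) v) ≠ 0 := by
    rcases tsum_limitTerm_gWeight (Γ := Γ) (χ := χ) htri hk2 with h2 | h2
    · rw [h2]; norm_num
    · rw [h2]; norm_num
  intro h0
  have h' : Tendsto (gEis Γ χ k) atImInfty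
      (𝓝 (∑' v : Fin 2 → ℤ, limitTerm k (gWeight Γ χ) v)) := h
  rw [h0] at h'
  have h0' : Tendsto (0 : ℍ → ℂ) atImInfty (𝓝 0) := tendsto_const_nhds
  exact hL (tendsto_nhds_unique h' h0')

end Generic

/-! ### The character of `Γ₁(M)` attached to `φ` -/

section Gam1

open Fermat.Agent.NEB.EIG.H39 Fermat.Agent.GTor Fermat.Agent.NEB.EIG.H34

variable {M n : ℕ}

/-- The multiplicative character `γ ↦ ζ_n ^ φ(γ)` attached to `φ : Γ₁(M) → ℤ/n`. -/
def chiOf1 (hn : n ≠ 0) (φ : Additive (Gam1 M M) →+ ZMod n) : (Gam1 M M) →* ℂˣ :=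
  MonoidHom.mk' (fun γ => Units.mk0 (zetaPow n (φ (Additive.ofMul γ)))
      (Fermat.Agent.GTor.H98.zetaPow_ne_zero _ _))
    (by
      intro a b
      apply Units.ext
      show zetaPow n (φ (Additive.ofMul (a * b)))
        = zetaPow n (φ (Additive.ofMul a)) * zetaPow n (φ (Additive.ofMul b))
      rw [ofMul_mul, map_add, Fermat.Agent.GTor.H96.zetaPow_add hn])

theorem coe_chiOf1 (hn : n ≠ 0) (φ : Additive (Gam1 M M) →+ ZMod n) (γ : Gam1 M M) :
    ((chiOf1 hn φ γ : ℂˣ) : ℂ) = zetaPow n (φ (Additive.ofMul γ)) := rfl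

theorem chiOf1_pow (hn : n ≠ 0) (φ : Additive (Gam1 M M) →+ ZMod n) (γ : Gam1 M M) :
    chiOf1 hn φ γ ^ n = 1 := by
  apply Units.ext
  rw [Units.val_pow_eq_pow_val, coe_chiOf1, Fermat.Agent.GTor.H96.zetaPow_pow, Units.val_one]

theorem gUnitary_chiOf1 (hn : n ≠ 0) (φ : Additive (Gam1 M M) →+ ZMod n) :
    GUnitary (Gam1 M M) (chiOf1 hn φ) := by
  intro γ
  have h1 : ‖((chiOf1 hn φ γ : ℂˣ) : ℂ)‖ ^ n = 1 := by
    rw [← norm_pow, ← Units.val_pow_eq_pow_val, chiOf1_pow hn φ γ]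
    simp
  exact (pow_eq_one_iff_of_nonneg (norm_nonneg _) hn).mp h1

theorem gTriv_chiOf1 (hn : n ≠ 0) {φ : Additive (Gam1 M M) →+ ZMod n}
    (hφ : φ ∈ homPE (Gam1 M M) (ZMod n)) : GTriv (Gam1 M M) (chiOf1 hn φ) := by
  intro γ hγ
  apply Units.ext
  rw [coe_chiOf1, hφ.1 γ (Fermat.Agent.GTor.H98.trace_sq_of_lower_left_zero _ hγ),
    Fermat.Agent.GTor.H96.zetaPow_zero hn, Units.val_one]

theorem T_mem_Gam1 (M : ℕ) : ModularGroup.T ∈ Gam1 M M := by
  rw [mem_Gam1]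
  refine ⟨?_, ?_, ?_⟩ <;> simp [ModularGroup.T]

/-- The twisted Eisenstein series of weight `4` is an `IsTw1`. -/
theorem isTw1_gEis (hn : n ≠ 0) {φ : Additive (Gam1 M M) →+ ZMod n}
    (hφ : φ ∈ homPE (Gam1 M M) (ZMod n)) :
    IsTw1 M M n 4 φ (gEis (Gam1 M M) (chiOf1 hn φ) 4) where
  mdiff := gEis_mdifferentiable (by norm_num) (gUnitary_chiOf1 hn φ)
  bdd := fun σ => isBoundedAtImInfty_gEis_slash (by norm_num) (gUnitary_chiOf1 hn φ) σ
  slash := fun γ => by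
    rw [gEis_slash (gTriv_chiOf1 hn hφ) γ, coe_chiOf1]

open Fermat.Agent.GTor.H98 in
/-- **E-EIS.** -/
theorem stmt_EisTw : Stmt_EisTw := by
  intro M _ hM n hn φ hφ
  have hk : (3 : ℤ) ≤ 4 := by norm_num
  have hk2 : Even (4 : ℤ) := ⟨2, by norm_num⟩
  have h0 : (0 : Additive (CongruenceSubgroup.Gamma0 M) →+ ZMod n)
      ∈ homPE (CongruenceSubgroup.Gamma0 M) (ZMod n) := zero_mem _
  have htri0 : TrivialAtInfty M (chiOf hn (0 : Additive (CongruenceSubgroup.Gamma0 M) →+ ZMod n)) :=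
    trivialAtInfty_chiOf hn h0
  have h1pow : ∀ γ, chiOf hn (0 : Additive (CongruenceSubgroup.Gamma0 M) →+ ZMod n) γ ^ 1 = 1 :=
    fun γ => by
      rw [pow_one]
      exact chiOf_eq_one hn 0 rfl
  refine ⟨4, gEis (Gam1 M M) (chiOf1 hn φ) 4,
    ModularForm.mcast (by simp) (twEisPow M
      (chiOf hn (0 : Additive (CongruenceSubgroup.Gamma0 M) →+ ZMod n)) hk one_ne_zero h1pow
      htri0), isTw1_gEis hn hφ, ?_, ?_⟩
  · exact gEis_ne_zero hk hk2 (T_mem_Gam1 M) (gUnitary_chiOf1 hn φ) (gTriv_chiOf1 hn hφ)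
  · intro h
    have h2 := twEisPow_ne_zero hk hk2 one_ne_zero h1pow htri0
    apply h2
    ext z
    have := congrArg (fun F : ModularForm _ _ => F z) h
    simpa using this

end Gam1

end Fermat.Agent.S48.B2.T.H22
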