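import Fermat.Agent.S48.B2.T.Defs
import Fermat.Agent.NEB.EIG.H98_Mono1
import Fermat.Agent.GTor.H98_Exist

/-!
# S48 / B2, slice T, leaf E-UNR (helper34): `stmt_UnrC_of : Stmt_A5C → Stmt_UnrC`

The function `f = (R / B)^ℓ` of a twisted form `R` on `Γ₁(M)` (multiplier `ζ^φ`, `φ` trivial on
parabolic elements) has order divisible by `ℓ` at every place of `F_{H,ℂ}`, if `ℓ ≥ 5` is a prime
not dividing `φ(M)`:

* at a point `z`: `e · ord_v f = ℓ (ord_z R - ord_z B)` with `e ∣ 6`;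
* at a cusp `σ∞` of width `w₀` (in `Γ₀(M)`): `(σ T^{w₀} σ⁻¹)^{φ(M)} ∈ Γ₁(M)` is parabolic, so
  `R ∣ σ` is `w₀ φ(M)`-periodic and `w₀ φ(M) · ord R ∈ M ℤ`; `w₀ · ord B ∈ M ℤ`; `e ∣ M / w₀`.
-/

set_option autoImplicit false
set_option linter.unusedSectionVars false
set_option maxHeartbeats 1000000

noncomputable section

namespace Fermat.Agent.S48.B2.T.H34

open AlgebraicCurve ModularCurve UpperHalfPlane CongruenceSubgroup Matrix.SpecialLinearGroup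
open Fermat.Agent.NEB Fermat.Agent.NEB.H84 Fermat.Agent.NEB.EIG.H39
open Fermat.Agent.NEB.EIG.H98 Fermat.Agent.NEB.EIG.H34 Fermat.Agent.GTor
open Fermat.Agent.GTor.H96 (IsCuspRegular slash_vadd_of_conj periodic_of_vadd)
open scoped MatrixGroups ModularForm Manifold

/-! ## 1. Group theory -/

/-- `d_γ mod M` as a unit. -/
def dU (M : ℕ) : Gamma0 M →* (ZMod M)ˣ := MonoidHom.toHomUnits (Gamma0Map M)

theorem coe_dU (M : ℕ) (γ : Gamma0 M) :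
    ((dU M γ : (ZMod M)ˣ) : ZMod M) = (((γ : SL(2, ℤ)) 1 1 : ℤ) : ZMod M) := by
  simp [dU, MonoidHom.toHomUnits, Gamma0Map]

/-- The `φ(M)`-th power of an element of `Γ₀(M)` lies in `Γ₁(M)`. -/
theorem pow_totient_mem_Gam1 (M : ℕ) [NeZero M] (γ : SL(2, ℤ)) (hγ : γ ∈ Gamma0 M) :
    γ ^ (Nat.totient M) ∈ Gam1 M M := by
  set g : Gamma0 M := ⟨γ, hγ⟩ with hg
  have h1 : dU M (g ^ Nat.totient M) = 1 := by
    rw [map_pow]
    exact ZMod.pow_totient _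
  have h2 : (((γ ^ Nat.totient M : SL(2, ℤ)) 1 1 : ℤ) : ZMod M) = 1 := by
    have := congrArg (fun u : (ZMod M)ˣ => (u : ZMod M)) h1
    simp only [coe_dU, Units.val_one] at this
    exact this
  have hmem : γ ^ Nat.totient M ∈ Gamma0 M := (Gamma0 M).pow_mem hγ _
  set δ : SL(2, ℤ) := γ ^ Nat.totient M with hδ
  have h10 : (M : ℤ) ∣ δ 1 0 := by
    rw [Gamma0_mem] at hmem
    exact (ZMod.intCast_zmod_eq_zero_iff_dvd _ _).mp hmem
  have h11 : (M : ℤ) ∣ δ 1 1 - 1 := by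
    rw [← ZMod.intCast_zmod_eq_zero_iff_dvd]
    push_cast
    rw [h2, sub_self]
  have hdet := sl_det δ
  refine mem_Gam1.mpr ⟨h10, h10, ?_⟩
  obtain ⟨u, hu⟩ := h10
  obtain ⟨w, hw⟩ := h11
  refine ⟨-(δ 0 0 * w) + δ 0 1 * u, ?_⟩
  have e1 : δ 1 1 = 1 + M * w := by linarith
  rw [e1, hu] at hdet
  linear_combination hdet

/-! ## 2. Periodicity at the cusps -/

variable {M ℓ : ℕ} {k : ℤ} {φ : Additive (Gam1 M M) →+ ZMod ℓ} {R : ℍ → ℂ}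

/-- `R ∣ σ` is `j`-periodic if `σ T^j σ⁻¹ ∈ Γ₁(M)`. -/
theorem tw_slash_vadd (hR : IsTw1 M M ℓ k φ R) (hφ : φ ∈ homPE (Gam1 M M) (ZMod ℓ))
    (σ : SL(2, ℤ)) (j : ℕ) (hmem : σ * ModularGroup.T ^ j * σ⁻¹ ∈ Gam1 M M) (z : ℍ) :
    (R ∣[k] σ) ((j : ℝ) +ᵥ z) = (R ∣[k] σ) z := by
  have h0 : φ (Additive.ofMul (⟨_, hmem⟩ : Gam1 M M)) = 0 :=
    hφ.1 ⟨_, hmem⟩ (Fermat.Agent.GTor.H98.trace_sq_conj_T_pow σ j)
  have h1 := hR.slash ⟨_, hmem⟩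
  rw [h0, Fermat.Agent.GTor.H56.zetaPow_zero, one_smul] at h1
  have h2 := slash_vadd_of_conj (R := R) (k := k) (σ := σ)
    (δ := σ * ModularGroup.T ^ j * σ⁻¹) (j := (j : ℤ)) (c := 1) (by rw [zpow_natCast])
    (by simp only [one_mul]; exact h1) z
  rw [one_mul] at h2
  exact_mod_cast h2

theorem conj_T_pow_mem_Gam1 (M : ℕ) (σ : SL(2, ℤ)) :
    σ * ModularGroup.T ^ M * σ⁻¹ ∈ Gam1 M M :=
  Gamma1_le_Gam1 dvd_rfl (conj_T_pow_mem_Gamma1 M σ)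

/-- The slash of a twisted form is cusp-regular for the period `M`. -/
theorem isCuspRegular_tw (hR : IsTw1 M M ℓ k φ R) (hφ : φ ∈ homPE (Gam1 M M) (ZMod ℓ))
    (σ : SL(2, ℤ)) : IsCuspRegular (M : ℝ) (R ∣[k] σ) where
  per := periodic_of_vadd fun z => tw_slash_vadd hR hφ σ M (conj_T_pow_mem_Gam1 M σ) z
  hol := by
    have := hR.mdiff.slash k (σ : GL (Fin 2) ℝ)
    exact this
  bdd := hR.bdd σ

/-- `R ∣ σ` is `w₀ φ(M)`-periodic, `w₀` the width of the cusp in `Γ₀(M)`. -/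
theorem tw_slash_vadd_width [NeZero M] (hR : IsTw1 M M ℓ k φ R)
    (hφ : φ ∈ homPE (Gam1 M M) (ZMod ℓ)) (σ : SL(2, ℤ)) (z : ℍ) :
    (R ∣[k] σ) (((cuspWidth M σ * Nat.totient M : ℕ) : ℝ) +ᵥ z) = (R ∣[k] σ) z := by
  refine tw_slash_vadd hR hφ σ _ ?_ z
  have h1 := (Fermat.Agent.GTor.H98.cuspWidth_spec M σ).2
  have h2 := pow_totient_mem_Gam1 M _ h1
  have e : (σ * ModularGroup.T ^ cuspWidth M σ * σ⁻¹) ^ Nat.totient M
      = σ * ModularGroup.T ^ (cuspWidth M σ * Nat.totient M) * σ⁻¹ := by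
    rw [conj_pow, ← pow_mul]
  rw [← e]
  exact h2

/-- The order at a cusp of a twisted form: `φ(M) · ord ∈ (M / w₀) ℤ`. -/
theorem totient_mul_ordCu [NeZero M] (hR : IsTw1 M M ℓ k φ R)
    (hφ : φ ∈ homPE (Gam1 M M) (ZMod ℓ)) (hR0 : R ≠ 0) (σ : SL(2, ℤ)) :
    ∃ m : ℤ, (Nat.totient M : ℤ) * ordCu M σ k R = ((M / cuspWidth M σ : ℕ) : ℤ) * m := by
  have hM : (0 : ℝ) < (M : ℝ) := by exact_mod_cast Nat.pos_of_ne_zero (NeZero.ne M)
  obtain ⟨m, hm⟩ := (isCuspRegular_tw hR hφ σ).exists_int_of_periodic hM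
    (H96.slash_ne_zero hR0 k σ) (tw_slash_vadd_width hR hφ σ)
  refine ⟨m, ?_⟩
  obtain ⟨hw0, -⟩ := Fermat.Agent.GTor.H98.cuspWidth_spec M σ
  obtain ⟨d, hd⟩ := Fermat.Agent.GTor.H98.cuspWidth_dvd M σ
  have hdiv : M / cuspWidth M σ = d := Nat.div_eq_of_eq_mul_right hw0 hd
  rw [hdiv]
  unfold ordCu
  have hmZ : (((cuspWidth M σ * Nat.totient M : ℕ) : ℕ) : ℤ) *
      (((qExpansion (M : ℝ) (R ∣[k] σ)).order.toNat : ℕ) : ℤ) = (M : ℤ) * m := by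
    exact_mod_cast hm
  have hMZ : (M : ℤ) = (cuspWidth M σ : ℤ) * (d : ℤ) := by exact_mod_cast hd
  have hw : (cuspWidth M σ : ℤ) ≠ 0 := by exact_mod_cast hw0.ne'
  have : (cuspWidth M σ : ℤ) * ((Nat.totient M : ℤ) *
      (((qExpansion (M : ℝ) (R ∣[k] σ)).order.toNat : ℕ) : ℤ))
      = (cuspWidth M σ : ℤ) * ((d : ℤ) * m) := by
    push_cast at hmZ
    linear_combination hmZ + (m : ℤ) * hMZ
  exact mul_left_cancel₀ hw this

/-- The order at a cusp of a modular form on `Γ₀(M)`: `ord ∈ (M / w₀) ℤ`. -/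
theorem ordCu_modularForm [NeZero M] (B : ModularForm (Gamma0 M) k) (hB0 : (B : ℍ → ℂ) ≠ 0)
    (σ : SL(2, ℤ)) :
    ∃ m : ℤ, ordCu M σ k (B : ℍ → ℂ) = ((M / cuspWidth M σ : ℕ) : ℤ) * m := by
  obtain ⟨hw0, hmem⟩ := Fermat.Agent.GTor.H98.cuspWidth_spec M σ
  have hper : ∀ z : ℍ, ((B : ℍ → ℂ) ∣[k] σ) ((cuspWidth M σ : ℝ) +ᵥ z)
      = ((B : ℍ → ℂ) ∣[k] σ) z := by
    intro z
    have h1 := slash_modularForm B hmem
    have h2 := slash_vadd_of_conj (R := (B : ℍ → ℂ)) (k := k) (σ := σ)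
      (δ := σ * ModularGroup.T ^ cuspWidth M σ * σ⁻¹) (j := (cuspWidth M σ : ℤ)) (c := 1)
      (by rw [zpow_natCast]) (by simp only [one_mul]; exact h1) z
    rw [one_mul] at h2
    exact_mod_cast h2
  have hreg := isCuspRegular_slash_of_isW (isW_of_modularForm B) σ
  have h := hreg.div_dvd_order (Nat.pos_of_ne_zero (NeZero.ne M)) hw0
    (Fermat.Agent.GTor.H98.cuspWidth_dvd M σ) (H96.slash_ne_zero hB0 k σ) hper
  obtain ⟨m, hm⟩ := h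
  refine ⟨m, ?_⟩
  unfold ordCu
  rw [hm]
  push_cast
  ring

/-- The order at a cusp of a power. -/
theorem ordCu_pow (M : ℕ) [NeZero M] {X : ℍ → ℂ} (σ : SL(2, ℤ))
    (hX : IsCuspRegular (M : ℝ) (X ∣[k] σ)) (n : ℕ) :
    ordCu M σ ((n : ℤ) * k) (fun z => X z ^ n) = n * ordCu M σ k X := by
  have hM : (0 : ℝ) < (M : ℝ) := by exact_mod_cast Nat.pos_of_ne_zero (NeZero.ne M)
  unfold ordCu
  rw [Fermat.Agent.GTor.H56.slash_pow_SL]
  have := hX.order_toNat_qExpansion_pow hM n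
  have e : (fun z => (X ∣[k] σ) z ^ n) = (X ∣[k] σ) ^ n := rfl
  rw [e, this]
  push_cast
  ring

/-! ## 3. The theorem -/

/-- **E-UNR** (from E-A5C). -/
theorem stmt_UnrC_of (hA5 : Stmt_A5C) : Stmt_UnrC := by
  intro M _ hM2 ℓ hℓ hℓ5 hℓφ φ hφ k R B f hR hB hf hq v
  have hB0 : (B : ℍ → ℂ) ≠ 0 := fun h => hB (DFunLike.coe_injective (by rw [h]; rfl))
  have hWR : IsW M ((ℓ : ℤ) * k) (fun z => R z ^ ℓ) := hR.isW_pow dvd_rfl
  have hWB : IsW M ((ℓ : ℤ) * k) (fun z => B z ^ ℓ) :=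
    (isTw1_of_modularForm (c := M) (n := ℓ) B).isW_pow dvd_rfl
  have hBpow0 : (fun z => B z ^ ℓ) ≠ 0 := by
    intro h
    apply hB0
    funext z
    have := congrFun h z
    exact pow_eq_zero_iff hℓ.ne_zero |>.mp this
  have hRep : IsRep M (f : LaurentSeries ℂ) ((ℓ : ℤ) * k) (fun z => R z ^ ℓ)
      (fun z => B z ^ ℓ) := ⟨hWR, hWB, hBpow0, hq⟩
  have hf' : (f : LaurentSeries ℂ) ≠ 0 := fun h => hf (Subtype.ext h)
  have hRpow0 : (fun z => R z ^ ℓ) ≠ 0 := hRep.num_ne_zero hf'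
  have hR0 : R ≠ 0 := by
    rintro rfl
    apply hRpow0
    funext z
    simp [hℓ.ne_zero]
  have hℓ2 : ¬ (ℓ ∣ 2) := fun h => by
    have := Nat.le_of_dvd (by norm_num) h
    omega
  have hℓ3 : ¬ (ℓ ∣ 3) := fun h => by
    have := Nat.le_of_dvd (by norm_num) h
    omega
  rcases hA5 M hM2 v with ⟨z, e, he0, he6, hv⟩ | ⟨σ, e, he0, heM, hv⟩
  · -- a point
    have h1 := hv f _ _ _ hf hRep
    have e1 : ordPt z ((ℓ : ℤ) * k) (fun z => R z ^ ℓ) = ℓ * ordPt z k R :=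
      ordPt_pow hR.mdiff hR0 z ℓ _ _
    have e2 : ordPt z ((ℓ : ℤ) * k) (fun z => B z ^ ℓ) = ℓ * ordPt z k (B : ℍ → ℂ) :=
      ordPt_pow B.holo' hB0 z ℓ _ _
    rw [e1, e2] at h1
    have hdvd : (ℓ : ℤ) ∣ (e : ℤ) * v.ord f := ⟨ordPt z k R - ordPt z k (B : ℍ → ℂ), by
      rw [← h1]; ring⟩
    have hcop : Nat.Coprime ℓ e := by
      have h6 : Nat.Coprime ℓ 6 := by
        have : (6 : ℕ) = 2 * 3 := rfl
        rw [this]
        exact Nat.Coprime.mul_right ((Nat.Prime.coprime_iff_not_dvd hℓ).mpr hℓ2)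
          ((Nat.Prime.coprime_iff_not_dvd hℓ).mpr hℓ3)
      exact Nat.Coprime.coprime_dvd_right he6 h6
    have hcop' : IsCoprime (ℓ : ℤ) (e : ℤ) := Nat.isCoprime_iff_coprime.mpr hcop
    exact hcop'.dvd_of_dvd_mul_left hdvd
  · -- a cusp
    have h1 := hv f _ _ _ hf hRep
    have hregR := isCuspRegular_tw hR hφ σ
    have hregB := isCuspRegular_slash_of_isW (isW_of_modularForm B) σ
    have e1 : ordCu M σ ((ℓ : ℤ) * k) (fun z => R z ^ ℓ) = ℓ * ordCu M σ k R :=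
      ordCu_pow M σ hregR ℓ
    have e2 : ordCu M σ ((ℓ : ℤ) * k) (fun z => B z ^ ℓ) = ℓ * ordCu M σ k (B : ℍ → ℂ) :=
      ordCu_pow M σ hregB ℓ
    rw [e1, e2] at h1
    obtain ⟨m, hm⟩ := totient_mul_ordCu hR hφ hR0 σ
    obtain ⟨m', hm'⟩ := ordCu_modularForm B hB0 σ
    obtain ⟨e', he'⟩ := heM
    have he0' : (e : ℤ) ≠ 0 := by exact_mod_cast he0.ne'
    -- `φ(M) · e · x = ℓ · e · e' · (m - φ(M) m')`
    have key : (e : ℤ) * ((Nat.totient M : ℤ) * v.ord f)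
        = (e : ℤ) * ((ℓ : ℤ) * ((e' : ℤ) * (m - (Nat.totient M : ℤ) * m'))) := by
      have hM0 : ((M / cuspWidth M σ : ℕ) : ℤ) = (e : ℤ) * (e' : ℤ) := by
        rw [he']; push_cast; ring
      rw [hM0] at hm hm'
      have : (Nat.totient M : ℤ) * ((e : ℤ) * v.ord f)
          = (ℓ : ℤ) * ((Nat.totient M : ℤ) * ordCu M σ k R
            - (Nat.totient M : ℤ) * ordCu M σ k (B : ℍ → ℂ)) := by
        rw [← h1]; ring
      rw [hm, hm'] at this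
      linear_combination this
    have key' := mul_left_cancel₀ he0' key
    have hdvd : (ℓ : ℤ) ∣ (Nat.totient M : ℤ) * v.ord f := ⟨_, key'⟩
    have hcop : Nat.Coprime ℓ (Nat.totient M) := (Nat.Prime.coprime_iff_not_dvd hℓ).mpr hℓφ
    have hcop' : IsCoprime (ℓ : ℤ) (Nat.totient M : ℤ) := Nat.isCoprime_iff_coprime.mpr hcop
    exact hcop'.dvd_of_dvd_mul_left hdvd

end Fermat.Agent.S48.B2.T.H34
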