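import Fermat.Agent.S48.B2.T.Defs
import Fermat.Agent.NEB.EIG.H46_A2H
import Fermat.Agent.NEB.H14_JHData
import Fermat.Agent.GTor.H75_DescCoreFinal
import Fermat.Agent.GTor.H33_DescUp
import Fermat.Agent.GTor.H33_Trdeg
import Fermat.Agent.GTor.H33_KUM
import Fermat.Agent.GTor.H96_MonoAux

/-!
# S48 / B2, slice T, leaf E-ASM (helper43)

`exist1_of : Stmt_EisTw → Stmt_A1C → Stmt_UnrC → Stmt_FinC → Stmt_Exist1`.

Given `φ ∈ homPE (Γ₁(M), ℤ/ℓ)`: the twisted Eisenstein series `R` (E-EIS) and a form `B` on `Γ₀(M)`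
give `f := (R/B)^ℓ ∈ F_{H,ℂ}` (A2-H, helper46), unramified (E-UNR); by DESC-CORE (helper75, with
E-FIN) `f = bc(f₀) h^ℓ` with `f₀` over `ℚ̄`; `f₀` is unramified over `ℚ̄` (DESC-UP, helper33), so
`ℓ D = div f₀` for a divisor `D` of degree `0`, and `x := [D]` has character `φ`:
`bc(f₀) = (R A₁ / (B B₁))^ℓ` where `h⁻¹ = A₁ / B₁` (E-A1C).
-/

set_option autoImplicit false
set_option linter.style.haveILetI false
set_option linter.unusedSectionVars false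
set_option linter.unusedVariables false

noncomputable section

namespace Fermat.Agent.S48.B2.T.H43

open AlgebraicCurve ModularCurve UpperHalfPlane CongruenceSubgroup Matrix.SpecialLinearGroup
open Fermat.Agent.NEB Fermat.Agent.NEB.JH Fermat.Agent.NEB.H84 Fermat.Agent.NEB.EIG.H39
open Fermat.Agent.NEB.EIG.H98 Fermat.Agent.NEB.EIG.H34 Fermat.Agent.GTor
open Fermat.Agent.S23.H22 (Nice)
open Fermat.Agent.GTor.H56 (qLaurent_mul qLaurent_injective qLaurent_eq_zero_iff qLaurent_zero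
  qLaurent_pow nice_of_gamma0 zetaPow_zero zetaPow_add zetaPow_pow slash_pow_SL)
open scoped MatrixGroups ModularForm Manifold

/-! ## The subgroup `±Γ₁(M)` -/

/-- `cosetSet M ⊥ 1 = {1, -1}`. -/
theorem mem_cosetSet_bot_one {M : ℕ} {x : ZMod M} :
    x ∈ cosetSet M (⊥ : Subgroup (ZMod M)ˣ) 1 ↔ x = 1 ∨ x = -1 := by
  constructor
  · rintro ⟨h, hh, hx⟩
    rw [Subgroup.mem_bot] at hh
    subst hh
    simpa using hx
  · intro hx
    refine ⟨1, Subgroup.one_mem _, ?_⟩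
    simpa using hx

/-- An element of `Γ₀(M)` with `a ≡ 1 mod M` is in `Gam1 M M`. -/
theorem mem_gam1_of_one {M : ℕ} {γ : SL(2, ℤ)} (hγ : γ ∈ Gamma0 M)
    (h1 : ((γ 0 0 : ℤ) : ZMod M) = 1) : γ ∈ Gam1 M M := by
  have h10 : (M : ℤ) ∣ γ 1 0 := by
    rw [Gamma0_mem] at hγ
    exact (ZMod.intCast_zmod_eq_zero_iff_dvd _ _).mp hγ
  have h00 : (M : ℤ) ∣ γ 0 0 - 1 := by
    rw [← ZMod.intCast_zmod_eq_zero_iff_dvd]
    push_cast
    rw [h1, sub_self]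
  exact ⟨h10, h10, h00⟩

/-- An element of `Γ₀(M)` with `a ≡ -1 mod M` is `-γ'` with `γ' ∈ Gam1 M M`. -/
theorem neg_mem_gam1_of_neg_one {M : ℕ} {γ : SL(2, ℤ)} (hγ : γ ∈ Gamma0 M)
    (h1 : ((γ 0 0 : ℤ) : ZMod M) = -1) : -γ ∈ Gam1 M M := by
  have h10 : (M : ℤ) ∣ γ 1 0 := by
    rw [Gamma0_mem] at hγ
    exact (ZMod.intCast_zmod_eq_zero_iff_dvd _ _).mp hγ
  have h00 : (M : ℤ) ∣ -(γ 0 0) - 1 := by
    rw [← ZMod.intCast_zmod_eq_zero_iff_dvd]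
    push_cast
    rw [h1]
    ring
  have e10 : (-γ) 1 0 = -(γ 1 0) := by simp
  have e00 : (-γ) 0 0 = -(γ 0 0) := by simp
  refine ⟨?_, ?_, ?_⟩
  · rw [e10]; exact (dvd_neg).mpr h10
  · rw [e10]; exact (dvd_neg).mpr h10
  · rw [e00]; exact h00

/-- The `ℓ`-th power of a twisted form is invariant under `Gam1 M M`. -/
theorem pow_slash_gam1 {M n : ℕ} {k : ℤ} {φ : Additive (Gam1 M M) →+ ZMod n} {R : ℍ → ℂ}
    (hR : IsTw1 M M n k φ R) {γ : SL(2, ℤ)} (hγ : γ ∈ Gam1 M M) :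
    (fun z => R z ^ n) ∣[(n : ℤ) * k] γ = fun z => R z ^ n := by
  rw [slash_pow_SL, hR.slash ⟨γ, hγ⟩]
  funext z
  simp only [Pi.smul_apply, smul_eq_mul, mul_pow]
  rw [zetaPow_pow, one_mul]

/-- In even weight, the `ℓ`-th power of a twisted form is invariant under `±Γ₁(M)`. -/
theorem pow_slash_pm {M n : ℕ} {k : ℤ} {φ : Additive (Gam1 M M) →+ ZMod n} {R : ℍ → ℂ}
    (hR : IsTw1 M M n k φ R) (hk : Even k) {γ : SL(2, ℤ)} (hγ : γ ∈ Gamma0 M)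
    (ha : ((γ 0 0 : ℤ) : ZMod M) ∈ cosetSet M (⊥ : Subgroup (ZMod M)ˣ) 1) :
    (fun z => R z ^ n) ∣[(n : ℤ) * k] γ = fun z => R z ^ n := by
  rcases mem_cosetSet_bot_one.mp ha with h1 | h1
  · exact pow_slash_gam1 hR (mem_gam1_of_one hγ h1)
  · have hmem := neg_mem_gam1_of_neg_one hγ h1
    have hkk : Even ((n : ℤ) * k) := hk.mul_left _
    have e : γ = (-1 : SL(2, ℤ)) * (-γ) := by simp
    rw [e, SlashAction.slash_mul, Fermat.Agent.GTor.H96.slash_neg_one_of_even hkk]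
    exact pow_slash_gam1 hR hmem

/-! ## The assembly -/

/-- **E-ASM**: existence of torsion points with a given character. -/
theorem exist1_of (hE : Stmt_EisTw) (hA : Stmt_A1C) (hU : Stmt_UnrC) (hF : Stmt_FinC) :
    Stmt_Exist1 := by
  intro M _ hM2 ℓ hℓ h5 htot ι φ hφ
  have hℓ0 : ℓ ≠ 0 := hℓ.ne_zero
  have hM0 : M ≠ 0 := NeZero.ne M
  -- the twisted form
  obtain ⟨k, R, B, hR, hR0, hB0⟩ := hE M hM2 ℓ hℓ0 φ hφ
  have hk : Even k := Fermat.Agent.GTor.H96.even_weight_of_ne_zero hB0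
  have hRW : IsW M ((ℓ : ℤ) * k) (fun z => R z ^ ℓ) := hR.isW_pow dvd_rfl
  have hBT : IsTw1 M M ℓ k 0 (B : ℍ → ℂ) := isTw1_of_modularForm B
  have hBW : IsW M ((ℓ : ℤ) * k) (fun z => B z ^ ℓ) := hBT.isW_pow dvd_rfl
  have nB : Nice 1 (B : ℍ → ℂ) := nice_of_gamma0 B
  have nBℓ : Nice 1 (fun z => B z ^ ℓ) := nB.pow ℓ
  have nRℓ : Nice 1 (fun z => R z ^ ℓ) := hRW.nice
  have hBℓ0 : (fun z => B z ^ ℓ) ≠ 0 := by
    intro h0
    apply hB0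
    ext z
    have := congrFun h0 z
    simpa using pow_eq_zero_iff hℓ0 |>.1 this
  have hRℓ0 : (fun z => R z ^ ℓ) ≠ 0 := by
    intro h0
    apply hR0
    funext z
    have := congrFun h0 z
    simpa using pow_eq_zero_iff hℓ0 |>.1 this
  -- the function over `ℂ`
  obtain ⟨x, hx, hxe⟩ := Fermat.Agent.NEB.EIG.H46.stmt_A2H M M ⊥ hM2 dvd_rfl hM0 ((ℓ : ℤ) * k)
    (fun z => R z ^ ℓ) (fun z => B z ^ ℓ) hRW hBW hBℓ0 (by
      intro γ hγ ha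
      rw [pow_slash_pm hR hk hγ ha, pow_slash_pm hBT hk hγ ha])
  set fC : ↥(FC M) := ⟨x, hx⟩ with hfC
  have hfC0 : fC ≠ 0 := by
    intro h0
    have hx0 : x = 0 := congrArg Subtype.val h0
    rw [hx0, zero_mul] at hxe
    exact hRℓ0 ((qLaurent_eq_zero_iff nRℓ).1 hxe)
  have hunr : ∀ v : Place ℂ ↥(FC M), (ℓ : ℤ) ∣ v.ord fC :=
    hU M hM2 ℓ hℓ h5 htot φ hφ k R B fC hR hB0 hfC0 hxe
  -- descent
  obtain ⟨f₀, h, hf₀, hh0, hfh⟩ := Fermat.Agent.GTor.H75.stmt_DescCore Kbar ℂ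
    (FHQ M M (⊥ : Subgroup (ZMod M)ˣ)) ι ℓ hℓ.pos
    (Fermat.Agent.GTor.H33.exists_not_isAlgebraic_complex ι) (hF M hM2 ℓ hℓ0) fC hfC0 hunr
  have hFF : Fermat.Agent.RED.IsFF Kbar ↥(FHbar M M (⊥ : Subgroup (ZMod M)ˣ)) :=
    isFF_JH M M ⊥ hM2 dvd_rfl
  haveI : HasPrincipalDivisors Kbar ↥(FHbar M M (⊥ : Subgroup (ZMod M)ˣ)) :=
    Fermat.Agent.NEB.H14.hasPD hFF
  -- `f₀` is unramified
  have hunr₀ : ∀ v : Place Kbar ↥(FHbar M M (⊥ : Subgroup (ZMod M)ˣ)), (ℓ : ℤ) ∣ v.ord f₀ := by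
    intro v
    have hdeg : v.deg = 1 := Fermat.Agent.RED.H51.stmt_FFB_deg Kbar _ hFF v
    obtain ⟨w, hw⟩ := Fermat.Agent.GTor.H33.stmt_DescPlaceUp Kbar ℂ
      (FHQ M M (⊥ : Subgroup (ZMod M)ˣ)) ι v hdeg
    rw [← hw f₀]
    have hbc0 : Fermat.Agent.GTor.H75.bcHom ι (FHQ M M (⊥ : Subgroup (ZMod M)ˣ)) f₀ ≠ 0 := by
      intro h0
      rw [h0, zero_mul] at hfh
      exact hfC0 hfh
    have h1 : Fermat.Agent.GTor.H75.bcHom ι (FHQ M M (⊥ : Subgroup (ZMod M)ˣ)) f₀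
        = fC * (h ^ ℓ)⁻¹ := by
      rw [hfh]
      field_simp
    rw [h1, w.ord_mul hfC0 (inv_ne_zero (pow_ne_zero ℓ hh0)), w.ord_inv]
    refine dvd_add (hunr w) ((dvd_neg).mpr ?_)
    have : w.ord (h ^ ℓ) = (ℓ : ℤ) * w.ord h := by
      have := w.ord_zpow h (ℓ : ℤ)
      simpa using this
    rw [this]
    exact dvd_mul_right _ _
  -- the divisor
  let fu : unrSubgroup Kbar ↥(FHbar M M (⊥ : Subgroup (ZMod M)ˣ)) ℓ :=
    ⟨Units.mk0 f₀ hf₀, fun v => by simpa using hunr₀ v⟩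
  refine ⟨Pic0.mk (Fermat.Agent.GTor.H33.divQuot hℓ0 fu),
    Fermat.Agent.GTor.H33.divQuot hℓ0 fu, f₀, hf₀, rfl,
    fun v => Fermat.Agent.GTor.H33.divQuot_apply hℓ0 fu v, ?_⟩
  -- the character
  obtain ⟨k₁, A₁, B₁, hA₁, hB₁, hinv₁, e₁⟩ := hA M hM2 h⁻¹
  have hA₁' : IsTw1 M M ℓ k₁ 0 A₁ := isTw1_of_isW hA₁ fun γ => by
    apply hinv₁ (γ : SL(2, ℤ)) (Gam1_le_Gamma0 M M γ.2)
    have h3 : (M : ℤ) ∣ (γ : SL(2, ℤ)) 0 0 - 1 := γ.2.2.2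
    have h4 : ((((γ : SL(2, ℤ)) 0 0 : ℤ)) : ZMod M) = 1 := by
      have := (ZMod.intCast_zmod_eq_zero_iff_dvd _ _).mpr h3
      push_cast at this
      exact sub_eq_zero.mp this
    rw [h4]
    exact mem_cosetSet_bot_one.mpr (Or.inl rfl)
  have hRA : IsTw1 M M ℓ (k + k₁) φ (R * A₁) := by
    have := hR.mul hA₁'
    rwa [add_zero] at this
  have nA₁ : Nice 1 A₁ := hA₁.nice
  have nB₁ : Nice 1 (B₁ : ℍ → ℂ) := nice_of_gamma0 B₁
  refine hasChar1_iff.mpr ⟨k + k₁, R * A₁, B.mul B₁, hRA, ?_, ?_⟩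
  · intro h0
    have h' : ((B.mul B₁ : ModularForm _ _) : ℍ → ℂ) = 0 := by rw [h0]; rfl
    have h1 : qLaurent ((B : ℍ → ℂ) * (B₁ : ℍ → ℂ)) = 0 := by
      have : ((B.mul B₁ : ModularForm _ _) : ℍ → ℂ) = (B : ℍ → ℂ) * (B₁ : ℍ → ℂ) := rfl
      rw [← this, h', qLaurent_zero]
    rw [qLaurent_mul nB nB₁] at h1
    rcases mul_eq_zero.mp h1 with h2 | h2
    · rw [qLaurent_eq_zero_iff nB] at h2
      exact hB0 (DFunLike.coe_injective h2)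
    · rw [qLaurent_eq_zero_iff nB₁] at h2
      exact hB₁ (DFunLike.coe_injective h2)
  · have hRR : (fun z => (R * A₁) z ^ ℓ) = (fun z => R z ^ ℓ) * (fun z => A₁ z ^ ℓ) := by
      funext z
      simp only [Pi.mul_apply, mul_pow]
    have hBB : (fun z => (B.mul B₁) z ^ ℓ) = (fun z => B z ^ ℓ) * (fun z => B₁ z ^ ℓ) := by
      funext z
      simp only [Pi.mul_apply, ← mul_pow]
      rfl
    have hfh' : (x : LaurentSeries ℂ) =
        coeffMap ι (f₀ : LaurentSeries Kbar) * (h : LaurentSeries ℂ) ^ ℓ := by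
      have := congrArg (fun y : ↥(FC M) => (y : LaurentSeries ℂ)) hfh
      exact this
    have hhinv : ((h⁻¹ : ↥(FC M)) : LaurentSeries ℂ) = ((h : ↥(FC M)) : LaurentSeries ℂ)⁻¹ := rfl
    have hh0' : ((h : ↥(FC M)) : LaurentSeries ℂ) ≠ 0 := fun h0 => hh0 (Subtype.ext h0)
    have nA₁ℓ : Nice 1 (fun z => A₁ z ^ ℓ) := nA₁.pow ℓ
    have nB₁ℓ : Nice 1 (fun z => B₁ z ^ ℓ) := nB₁.pow ℓ
    rw [hRR, hBB, qLaurent_mul nRℓ nA₁ℓ, qLaurent_mul nBℓ nB₁ℓ, hxe,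
      qLaurent_pow nA₁, e₁, qLaurent_pow nB₁, hfh', hhinv, mul_pow]
    have key : ((h : ↥(FC M)) : LaurentSeries ℂ) ^ ℓ * (((h : ↥(FC M)) : LaurentSeries ℂ)⁻¹) ^ ℓ
        = 1 := by
      rw [← mul_pow, mul_inv_cancel₀ hh0', one_pow]
    linear_combination (coeffMap ι (f₀ : LaurentSeries Kbar) * qLaurent (fun z => B z ^ ℓ)
      * qLaurent (B₁ : ℍ → ℂ) ^ ℓ) * key

end Fermat.Agent.S48.B2.T.H43
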