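import Fermat.Agent.S48.B2.T.Defs
import Fermat.Agent.NEB.EIG.H46_Inj1
import Fermat.Agent.NEB.EIG.H98_Mono1
import Fermat.Agent.GTor.H56_FinUnr
import Fermat.Agent.S48.B2.T.H43_Basis

/-!
# S48 / B2, slice T, leaf E-FIN (helper46): the unramified Kummer classes of `F_{H,ℂ}` are finite

`stmt_FinC_of : Stmt_A1C → Stmt_OrdC → Stmt_FinC`.

Plan (`NOTES/plan/W_S48_B2T.md` §4.6).  `F_C = FC M` is the function field of `X₁(M)/±1` over `ℂ`.

* `HasCharC M n f φ` : `f = (R / B)ⁿ`, `R` holomorphic of weight `k`, bounded at the cusps, with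
  multiplier `ζ^φ` under `Γ₁(M) = Gam1 M M`, and `B ≠ 0` a modular form of weight `k` on `Γ₀(M)`.
* `exists_hasCharC` (MONO-C): an unramified `f ≠ 0` has a character (E-A1C: `f = A / B`; E-ORD:
  `n ∣ ord_z (A B^(n-1))` for all `z ∈ ℍ`; `Lib/NthRoot.lean`).
* `pow_of_hasCharC` (INJ-C): if `f` and `g` have the same character then `f = yⁿ g` with
  `y ∈ F_C` (`X = R B'` and `Y = R' B` have the same multiplier on `±Γ₁(M)`, so
  `X Y^(n-1) / Yⁿ ∈ F_C` by `NEB.EIG.H46.stmt_A2H`).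
* `stmt_FinC_of`: the class of `f` ↦ a character of `f` is injective into the finite set
  `Hom(Γ₁(M), ℤ/n)`.
-/

set_option autoImplicit false
set_option linter.unusedSectionVars false
set_option linter.unusedVariables false

noncomputable section

namespace Fermat.Agent.S48.B2.T.H46

open AlgebraicCurve ModularCurve UpperHalfPlane CongruenceSubgroup Matrix.SpecialLinearGroup
  ModularForm
open Fermat.Agent.NEB Fermat.Agent.NEB.JH Fermat.Agent.NEB.H84 Fermat.Agent.NEB.EIG.H39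
open Fermat.Agent.NEB.EIG.H98 Fermat.Agent.NEB.EIG.H34 Fermat.Agent.GTor
open Fermat.Agent.S23.H22 (Nice)
open Fermat.Agent.GTor.H56 (qLaurent_mul qLaurent_injective qLaurent_eq_zero_iff qLaurent_zero
  qLaurent_pow nice_of_gamma0)
open scoped MatrixGroups ModularForm Manifold

/-! ## 1. The character of a function -/

/-- `f ∈ ℂ((q))` **has character** `φ` on `Γ₁(M)`: `f = (R / B)ⁿ` with `R` holomorphic of weight
`k`, bounded at all cusps, with multiplier `ζ^φ` under `Gam1 M M`, and `B ≠ 0` a modular form of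
weight `k` on `Γ₀(M)`. -/
def HasCharC (M n : ℕ) (f : LaurentSeries ℂ) (φ : Additive (Gam1 M M) →+ ZMod n) : Prop :=
  ∃ (k : ℤ) (R : ℍ → ℂ) (B : ModularForm (Gamma0 M) k),
    IsTw1 M M n k φ R ∧ B ≠ 0 ∧
    qLaurent (fun z => R z ^ n) = f * qLaurent (fun z => B z ^ n)

theorem mem_cosetSet_of_mem_Gam1 {M : ℕ} {γ : SL(2, ℤ)} (hγ : γ ∈ Gam1 M M) :
    ((γ 0 0 : ℤ) : ZMod M) ∈ cosetSet M (⊥ : Subgroup (ZMod M)ˣ) 1 := by
  have h3 : (M : ℤ) ∣ γ 0 0 - 1 := hγ.2.2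
  have h4 : ((γ 0 0 : ℤ) : ZMod M) = 1 := by
    have := (ZMod.intCast_zmod_eq_zero_iff_dvd _ _).mpr h3
    push_cast at this
    exact sub_eq_zero.mp this
  rw [h4]
  exact ⟨1, Subgroup.one_mem _, Or.inl (by simp)⟩

/-! ## 2. MONO-C: an unramified function has a character -/

/-- **MONO-C.**  An unramified function of `F_C` has a character on `Γ₁(M)`. -/
theorem exists_hasCharC (hA1 : Stmt_A1C) (hOrd : Stmt_OrdC) (M : ℕ) [NeZero M] (hM : 2 ≤ M)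
    {n : ℕ} (hn : n ≠ 0) (f : ↥(FC M)) (hf : f ≠ 0)
    (hunr : ∀ v : Place ℂ ↥(FC M), (n : ℤ) ∣ v.ord f) :
    ∃ φ : Additive (Gam1 M M) →+ ZMod n, HasCharC M n (f : LaurentSeries ℂ) φ := by
  obtain ⟨k, A, B, hA, hB0, hinvA, hq⟩ := hA1 M hM f
  have hBf0 : (B : ℍ → ℂ) ≠ 0 := fun h => hB0 (DFunLike.coe_injective h)
  have rep : IsRep M (f : LaurentSeries ℂ) k A (B : ℍ → ℂ) :=
    ⟨hA, isW_of_modularForm B, hBf0, hq⟩
  have hfL : (f : LaurentSeries ℂ) ≠ 0 := fun h => hf (Subtype.ext h)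
  have hA0 : A ≠ 0 := rep.num_ne_zero hfL
  have hn1 : (((n - 1 : ℕ) : ℕ) : ℤ) = (n : ℤ) - 1 := by
    have : 1 ≤ n := Nat.one_le_iff_ne_zero.mpr hn
    push_cast [Nat.cast_sub this]
    ring
  have hBmd : MDifferentiable 𝓘(ℂ) 𝓘(ℂ) (B : ℍ → ℂ) := Fermat.Agent.GTor.H96.mdiff_coe B
  -- the function `A * B ^ (n - 1)` and its root
  have hmd : MDifferentiable 𝓘(ℂ) 𝓘(ℂ) (A * (B : ℍ → ℂ) ^ (n - 1)) :=
    hA.mdiff.mul (hBmd.pow _)
  have hP0 : A * (B : ℍ → ℂ) ^ (n - 1) ≠ 0 :=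
    fun_mul_ne_zero hA.mdiff (hBmd.pow _) hA0 (fun_pow_ne_zero hBmd hBf0 _)
  have hne : ∃ τ : ℍ, (A * (B : ℍ → ℂ) ^ (n - 1)) τ ≠ 0 := exists_ne_zero_of_fun_ne_zero hP0
  have hdiv : ∀ τ : ℍ, n ∣ analyticOrderNatAt
      ((A * (B : ℍ → ℂ) ^ (n - 1)) ∘ UpperHalfPlane.ofComplex) (τ : ℂ) := by
    intro τ
    obtain ⟨v, e, -, -, hv⟩ := (hOrd M hM).1 τ
    have h0 := hv f k A (B : ℍ → ℂ) hf rep
    obtain ⟨m, hm⟩ := hunr v
    have h1 : ordPt τ k (A * (B : ℍ → ℂ) ^ (n - 1))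
        = ordPt τ k A + ((n : ℤ) - 1) * ordPt τ k (B : ℍ → ℂ) := by
      rw [ordPt_mul hA.mdiff (hBmd.pow _) hA0 (fun_pow_ne_zero hBmd hBf0 _) τ k k k,
        ordPt_pow hBmd hBf0 τ (n - 1) k k, hn1]
    rw [← Int.natCast_dvd_natCast]
    refine ⟨(e : ℤ) * m + ordPt τ k (B : ℍ → ℂ), ?_⟩
    have h2 : ((analyticOrderNatAt ((A * (B : ℍ → ℂ) ^ (n - 1)) ∘ UpperHalfPlane.ofComplex)
        (τ : ℂ) : ℕ) : ℤ) = ordPt τ k (A * (B : ℍ → ℂ) ^ (n - 1)) := rfl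
    rw [h2, h1]
    rw [hm] at h0
    linear_combination h0
  obtain ⟨R, hR, hRn'⟩ :=
    Fermat.Agent.Lib.NthRoot.exists_nthRoot_of_mdifferentiable hn hmd hne hdiv
  have hRfun : (R ^ n : ℍ → ℂ) = A * (B : ℍ → ℂ) ^ (n - 1) := by
    funext z
    simpa using hRn' z
  have hR0f : R ≠ 0 := by
    rintro rfl
    rw [zero_pow hn] at hRfun
    exact hP0 hRfun.symm
  have hR0 : ∃ τ : ℍ, R τ ≠ 0 := exists_ne_zero_of_fun_ne_zero hR0f
  -- the character on `Γ₁(M)`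
  have hinv : ∀ γ ∈ Gam1 M M, (R ^ n) ∣[k * n] γ = R ^ n := by
    intro γ hγ
    rw [hRfun, Fermat.Agent.GTor.H96.mul_pow_slash_SL _ _ k hn γ,
      hinvA γ (Gam1_le_Gamma0 M M hγ) (mem_cosetSet_of_mem_Gam1 hγ),
      Fermat.Agent.GTor.H96.slash_eq_of_mem_Gamma0 B ⟨γ, Gam1_le_Gamma0 M M hγ⟩]
  obtain ⟨χ, hχn, hχ⟩ := Fermat.Agent.Lib.NthRoot.exists_character_of_root
    (Gam1 M M) hn hR hR0 hinv
  obtain ⟨φ, hφ⟩ := Fermat.Agent.GTor.H96.exists_additive_of_character hn χ (fun γ => hχn _)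
  refine ⟨φ, k, R, B, ⟨hR, ?_, ?_⟩, hB0, ?_⟩
  · -- boundedness at the cusps
    intro σ
    apply Fermat.Agent.Lib.NthRoot.isBoundedAtImInfty_of_pow hn
    rw [← Fermat.Agent.GTor.H96.pow_slash_SL'' R k n σ, hRfun,
      Fermat.Agent.GTor.H96.mul_pow_slash_SL _ _ k hn σ]
    exact (hA.bdd σ).mul ((Fermat.Agent.GTor.H96.isCuspRegular_slash B σ).pow (n - 1)).bdd
  · -- the transformation law
    intro γ
    rw [hχ γ, hφ γ]
    rfl
  · -- the `q`-expansion identity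
    have hNA := hA.nice
    have hNB := nice_of_gamma0 B
    have e1 : (fun z => R z ^ n) = A * (fun z => B z ^ (n - 1)) := by
      funext z
      simpa using hRn' z
    have hNBp : Nice 1 (fun z => B z ^ (n - 1)) := hNB.pow (n - 1)
    rw [e1, qLaurent_mul hNA hNBp, qLaurent_pow hNB, qLaurent_pow hNB, hq, mul_assoc,
      ← pow_succ', Nat.sub_add_cancel (Nat.one_le_iff_ne_zero.mpr hn)]

/-! ## 3. INJ-C: functions with the same character differ by an `n`-th power -/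

section Inj

variable {M n : ℕ} [NeZero M] {K : ℤ} {φ : Additive (Gam1 M M) →+ ZMod n} {X Y : ℍ → ℂ}

theorem alg_h46 {n : ℕ} (hn : n ≠ 0) (ζ x y : ℂ) :
    ζ * x * (ζ * y) ^ (n - 1) * y ^ n = x * y ^ (n - 1) * (ζ * y) ^ n := by
  obtain ⟨m, rfl⟩ := Nat.exists_eq_succ_of_ne_zero hn
  simp only [Nat.succ_eq_add_one, Nat.add_sub_cancel]
  ring

theorem alg2_h46 {n : ℕ} (hn : n ≠ 0) (ζ x y : ℂ) (hζ : ζ ^ n = 1) :
    ζ * x * (ζ * y) ^ (n - 1) = x * y ^ (n - 1) := by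
  obtain ⟨m, rfl⟩ := Nat.exists_eq_succ_of_ne_zero hn
  simp only [Nat.succ_eq_add_one, Nat.add_sub_cancel] at *
  have : ζ * x * (ζ * y) ^ m = ζ ^ (m + 1) * (x * y ^ m) := by ring
  rw [this, hζ, one_mul]

/-- Two twisted forms of the same weight and character have the same multiplier at every element
of `±Γ₁(M)`. -/
theorem exists_mult_same (hX : IsTw1 M M n K φ X) (hY : IsTw1 M M n K φ Y) {γ : SL(2, ℤ)}
    (hγ : γ ∈ Gamma0 M)
    (ha : ((γ 0 0 : ℤ) : ZMod M) ∈ cosetSet M (⊥ : Subgroup (ZMod M)ˣ) 1) :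
    ∃ ζ : ℂ, X ∣[K] γ = ζ • X ∧ Y ∣[K] γ = ζ • Y := by
  rcases Fermat.Agent.NEB.EIG.H46.dUnit_mem_of_a_mem (⊥ : Subgroup (ZMod M)ˣ) dvd_rfl ⟨γ, hγ⟩ ha
    with hd | hd
  · have h1 : γ ∈ Gam1 M M :=
      Fermat.Agent.NEB.EIG.H46.mem_Gam1_of_dUnit_eq_one dvd_rfl ⟨γ, hγ⟩ (Subgroup.mem_bot.mp hd)
    exact ⟨zetaPow n (φ (Additive.ofMul ⟨γ, h1⟩)), hX.slash ⟨γ, h1⟩, hY.slash ⟨γ, h1⟩⟩
  · have hmem : -1 * γ ∈ Gamma0 M :=
      (Gamma0 M).mul_mem (Fermat.Agent.NEB.EIG.H46.neg_one_mem_Gamma0_h46 M) hγ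
    have hd' : Fermat.Agent.NEB.H34.dUnit (dvd_refl M) ⟨-1 * γ, hmem⟩ = 1 := by
      rw [Fermat.Agent.NEB.EIG.H46.dUnit_neg (dvd_refl M) ⟨γ, hγ⟩]
      exact Subgroup.mem_bot.mp hd
    have h1 : -1 * γ ∈ Gam1 M M :=
      Fermat.Agent.NEB.EIG.H46.mem_Gam1_of_dUnit_eq_one dvd_rfl ⟨-1 * γ, hmem⟩ hd'
    have e : γ = -1 * (-1 * γ) := by simp
    refine ⟨(-1 : ℂ) ^ (-K) * zetaPow n (φ (Additive.ofMul ⟨-1 * γ, h1⟩)), ?_, ?_⟩
    · conv_lhs => rw [e]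
      exact Fermat.Agent.NEB.EIG.H46.mult_mul (Fermat.Agent.NEB.EIG.H46.slash_neg_one_eq K X)
        (hX.slash ⟨-1 * γ, h1⟩)
    · conv_lhs => rw [e]
      exact Fermat.Agent.NEB.EIG.H46.mult_mul (Fermat.Agent.NEB.EIG.H46.slash_neg_one_eq K Y)
        (hY.slash ⟨-1 * γ, h1⟩)

/-- The ratio of two twisted forms of the same weight and character lies in `F_C`, on the level
of `n`-th powers. -/
theorem exists_ratio (hM : 2 ≤ M) (hn : n ≠ 0) (hX : IsTw1 M M n K φ X)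
    (hY : IsTw1 M M n K φ Y) (hY0 : Y ≠ 0) :
    ∃ y ∈ laurentBaseChange ℂ (FHQ M M (⊥ : Subgroup (ZMod M)ˣ)),
      qLaurent (fun z => X z ^ n) = y ^ n * qLaurent (fun z => Y z ^ n) := by
  have hn1 : 1 ≤ n := Nat.one_le_iff_ne_zero.mpr hn
  have hA₂ : IsW M (K * n) (X * Y ^ (n - 1)) :=
    { mdiff := hX.mdiff.mul (hY.mdiff.pow _)
      slash := fun γ hγ => by
        have hγ1 : γ ∈ Gam1 M M := Gamma1_le_Gam1 dvd_rfl hγ
        rw [Fermat.Agent.GTor.H96.mul_pow_slash_SL _ _ K hn γ, hX.slash ⟨γ, hγ1⟩,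
          hY.slash ⟨γ, hγ1⟩]
        funext z
        simp only [Pi.mul_apply, Pi.smul_apply, Pi.pow_apply, smul_eq_mul]
        exact alg2_h46 hn _ _ _ (Fermat.Agent.GTor.H96.zetaPow_pow _)
      bdd := fun σ => by
        rw [Fermat.Agent.GTor.H96.mul_pow_slash_SL _ _ K hn σ]
        exact (hX.bdd σ).mul (Fermat.Agent.GTor.H56.isBoundedAtImInfty_pow (hY.bdd σ) (n - 1)) }
  have hB₂ : IsW M (K * n) (Y ^ n) :=
    { mdiff := hY.mdiff.pow _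
      slash := fun γ hγ => by
        have hγ1 : γ ∈ Gam1 M M := Gamma1_le_Gam1 dvd_rfl hγ
        rw [Fermat.Agent.GTor.H96.pow_slash_SL'' Y K n γ, hY.slash ⟨γ, hγ1⟩]
        funext z
        simp only [Pi.smul_apply, Pi.pow_apply, smul_eq_mul, mul_pow]
        rw [Fermat.Agent.GTor.H96.zetaPow_pow, one_mul]
      bdd := fun σ => by
        rw [Fermat.Agent.GTor.H96.pow_slash_SL'' Y K n σ]
        exact Fermat.Agent.GTor.H56.isBoundedAtImInfty_pow (hY.bdd σ) n }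
  have hB₂0 : (Y ^ n : ℍ → ℂ) ≠ 0 := fun_pow_ne_zero hY.mdiff hY0 n
  obtain ⟨y, hy, hyq⟩ := Fermat.Agent.NEB.EIG.H46.stmt_A2H M M (⊥ : Subgroup (ZMod M)ˣ) hM
    dvd_rfl (NeZero.ne M) (K * n) (X * Y ^ (n - 1)) (Y ^ n) hA₂ hB₂ hB₂0 (by
      intro γ hγ ha
      obtain ⟨ζ, hXγ, hYγ⟩ := exists_mult_same hX hY hγ ha
      rw [Fermat.Agent.GTor.H96.mul_pow_slash_SL _ _ K hn γ,
        Fermat.Agent.GTor.H96.pow_slash_SL'' Y K n γ, hXγ, hYγ]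
      funext z
      simp only [Pi.mul_apply, Pi.smul_apply, Pi.pow_apply, smul_eq_mul]
      exact alg_h46 hn _ _ _)
  refine ⟨y, hy, ?_⟩
  have nP := hX.nice_pow (dvd_refl M)
  have nQ := hY.nice_pow (dvd_refl M)
  have hQ0 : qLaurent (fun z => Y z ^ n) ≠ 0 := by
    rw [Ne, qLaurent_eq_zero_iff nQ]
    exact hB₂0
  -- `qLaurent (A₂ ^ n) = qLaurent (Xⁿ) * qLaurent (Yⁿ) ^ (n - 1)`
  have e1 : (fun z => (X * Y ^ (n - 1)) z ^ n)
      = (fun z => X z ^ n) * (fun z => (fun w => Y w ^ n) z ^ (n - 1)) := by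
    funext z
    simp only [Pi.mul_apply, Pi.pow_apply]
    rw [mul_pow, ← pow_mul, ← pow_mul, mul_comm (n - 1) n]
  have h1 : qLaurent (X * Y ^ (n - 1)) ^ n
      = qLaurent (fun z => X z ^ n) * qLaurent (fun z => Y z ^ n) ^ (n - 1) := by
    have nQp : Nice 1 (fun z => (fun w => Y w ^ n) z ^ (n - 1)) := nQ.pow (n - 1)
    rw [← qLaurent_pow hA₂.nice, e1, qLaurent_mul nP nQp, qLaurent_pow nQ]
  have h2 : qLaurent (X * Y ^ (n - 1)) ^ n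
      = y ^ n * (qLaurent (fun z => Y z ^ n) * qLaurent (fun z => Y z ^ n) ^ (n - 1)) := by
    have hYn : (Y ^ n : ℍ → ℂ) = fun z => Y z ^ n := rfl
    rw [hyq, mul_pow, hYn, ← pow_succ', Nat.sub_add_cancel hn1]
  rw [h1] at h2
  have h3 : qLaurent (fun z => X z ^ n) * qLaurent (fun z => Y z ^ n) ^ (n - 1)
      = (y ^ n * qLaurent (fun z => Y z ^ n)) * qLaurent (fun z => Y z ^ n) ^ (n - 1) := by
    rw [h2]
    ring
  exact mul_right_cancel₀ (pow_ne_zero _ hQ0) h3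

/-- **INJ-C.**  Two functions with the same character differ by an `n`-th power of `F_C`. -/
theorem pow_of_hasCharC (hM : 2 ≤ M) (hn : n ≠ 0) {f g : LaurentSeries ℂ} (hg : g ≠ 0)
    (h₁ : HasCharC M n f φ) (h₂ : HasCharC M n g φ) :
    ∃ y ∈ laurentBaseChange ℂ (FHQ M M (⊥ : Subgroup (ZMod M)ˣ)), f = y ^ n * g := by
  obtain ⟨k₁, R₁, B₁, hR₁, hB₁, e₁⟩ := h₁
  obtain ⟨k₂, R₂, B₂, hR₂, hB₂, e₂⟩ := h₂
  have hX : IsTw1 M M n (k₁ + k₂) φ (R₁ * (B₂ : ℍ → ℂ)) := by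
    have := hR₁.mul (isTw1_of_modularForm (c := M) (n := n) B₂)
    rwa [add_zero] at this
  have hY : IsTw1 M M n (k₁ + k₂) φ (R₂ * (B₁ : ℍ → ℂ)) := by
    have := hR₂.mul (isTw1_of_modularForm (c := M) (n := n) B₁)
    rwa [add_zero, add_comm k₂ k₁] at this
  have nR₁ := hR₁.nice_pow (dvd_refl M)
  have nR₂ := hR₂.nice_pow (dvd_refl M)
  have nB₁ : Nice 1 (fun z => B₁ z ^ n) := (nice_of_gamma0 B₁).pow n
  have nB₂ : Nice 1 (fun z => B₂ z ^ n) := (nice_of_gamma0 B₂).pow n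
  have b₁ : qLaurent (fun z => B₁ z ^ n) ≠ 0 := qLaurent_modularForm_pow_ne_zero hB₁ hn
  have b₂ : qLaurent (fun z => B₂ z ^ n) ≠ 0 := qLaurent_modularForm_pow_ne_zero hB₂ hn
  have eX : (fun z => (R₁ * (B₂ : ℍ → ℂ)) z ^ n) = (fun z => R₁ z ^ n) * (fun z => B₂ z ^ n) := by
    funext z
    simp only [Pi.mul_apply, mul_pow]
  have eY : (fun z => (R₂ * (B₁ : ℍ → ℂ)) z ^ n) = (fun z => R₂ z ^ n) * (fun z => B₁ z ^ n) := by
    funext z
    simp only [Pi.mul_apply, mul_pow]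
  have qY : qLaurent (fun z => (R₂ * (B₁ : ℍ → ℂ)) z ^ n)
      = g * qLaurent (fun z => B₂ z ^ n) * qLaurent (fun z => B₁ z ^ n) := by
    rw [eY, qLaurent_mul nR₂ nB₁, e₂]
  have hY0 : R₂ * (B₁ : ℍ → ℂ) ≠ 0 := by
    intro h0
    have h1 : (fun z => (R₂ * (B₁ : ℍ → ℂ)) z ^ n) = 0 := by
      funext z
      rw [h0]
      simp [hn]
    rw [h1, qLaurent_zero] at qY
    exact (mul_ne_zero (mul_ne_zero hg b₂) b₁) qY.symm
  obtain ⟨y, hy, hyq⟩ := exists_ratio hM hn hX hY hY0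
  refine ⟨y, hy, ?_⟩
  rw [qY, eX, qLaurent_mul nR₁ nB₂, e₁] at hyq
  have h3 : f * (qLaurent (fun z => B₁ z ^ n) * qLaurent (fun z => B₂ z ^ n))
      = (y ^ n * g) * (qLaurent (fun z => B₁ z ^ n) * qLaurent (fun z => B₂ z ^ n)) := by
    linear_combination hyq
  exact mul_right_cancel₀ (mul_ne_zero b₁ b₂) h3

end Inj

/-! ## 4. Finiteness -/

/-- **E-FIN.**  The group of unramified Kummer classes of `F_{H,ℂ}` (`H = ⊥`) is finite. -/
theorem stmt_FinC_of (hA1 : Stmt_A1C) (hOrd : Stmt_OrdC) : Stmt_FinC := by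
  intro M _ hM n hn
  haveI : NeZero n := ⟨hn⟩
  haveI : Group.FG ↥(Gam1 M M) := Fermat.Agent.S48.B2.T.H43.groupFG_gam1' M M
  haveI : Finite (Additive (Gam1 M M) →+ ZMod n) :=
    Fermat.Agent.GTor.H56.finite_addMonoidHom_of_fg (Gam1 M M) (ZMod n)
  have hex : ∀ f : unrSubgroup ℂ ↥(FC M) n, ∃ φ : Additive (Gam1 M M) →+ ZMod n,
      HasCharC M n ((((f : (↥(FC M))ˣ) : ↥(FC M)) : LaurentSeries ℂ)) φ := fun f =>
    exists_hasCharC hA1 hOrd M hM hn _ (Units.ne_zero _) f.2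
  choose Φ hΦ using hex
  apply Finite.of_injective (fun c : UnrKummer ℂ ↥(FC M) n => Φ (Quotient.out c))
  intro c c' hcc
  have hcc' : Φ (Quotient.out c) = Φ (Quotient.out c') := hcc
  have h1 := hΦ (Quotient.out c)
  have h2 := hΦ (Quotient.out c')
  rw [hcc'] at h1
  have hne : ((((Quotient.out c : unrSubgroup ℂ ↥(FC M) n) : (↥(FC M))ˣ) : ↥(FC M)) :
      LaurentSeries ℂ) ≠ 0 := by
    intro h0
    exact Units.ne_zero ((Quotient.out c : unrSubgroup ℂ ↥(FC M) n) : (↥(FC M))ˣ)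
      (Subtype.ext h0)
  obtain ⟨y, hy, e⟩ := pow_of_hasCharC hM hn hne h2 h1
  -- `out c' = yⁿ * out c`
  have hy0 : (⟨y, hy⟩ : ↥(FC M)) ≠ 0 := by
    intro h0
    have h3 : y = 0 := congrArg Subtype.val h0
    rw [h3, zero_pow hn, zero_mul] at e
    exact Units.ne_zero ((Quotient.out c' : unrSubgroup ℂ ↥(FC M) n) : (↥(FC M))ˣ)
      (Subtype.ext e)
  have e' : (((Quotient.out c' : unrSubgroup ℂ ↥(FC M) n) : (↥(FC M))ˣ) : ↥(FC M))
      = (⟨y, hy⟩ : ↥(FC M)) ^ n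
        * (((Quotient.out c : unrSubgroup ℂ ↥(FC M) n) : (↥(FC M))ˣ) : ↥(FC M)) :=
    Subtype.ext e
  rw [← QuotientGroup.out_eq' c, ← QuotientGroup.out_eq' c', QuotientGroup.eq]
  show ((Quotient.out c)⁻¹ * Quotient.out c' : unrSubgroup ℂ ↥(FC M) n)
    ∈ ((powMonoidHom n : (↥(FC M))ˣ →* (↥(FC M))ˣ).range).subgroupOf (unrSubgroup ℂ ↥(FC M) n)
  rw [Subgroup.mem_subgroupOf]
  refine ⟨Units.mk0 _ hy0, ?_⟩
  apply Units.ext
  rw [powMonoidHom_apply, Units.val_pow_eq_pow_val, Units.val_mk0, Subgroup.coe_mul,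
    Subgroup.coe_inv, Units.val_mul, Units.val_inv_eq_inv_val, e']
  field_simp

end Fermat.Agent.S48.B2.T.H46
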