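import Fermat.Agent.S48.B2.T.H01_Asm
import Fermat.Agent.S48.B2.T.H43_ExistAsm
import Fermat.Agent.S48.B2.T.H22_EisTw
import Fermat.Agent.S48.B2.T.H25_A1C
import Fermat.Agent.S48.B2.T.H34_UnrC
import Fermat.Agent.S48.B2.T.H46_FinC
import Fermat.Agent.S48.B2.T.H98_OrdC

/-!
# S48 / B2 / slice T: the slice from its remaining leaves (helper1)

* `eigBot_of_leaves : Stmt_A5C → Stmt_FinC → B2.Stmt_EigBot (-1) (-1)`;
* `eigBot_of_A5C : Stmt_A5C → B2.Stmt_EigBot (-1) (-1)` (with helper46's `stmt_FinC_of`).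
-/

set_option autoImplicit false

namespace Fermat.Agent.S48.B2.T.H01

/-- Slice T from `E-A5C` and `E-FIN`. -/
theorem eigBot_of_leaves (hA5 : Stmt_A5C) (hFin : Stmt_FinC) :
    Fermat.Agent.S48.B2.Stmt_EigBot (-1) (-1) :=
  eigBot_of (H43.exist1_of H22.stmt_EisTw H25.stmt_A1C (H34.stmt_UnrC_of hA5) hFin)

/-- Slice T from `E-A5C` alone. -/
theorem eigBot_of_A5C (hA5 : Stmt_A5C) : Fermat.Agent.S48.B2.Stmt_EigBot (-1) (-1) :=
  eigBot_of_leaves hA5 (H46.stmt_FinC_of H25.stmt_A1C H98.stmt_OrdC)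

end Fermat.Agent.S48.B2.T.H01
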