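import Fermat.Agent.S48.B2.T.H96_A5Defs

/-!
# S48 / B2, slice T, leaf E-A5C, part A5-SLASH (helper43)

`stmt_A5Slash : H96.Stmt_A5Slash`: for `A` holomorphic on `ℍ`, the order of vanishing of
`A ∣[k] δ` at `z` is the order of vanishing of `A` at `δ • z`
(`A ∣[k] δ = (A ∘ δ) · j(δ, ·)^(-k)`, the second factor is holomorphic without zeros).
-/

set_option autoImplicit false
set_option linter.unusedSectionVars false

noncomputable section

namespace Fermat.Agent.S48.B2.T.H43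

open UpperHalfPlane CongruenceSubgroup Matrix.SpecialLinearGroup ModularForm
open Fermat.Agent.NEB.EIG.H98 Fermat.Agent.S24
open scoped MatrixGroups ModularForm Manifold

/-- The automorphy factor `τ ↦ j(δ, τ)^(-k)`, as the slash of the constant function `1`. -/
theorem mdifferentiable_one_slash (k : ℤ) (δ : SL(2, ℤ)) :
    MDifferentiable 𝓘(ℂ) 𝓘(ℂ) ((fun _ : ℍ => (1 : ℂ)) ∣[k] δ) := by
  have h : MDifferentiable 𝓘(ℂ) 𝓘(ℂ) (fun _ : ℍ => (1 : ℂ)) := mdifferentiable_const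
  have := h.slash k (δ : GL (Fin 2) ℝ)
  exact this

theorem one_slash_apply (k : ℤ) (δ : SL(2, ℤ)) (τ : ℍ) :
    ((fun _ : ℍ => (1 : ℂ)) ∣[k] δ) τ = denom δ τ ^ (-k) := by
  rw [SL_slash_apply, one_mul]

theorem one_slash_ne_zero (k : ℤ) (δ : SL(2, ℤ)) (τ : ℍ) :
    ((fun _ : ℍ => (1 : ℂ)) ∣[k] δ) τ ≠ 0 := by
  rw [one_slash_apply]
  exact zpow_ne_zero _ (denom_ne_zero _ τ)

/-- **A5-SLASH.** -/
theorem stmt_A5Slash : Fermat.Agent.S48.B2.T.H96.Stmt_A5Slash := by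
  intro z δ k A hA
  have hAδ : MDifferentiable 𝓘(ℂ) 𝓘(ℂ) (A ∣[k] δ) := by
    have := hA.slash k (δ : GL (Fin 2) ℝ)
    exact this
  rw [ordPt_eq_ordNat z k hAδ, ordPt_eq_ordNat (δ • z) k hA]
  by_cases hA0 : A = 0
  · subst hA0
    have e1 : (⟨(0 : ℍ → ℂ) ∣[k] δ, hAδ⟩ : Hol) = 0 := by
      apply Subtype.ext
      show (0 : ℍ → ℂ) ∣[k] δ = 0
      exact SlashAction.zero_slash k δ
    have e2 : (⟨(0 : ℍ → ℂ), hA⟩ : Hol) = 0 := rfl
    rw [e1, e2]
    have h0 : ∀ τ : ℍ, Hol.ordNat τ (0 : Hol) = 0 := by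
      intro τ
      unfold Hol.ordNat
      have : (((0 : Hol) : ℍ → ℂ) ∘ ofComplex) = fun _ => (0 : ℂ) := by
        funext w
        rfl
      rw [this]
      have htop : analyticOrderAt (fun _ : ℂ => (0 : ℂ)) (τ : ℂ) = ⊤ := by
        rw [analyticOrderAt_eq_top]
        exact Filter.Eventually.of_forall (fun _ => rfl)
      rw [htop]
      rfl
    rw [h0, h0]
  · let f : Hol := ⟨A, hA⟩
    let D : Hol := ⟨(fun _ : ℍ => (1 : ℂ)) ∣[k] δ, mdifferentiable_one_slash k δ⟩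
    have hf0 : f ≠ 0 := fun h => hA0 (congrArg Subtype.val h)
    have hD0 : D ≠ 0 := by
      intro h
      have := congrFun (congrArg Subtype.val h) z
      exact one_slash_ne_zero k δ z this
    have hsm0 : (δ⁻¹ • f : Hol) ≠ 0 := by
      intro h
      apply hf0
      have h2 : (δ • (δ⁻¹ • f) : Hol) = δ • (0 : Hol) := by rw [h]
      rw [smul_inv_smul, smul_zero] at h2
      exact h2
    have e : (⟨A ∣[k] δ, hAδ⟩ : Hol) = (δ⁻¹ • f) * D := by
      apply Subtype.ext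
      funext τ
      show (A ∣[k] δ) τ = ((δ⁻¹ • f : Hol) : ℍ → ℂ) τ * ((fun _ : ℍ => (1 : ℂ)) ∣[k] δ) τ
      rw [Hol.smul_apply, inv_inv, one_slash_apply, SL_slash_apply]
    rw [e, Hol.ordNat_mul z hsm0 hD0, Hol.ordNat_smul, inv_inv]
    have hDz : Hol.ordNat z D = 0 := (Hol.ordNat_eq_zero_iff z hD0).mpr (one_slash_ne_zero k δ z)
    rw [hDz, add_zero]

end Fermat.Agent.S48.B2.T.H43
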