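import Fermat.Agent.S48.B2.T.H46_FinC
import Fermat.Agent.S48.B2.T.H25_A1C
import Fermat.Agent.S48.B2.T.H98_OrdC

/-!
# S48 / B2, slice T, leaf E-FIN (helper46): unconditional form

`stmt_FinC : Stmt_FinC`, from `stmt_FinC_of` with E-A1C (helper25) and E-ORD (helper98).
-/

set_option autoImplicit false

namespace Fermat.Agent.S48.B2.T.H46

/-- **E-FIN**, unconditional: the unramified Kummer classes of `F_{H,ℂ}` (`H = ⊥`) are finite. -/
theorem stmt_FinC : Stmt_FinC :=
  stmt_FinC_of Fermat.Agent.S48.B2.T.H25.stmt_A1C Fermat.Agent.S48.B2.T.H98.stmt_OrdC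

end Fermat.Agent.S48.B2.T.H46
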