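import Fermat.Agent.S48.B2.T.H55_PerPrim
import Fermat.Agent.S48.B1.H19_HeckeNeb
import Fermat.Agent.S48.B1.H55_Asm2

/-!
# S48 / B2, slice T, leaf T-PER (helper55), part 3: Hecke and diamond operators on the period class

* `perCls_smul`, linearity in the form;
* `perCls_heckeOp` : for a Hecke family `rep` for `Γ₁(M)` of matrices of positive determinant,
  `G' = ∑ G ∣[2] rep i` implies `perCls G' = heckeOp (perCls G)`
  (pattern `Fermat.Agent.Betti.H76.period_heckeOp`);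
* `perCls_conj` : if `G ∣[2] g = c • G` for `g ∈ Γ₀(M)`, then `perCls G (g γ g⁻¹) = c perCls G γ`.
-/

set_option autoImplicit false

noncomputable section

namespace Fermat.Agent.S48.B2.T.H55

open ModularCurve ModularCurve.Period UpperHalfPlane CongruenceSubgroup Filter Topology Function
open Matrix.SpecialLinearGroup
open Fermat.Agent.NEB.EIG.H39 Fermat.Agent.NEB.EIG.H98 Fermat.Agent.GTor Fermat.Agent.Betti
open scoped MatrixGroups ModularForm Manifold Pointwise

theorem isPrim_smul {G F : ℍ → ℂ} (hF : IsPrim G F) (c : ℂ) :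
    IsPrim (c • G) (fun z => c * F z) := fun τ => (hF τ).const_mul c

theorem perCls_smul {M : ℕ} [NeZero M] (c : ℂ) (G : CuspForm (Gamma1 M) 2) :
    perCls M (c • G) = c • perCls M G := by
  obtain ⟨F, hF, -⟩ := exists_prim M G
  refine AddMonoidHom.ext fun γ => ?_
  obtain ⟨g, rfl⟩ : ∃ g : Gam1 M M, Additive.ofMul g = γ := ⟨Additive.toMul γ, rfl⟩
  have h1 : IsPrim (⇑(c • G)) (fun z => c * F z) := isPrim_smul hF c
  rw [perCls_apply (c • G) h1 g UpperHalfPlane.I, AddMonoidHom.smul_apply,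
    perCls_apply G hF g UpperHalfPlane.I, smul_eq_mul]
  ring

/-- The period class intertwines a sum of slashes with the Betti operator of the family. -/
theorem perCls_heckeOp {M : ℕ} [NeZero M] {ι : Type*} [Fintype ι] {rep : ι → GL (Fin 2) ℝ}
    (H : IsHeckeFamily (inc (Gam1 M M)) rep) (hdet : ∀ i, 0 < (rep i).val.det)
    (f f' : CuspForm (Gamma1 M) 2)
    (hf' : (⇑f' : ℍ → ℂ) = ∑ i, (⇑f : ℍ → ℂ) ∣[(2 : ℤ)] rep i) :
    perCls M f' = H.heckeOp (inc_injective _) (perCls M f) := by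
  refine AddMonoidHom.ext fun γ => ?_
  obtain ⟨g, rfl⟩ : ∃ g : Gam1 M M, Additive.ofMul g = γ := ⟨Additive.toMul γ, rfl⟩
  obtain ⟨F, hF, -⟩ := exists_prim M f
  obtain ⟨Hh, hH, -⟩ := exists_prim M f'
  set G : ℍ → ℂ := fun z => ∑ i, F (rep i • z) with hGdef
  have hG : IsPrim (⇑f') G := by
    intro τ
    have h1 : HasDerivAt (fun w : ℂ => ∑ i, ((fun w : ℍ => F (rep i • w)) ∘ ofComplex) w)
        (∑ i, ((⇑f : ℍ → ℂ) ∣[(2 : ℤ)] rep i) τ) ↑τ :=
      HasDerivAt.fun_sum (fun i _ => Fermat.Agent.Betti.H76.hasDerivAt_comp_glsmul hF (rep i)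
        (hdet i) τ)
    have h2 : f' τ = ∑ i, ((⇑f : ℍ → ℂ) ∣[(2 : ℤ)] rep i) τ := by
      rw [hf', Finset.sum_apply]
    rw [h2]
    exact h1
  rw [perCls_apply f' hG g UpperHalfPlane.I, IsHeckeFamily.heckeOp_apply]
  -- termwise
  have hterm : ∀ i, F (rep i • ((g : SL(2, ℤ)) • UpperHalfPlane.I))
      = perCls M f (Additive.ofMul (H.kap g i)) + F (rep (H.perm g i) • UpperHalfPlane.I) := by
    intro i
    have hmul := H.rep_mul g i
    have e2 : rep i • ((g : SL(2, ℤ)) • UpperHalfPlane.I)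
        = ((H.kap g i : Gam1 M M) : SL(2, ℤ)) • (rep (H.perm g i) • UpperHalfPlane.I) := by
      have l1 : rep i • ((g : SL(2, ℤ)) • UpperHalfPlane.I)
          = (rep i * inc (Gam1 M M) g) • UpperHalfPlane.I := by
        rw [mul_smul]; rfl
      have l2 : ((H.kap g i : Gam1 M M) : SL(2, ℤ)) • (rep (H.perm g i) • UpperHalfPlane.I)
          = (inc (Gam1 M M) (H.kap g i) * rep (H.perm g i)) • UpperHalfPlane.I := by
        rw [mul_smul]; rfl
      rw [l1, l2, hmul]
    rw [e2, perCls_apply f hF (H.kap g i) (rep (H.perm g i) • UpperHalfPlane.I)]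
    ring
  have hperm : ∑ i, F (rep (H.perm g i) • UpperHalfPlane.I) = ∑ i, F (rep i • UpperHalfPlane.I) :=
    Equiv.sum_comp (H.permEquiv (inc_injective _) g) (fun i => F (rep i • UpperHalfPlane.I))
  simp only [hGdef, hterm, Finset.sum_add_distrib, hperm]
  ring

/-- Conjugation by an element of `Γ₀(M)` under which `G` is an eigenvector. -/
theorem perCls_conj {M : ℕ} [NeZero M] (G : CuspForm (Gamma1 M) 2) (g : SL(2, ℤ)) (c : ℂ)
    (h : (⇑G : ℍ → ℂ) ∣[(2 : ℤ)] g = c • (⇑G : ℍ → ℂ)) (γ γ' : Gam1 M M)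
    (hγ : (γ' : SL(2, ℤ)) = g * (γ : SL(2, ℤ)) * g⁻¹) :
    perCls M G (Additive.ofMul γ') = c * perCls M G (Additive.ofMul γ) := by
  obtain ⟨F, hF, -⟩ := exists_prim M G
  obtain ⟨d, hd⟩ := prim_slash hF g c h
  set w : ℍ := UpperHalfPlane.I with hw
  rw [perCls_apply G hF γ' (g • w), perCls_apply G hF γ w, hγ]
  have e1 : (g * (γ : SL(2, ℤ)) * g⁻¹) • (g • w) = g • ((γ : SL(2, ℤ)) • w) := by
    rw [← mul_smul, ← mul_smul]
    congr 1
    group
  rw [e1]
  have h1 := hd ((γ : SL(2, ℤ)) • w)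
  have h2 := hd w
  linear_combination h1 - h2

end Fermat.Agent.S48.B2.T.H55
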