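import Fermat.Agent.S48.B2.T.Defs
import Fermat.Agent.S48.B2.T.H55_PerConst
import Fermat.Agent.S21.H20_Primitive
import Fermat.Agent.S21.H86_PartC
import Fermat.Agent.Betti.H76_Period

/-!
# S48 / B2, slice T, leaf T-PER (helper55), part 2: primitives and the period class

For a weight two cusp form `G` on `Γ₁(M)`:

* `exists_prim` : `G` has a primitive `F` on the upper half plane with a limit at every cusp;
* `prim_slash` : if `G ∣[2] γ = c • G` then `F (γ z) = c F z + d`;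
* `perCls G : Γ₁(M) → ℂ`, the period class (`Gam1 M M` is helper39's form of `Γ₁(M)`),
  `perCls_apply : perCls G γ = F (γ z) - F z` for every primitive `F` and every `z`;
* `perCls_mem_homPE` : it vanishes on parabolic elements and on elements of finite order;
* `perCls_ne_zero` : `G ≠ 0 → perCls G ≠ 0` (maximum principle).

Patterns: `Fermat.Agent.S21.partA`, `partC`, `partD_core` (for `Γ₀(N)`).
-/

set_option autoImplicit false

noncomputable section

namespace Fermat.Agent.S48.B2.T.H55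

open ModularCurve ModularCurve.Period UpperHalfPlane CongruenceSubgroup Filter Topology Function
open Matrix.SpecialLinearGroup
open Fermat.Agent.NEB.EIG.H39 Fermat.Agent.GTor
open scoped MatrixGroups ModularForm Manifold Pointwise

/-- `F` is a primitive of `G` on the upper half plane. -/
def IsPrim (G F : ℍ → ℂ) : Prop := ∀ τ : ℍ, HasDerivAt (F ∘ ofComplex) (G τ) ↑τ

/-! ## The group `Gam1 M M` -/

theorem mem_Gamma1_of_mem_Gam1 {M : ℕ} {γ : SL(2, ℤ)} (h : γ ∈ Gam1 M M) : γ ∈ Gamma1 M := by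
  rw [Gamma1_mem]
  refine ⟨?_, ?_, ?_⟩
  · have h3 := h.2.2
    have : (((γ 0 0 - 1 : ℤ)) : ZMod M) = 0 := (ZMod.intCast_zmod_eq_zero_iff_dvd _ _).mpr h3
    push_cast at this
    exact sub_eq_zero.mp this
  · have h3 := Gam1_dvd_11 h
    have : (((γ 1 1 - 1 : ℤ)) : ZMod M) = 0 := (ZMod.intCast_zmod_eq_zero_iff_dvd _ _).mpr h3
    push_cast at this
    exact sub_eq_zero.mp this
  · exact (ZMod.intCast_zmod_eq_zero_iff_dvd _ _).mpr h.1

theorem Gamma_le_Gam1 (M : ℕ) : Gamma M ≤ Gam1 M M := by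
  intro γ hγ
  rw [Gamma_mem] at hγ
  obtain ⟨h00, -, h10, -⟩ := hγ
  have h1 : (M : ℤ) ∣ γ 1 0 := (ZMod.intCast_zmod_eq_zero_iff_dvd _ _).mp h10
  refine ⟨h1, h1, ?_⟩
  apply (ZMod.intCast_zmod_eq_zero_iff_dvd _ _).mp
  push_cast
  rw [h00, sub_self]

instance finite_quot_Gam1 (M : ℕ) [NeZero M] : Finite (SL(2, ℤ) ⧸ Gam1 M M) := by
  haveI : (Gam1 M M).FiniteIndex := Subgroup.finiteIndex_of_le (Gamma_le_Gam1 M)
  exact Subgroup.finite_quotient_of_finiteIndex

theorem T_pow_mem_Gamma (M : ℕ) : ModularGroup.T ^ M ∈ Gamma M := by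
  rw [Gamma_mem]
  have h := ModularGroup.coe_T_zpow (M : ℤ)
  rw [zpow_natCast] at h
  rw [h]
  simp

theorem conj_T_pow_mem_Gam1 (M : ℕ) (δ : SL(2, ℤ)) :
    δ * ModularGroup.T ^ M * δ⁻¹ ∈ Gam1 M M :=
  Gamma_le_Gam1 M ((Gamma_normal M).conj_mem _ (T_pow_mem_Gamma M) δ)

/-! ## Primitives -/

theorem slash_eq_of_mem_Gam1 {M : ℕ} (G : CuspForm (Gamma1 M) 2) {γ : SL(2, ℤ)}
    (h : γ ∈ Gam1 M M) : (⇑G ∣[(2 : ℤ)] γ) = ⇑G := by
  rw [ModularForm.SL_slash]
  exact SlashInvariantForm.slash_action_eqn G _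
    (Subgroup.mem_map_of_mem _ (mem_Gamma1_of_mem_Gam1 h))

/-- Every weight two cusp form on `Γ₁(M)` has a primitive with a limit at every cusp. -/
theorem exists_prim (M : ℕ) [NeZero M] (G : CuspForm (Gamma1 M) 2) :
    ∃ F : ℍ → ℂ, IsPrim (⇑G) F ∧
      ∀ δ : SL(2, ℤ), ∃ L : ℂ, Tendsto (fun w : ℍ => F (δ • w)) atImInfty (𝓝 L) := by
  obtain ⟨P, hP, hper⟩ := Subgroup.IsArithmetic.exists_nat_mem_strictPeriods_conj
    (Subgroup.map (Matrix.SpecialLinearGroup.mapGL ℝ) (Gamma1 M))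
  have key : ∀ δ : SL(2, ℤ), ∃ H : ℍ → ℂ,
      (∀ τ : ℍ, HasDerivAt (H ∘ ofComplex) ((⇑G ∣[(2 : ℤ)] δ) τ) ↑τ)
        ∧ Tendsto H atImInfty (𝓝 0) := by
    intro δ
    refine Fermat.Agent.S21.exists_primitive_of_periodic (h := P) (by exact_mod_cast hP) ?_ ?_ ?_
    · have hmem : (P : ℝ) ∈ (ConjAct.toConjAct ((δ : GL (Fin 2) ℝ))⁻¹ •
          (Subgroup.map (Matrix.SpecialLinearGroup.mapGL ℝ) (Gamma1 M))).strictPeriods := by
        have h0 := hper δ⁻¹
        rw [map_inv] at h0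
        exact h0
      have := SlashInvariantFormClass.periodic_comp_ofComplex
        (CuspForm.translate G (δ : GL (Fin 2) ℝ)) hmem
      exact this
    · exact (CuspFormClass.holo G).slash 2 (δ : GL (Fin 2) ℝ)
    · exact CuspFormClass.zero_at_infty_slash G δ
  obtain ⟨F, hF1, -⟩ := key 1
  have hF1' : IsPrim (⇑G) F := by
    intro τ
    have := hF1 τ
    rwa [SlashAction.slash_one] at this
  refine ⟨F, hF1', fun δ => ?_⟩
  obtain ⟨H, hH1, hH2⟩ := key δ
  obtain ⟨c, hc⟩ := Fermat.Agent.S21.primitive_sub_const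
    (Fermat.Agent.S21.hasDerivAt_comp_smul hF1' δ) hH1
  refine ⟨c, ?_⟩
  have hfun : (fun w : ℍ => F (δ • w)) = fun w => H w + c := by
    funext w
    have := hc w
    linear_combination this
  rw [hfun]
  simpa using hH2.add_const c

/-- If `G ∣[2] γ = c • G` then `F ∘ γ - c F` is constant. -/
theorem prim_slash {G F : ℍ → ℂ} (hF : IsPrim G F) (γ : SL(2, ℤ)) (c : ℂ)
    (h : G ∣[(2 : ℤ)] γ = c • G) : ∃ d : ℂ, ∀ z : ℍ, F (γ • z) - c * F z = d := by
  have h1 : ∀ τ : ℍ, HasDerivAt ((fun w : ℍ => F (γ • w)) ∘ ofComplex) (c * G τ) ↑τ := by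
    intro τ
    have h2 := Fermat.Agent.S21.hasDerivAt_comp_smul hF γ τ
    rw [h] at h2
    exact h2
  have h3 : ∀ τ : ℍ, HasDerivAt ((fun w : ℍ => c * F w) ∘ ofComplex) (c * G τ) ↑τ := by
    intro τ
    exact (hF τ).const_mul c
  exact Fermat.Agent.S21.primitive_sub_const (f := fun τ => c * G τ) h1 h3

theorem isEquivariantPrimitive_of_prim {M : ℕ} (G : CuspForm (Gamma1 M) 2) {F : ℍ → ℂ}
    (hF : IsPrim (⇑G) F) : IsEquivariantPrimitive (Gam1 M M) F := by
  intro γ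
  obtain ⟨d, hd⟩ := prim_slash hF (γ : SL(2, ℤ)) 1 (by rw [slash_eq_of_mem_Gam1 G γ.2, one_smul])
  exact ⟨d, fun z => by have := hd z; rw [one_mul] at this; exact this⟩

/-! ## The period class -/

/-- The period class of a weight two cusp form on `Γ₁(M)`. -/
def perCls (M : ℕ) [NeZero M] (G : CuspForm (Gamma1 M) 2) : Additive (Gam1 M M) →+ ℂ :=
  (isEquivariantPrimitive_of_prim G (exists_prim M G).choose_spec.1).periodHom

theorem perCls_apply {M : ℕ} [NeZero M] (G : CuspForm (Gamma1 M) 2) {F : ℍ → ℂ}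
    (hF : IsPrim (⇑G) F) (γ : Gam1 M M) (z : ℍ) :
    perCls M G (Additive.ofMul γ) = F ((γ : SL(2, ℤ)) • z) - F z := by
  set F₀ := (exists_prim M G).choose with hF₀
  have h₀ : IsPrim (⇑G) F₀ := (exists_prim M G).choose_spec.1
  have hE := isEquivariantPrimitive_of_prim G h₀
  obtain ⟨c, hc⟩ := Fermat.Agent.S21.primitive_sub_const (f := ⇑G) h₀ hF
  have e1 : perCls M G (Additive.ofMul γ) = hE.period γ := rfl
  rw [e1, ← hE.sub_eq_period γ z]
  have h1 := hc ((γ : SL(2, ℤ)) • z)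
  have h2 := hc z
  linear_combination h1 - h2

/-- The period of a parabolic element vanishes. -/
theorem perCls_parabolic {M : ℕ} [NeZero M] (G : CuspForm (Gamma1 M) 2) (γ : Gam1 M M)
    (hγ : ((γ : SL(2, ℤ)) : Matrix (Fin 2) (Fin 2) ℤ).trace ^ 2 = 4) :
    perCls M G (Additive.ofMul γ) = 0 := by
  obtain ⟨F, hF, hlim⟩ := exists_prim M G
  obtain ⟨δ, hδ⟩ := Fermat.Agent.S21.H86.exists_conj_lower_left_eq_zero (γ : SL(2, ℤ)) hγ
  obtain ⟨n, hn⟩ := ModularGroup.exists_eq_T_zpow_of_c_eq_zero hδ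
  obtain ⟨L, hL⟩ := hlim δ
  have hconj : ∀ w : ℍ, (γ : SL(2, ℤ)) • (δ • w) = δ • (ModularGroup.T ^ n • w) := by
    intro w
    rw [← hn w, ← mul_smul, ← mul_smul]
    congr 1
    group
  have h1 : Tendsto (fun w : ℍ => F (δ • (ModularGroup.T ^ n • w))) atImInfty (𝓝 L) :=
    hL.comp (Fermat.Agent.S21.H86.tendsto_T_zpow_smul_atImInfty n)
  have h2 : Tendsto (fun w : ℍ => F (δ • (ModularGroup.T ^ n • w)) - F (δ • w)) atImInfty
      (𝓝 (L - L)) := h1.sub hL
  have h3 : (fun w : ℍ => F (δ • (ModularGroup.T ^ n • w)) - F (δ • w)) =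
      fun _ => perCls M G (Additive.ofMul γ) := by
    funext w
    rw [← hconj w]
    exact (perCls_apply G hF γ (δ • w)).symm
  rw [h3, sub_self] at h2
  exact tendsto_nhds_unique tendsto_const_nhds h2

/-- The period of an element of finite order vanishes. -/
theorem perCls_finOrder {M : ℕ} [NeZero M] (G : CuspForm (Gamma1 M) 2) (γ : Gam1 M M)
    (hγ : IsOfFinOrder γ) : perCls M G (Additive.ofMul γ) = 0 := by
  obtain ⟨n, hn, h1⟩ := hγ.exists_pow_eq_one
  have h2 : perCls M G (Additive.ofMul (γ ^ n)) = n • perCls M G (Additive.ofMul γ) := by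
    rw [ofMul_pow, map_nsmul]
  rw [h1, ofMul_one, map_zero] at h2
  have h3 : (n : ℂ) * perCls M G (Additive.ofMul γ) = 0 := by
    rw [← nsmul_eq_mul]
    exact h2.symm
  rcases mul_eq_zero.mp h3 with h4 | h4
  · exact absurd (by exact_mod_cast h4) hn.ne'
  · exact h4

theorem perCls_mem_homPE {M : ℕ} [NeZero M] (G : CuspForm (Gamma1 M) 2) :
    perCls M G ∈ homPE (Gam1 M M) ℂ :=
  ⟨fun γ hγ => perCls_parabolic G γ hγ, fun γ hγ => perCls_finOrder G γ hγ⟩

/-- The period class of a nonzero form is not zero. -/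
theorem perCls_ne_zero {M : ℕ} [NeZero M] (G : CuspForm (Gamma1 M) 2) (hG : G ≠ 0) :
    perCls M G ≠ 0 := by
  intro h0
  obtain ⟨F, hF, hlim⟩ := exists_prim M G
  have hinvF : ∀ γ ∈ Gam1 M M, ∀ z : ℍ, F (γ • z) = F z := by
    intro γ hγ z
    have h1 := perCls_apply G hF ⟨γ, hγ⟩ z
    rw [h0] at h1
    have h2 : F (γ • z) - F z = 0 := h1.symm
    exact sub_eq_zero.mp h2
  obtain ⟨c, hc⟩ := const_of_norm_inv (Gam1 M M) M F
    (fun τ => (hF τ).differentiableAt)
    (fun γ hγ z => by rw [hinvF γ hγ z])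
    (fun δ w => by
      have h1 := hinvF _ (conj_T_pow_mem_Gam1 M δ) (δ • w)
      rw [← h1, ← mul_smul, ← mul_smul]
      congr 1
      group)
    hlim
  -- the derivative of a constant function vanishes
  apply hG
  have hz : ∀ τ : ℍ, G τ = 0 := by
    intro τ
    have h1 := hF τ
    have h2 : HasDerivAt (F ∘ ofComplex) 0 ↑τ := by
      have h3 : (F ∘ ofComplex) = fun _ => c := by
        funext w
        exact hc _
      rw [h3]
      exact hasDerivAt_const _ _
    exact h1.unique h2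
  ext τ
  exact hz τ

end Fermat.Agent.S48.B2.T.H55
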