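import Fermat.Agent.S48.B2.T.H96_A5Defs
import Fermat.Agent.GTor.Clo.A5
import Fermat.Agent.GTor.H58_A1
import Fermat.Agent.RED.H51_Approx
import Fermat.Agent.RED.H51_Det
import Fermat.Agent.NEB.H84_Fix

/-!
# S48 / B2, slice T, leaf E-A5C (helper96): the norm trick

`a5C_of : Stmt_A5Act → Stmt_A5Slash → Stmt_OrdC → Stmt_A5C`.

Let `v` be a place of `F_C = FC M` and `u` its restriction to `F_0 = FNL ℂ M`.  By
`GTor.Clo.stmt_A5` the place `u` is the place of a point `z` (or of a cusp `σ`).  Let `w γ` be the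
place of `F_C` at `γ z` (resp. `γ σ`), `γ ∈ Γ₀(M)` (`Stmt_OrdC`).  If `v` is none of them, weak
approximation gives `h` of order `0` at all `w γ_u` (`γ_u` representatives of `Γ₀(M)` modulo
`Γ₁(M)`) and of order `1` at `v` and at all its conjugates `v ∘ τ_u` which are not among the
`w γ_u`.  The norm `g = ∏_u τ_u h` lies in `F_0`, has order `0` at `u` (analytic order `0` at `z`)
but positive order at `v`: contradiction.
-/

set_option autoImplicit false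
set_option linter.unusedSectionVars false
set_option linter.unusedVariables false
set_option linter.style.haveILetI false

noncomputable section

namespace Fermat.Agent.S48.B2.T.H96

open AlgebraicCurve ModularCurve UpperHalfPlane CongruenceSubgroup Matrix.SpecialLinearGroup
open Fermat.Agent.NEB Fermat.Agent.NEB.H84 Fermat.Agent.NEB.EIG.H98 Fermat.Agent.GTor
open scoped MatrixGroups ModularForm Manifold

variable {M : ℕ} [NeZero M]

/-- Finite products in `Rel`. -/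
theorem rel_prod96 {γ : SL(2, ℤ)} (hγ : γ ∈ Gamma0 M) {D : Type*} (s : Finset D)
    (f g : D → LaurentSeries ℂ) (h : ∀ d ∈ s, Rel M γ (f d) (g d)) :
    Rel M γ (∏ d ∈ s, f d) (∏ d ∈ s, g d) := by
  classical
  induction s using Finset.induction_on with
  | empty =>
    rw [Finset.prod_empty, Finset.prod_empty]
    have := rel_C M γ 1
    rwa [map_one] at this
  | insert a s ha ih =>
    rw [Finset.prod_insert ha, Finset.prod_insert ha]
    exact rel_mul hγ (h a (Finset.mem_insert_self a s))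
      (ih (fun d hd => h d (Finset.mem_insert_of_mem hd)))

/-- The relation `Rel M γ` only depends on the class of `γ` modulo `Γ₁(M)`. -/
theorem rel_congr_map96 {γ₁ γ₂ : Gamma0 M} (h : Gamma0Map M γ₁ = Gamma0Map M γ₂)
    {x y : LaurentSeries ℂ} (hr : Rel M (γ₁ : SL(2, ℤ)) x y) : Rel M (γ₂ : SL(2, ℤ)) x y := by
  obtain ⟨k, A, B, hA, hB, hB0, hx, hy⟩ := hr
  refine ⟨k, A, B, hA, hB, hB0, hx, ?_⟩
  rw [← slash_eq_of_map_eq hA γ₁ γ₂ h, ← slash_eq_of_map_eq hB γ₁ γ₂ h]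
  exact hy

section Core

variable [Fintype (RangeU M)]
  (rep : RangeU M → Gamma0 M) (hrep : ∀ u, Gamma0Map M (rep u) = u.1)
  (τ : RangeU M → (↥(FC M) →ₐ[ℂ] ↥(FC M)))
  (hτrel : ∀ (u : RangeU M) (x : ↥(FC M)),
    Rel M ((rep u : Gamma0 M) : SL(2, ℤ)) (x : LaurentSeries ℂ) ((τ u x : ↥(FC M)) : LaurentSeries ℂ))

include hrep hτrel

/-- The representative of the trivial class acts trivially. -/
theorem tau_one96 (u : RangeU M) (hu : u.1 = 1) (h : ↥(FC M)) : τ u h = h := by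
  have hγ1 : ((rep u : Gamma0 M) : SL(2, ℤ)) ∈ Gamma1 M :=
    mem_Gamma1_of_map_eq_one _ (by rw [hrep, hu])
  have hself : Rel M ((rep u : Gamma0 M) : SL(2, ℤ)) (h : LaurentSeries ℂ)
      (h : LaurentSeries ℂ) := by
    obtain ⟨k, A, B, hA, hB, hB0, hx, -⟩ := hτrel u h
    exact ⟨k, A, B, hA, hB, hB0, hx, by rw [hA.slash _ hγ1, hB.slash _ hγ1]; exact hx⟩
  exact Subtype.ext (rel_unique (rep u).2 (hτrel u h) hself)

/-- The conjugates are permuted by `Γ₀(M)`. -/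
theorem rel_tau96 {δ : SL(2, ℤ)} (hδ : δ ∈ Gamma0 M) (u : RangeU M) (h : ↥(FC M)) :
    Rel M δ ((τ u h : ↥(FC M)) : LaurentSeries ℂ)
      ((τ (shiftEquiv ⟨δ, hδ⟩ u) h : ↥(FC M)) : LaurentSeries ℂ) := by
  -- the image under `δ` of `τ u h`, as a ratio of forms
  obtain ⟨k, A, B, hA, hB, hB0, hx, hy⟩ := hτrel u h
  have hAγ := hA.slash_Gamma0 (rep u).2
  have hBγ := hB.slash_Gamma0 (rep u).2
  have nB : qLaurent ((B ∣[k] ((rep u : Gamma0 M) : SL(2, ℤ))) ∣[k] δ) ≠ 0 :=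
    qLaurent_ne_zero (hBγ.slash_Gamma0 hδ).nice (slash_ne_zero k δ (slash_ne_zero k _ hB0))
  obtain ⟨y, hy'⟩ : ∃ y : LaurentSeries ℂ, qLaurent ((A ∣[k] ((rep u : Gamma0 M) : SL(2, ℤ))) ∣[k] δ) = y *
    qLaurent ((B ∣[k] ((rep u : Gamma0 M) : SL(2, ℤ))) ∣[k] δ) := ⟨_ / _, (div_mul_cancel₀ _ nB).symm⟩
  have h2 : Rel M δ ((τ u h : ↥(FC M)) : LaurentSeries ℂ) y :=
    ⟨k, _, _, hAγ, hBγ, slash_ne_zero k _ hB0, hy, hy'⟩
  have h3 : Rel M (((rep u : Gamma0 M) : SL(2, ℤ)) * δ) (h : LaurentSeries ℂ) y :=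
    rel_trans (rep u).2 hδ (hτrel u h) h2
  have hmap : Gamma0Map M (rep u * ⟨δ, hδ⟩) = Gamma0Map M (rep (shiftEquiv ⟨δ, hδ⟩ u)) := by
    rw [map_mul, hrep, hrep, shiftEquiv_val]
  have h3' : Rel M ((rep u * ⟨δ, hδ⟩ : Gamma0 M) : SL(2, ℤ)) (h : LaurentSeries ℂ) y := by
    rw [Subgroup.coe_mul]
    exact h3
  have h4 : Rel M ((rep (shiftEquiv ⟨δ, hδ⟩ u) : Gamma0 M) : SL(2, ℤ)) (h : LaurentSeries ℂ) y :=
    rel_congr_map96 hmap h3'
  have h5 : y = ((τ (shiftEquiv ⟨δ, hδ⟩ u) h : ↥(FC M)) : LaurentSeries ℂ) :=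
    rel_unique (rep (shiftEquiv ⟨δ, hδ⟩ u)).2 h4 (hτrel (shiftEquiv ⟨δ, hδ⟩ u) h)
  rw [← h5]
  exact h2

/-- The norm is fixed by `Γ₀(M)`. -/
theorem rel_norm96 {δ : SL(2, ℤ)} (hδ : δ ∈ Gamma0 M) (h : ↥(FC M)) :
    Rel M δ (((∏ u, τ u h : ↥(FC M)) : ↥(FC M)) : LaurentSeries ℂ)
      (((∏ u, τ u h : ↥(FC M)) : ↥(FC M)) : LaurentSeries ℂ) := by
  have h2 := rel_prod96 hδ Finset.univ (fun u => ((τ u h : ↥(FC M)) : LaurentSeries ℂ))
    (fun u => ((τ (shiftEquiv ⟨δ, hδ⟩ u) h : ↥(FC M)) : LaurentSeries ℂ))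
    (fun u _ => rel_tau96 rep hrep τ hτrel hδ u h)
  have e1 : (((∏ u, τ u h : ↥(FC M)) : ↥(FC M)) : LaurentSeries ℂ)
      = ∏ u, ((τ u h : ↥(FC M)) : LaurentSeries ℂ) :=
    IntermediateField.coe_prod _ _
  have e2 : ∏ u, ((τ (shiftEquiv ⟨δ, hδ⟩ u) h : ↥(FC M)) : LaurentSeries ℂ)
      = ∏ u, ((τ u h : ↥(FC M)) : LaurentSeries ℂ) :=
    Equiv.prod_comp (shiftEquiv ⟨δ, hδ⟩) (fun u => ((τ u h : ↥(FC M)) : LaurentSeries ℂ))
  rw [e2, ← e1] at h2
  exact h2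

/-- The norm, as an element of `F_0`. -/
theorem exists_norm96 (h : ↥(FC M)) : ∃ g : FNL ℂ M, inclC M g = ∏ u, τ u h := by
  have hgmem : (((∏ u, τ u h : ↥(FC M)) : ↥(FC M)) : LaurentSeries ℂ)
      ∈ laurentBaseChange ℂ (modularFunctionFieldFull M) :=
    mem_FNL_of_rel (fun δ hδ => rel_norm96 rep hrep τ hτrel hδ h)
  exact ⟨⟨_, hgmem⟩, Subtype.ext (by rw [coe_inclC])⟩

/-- **The norm trick**, with chosen representatives. -/
theorem norm_core96 (hint : (inclC M).toRingHom.IsIntegral)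
    (hτint : ∀ u, (τ u).toRingHom.IsIntegral)
    (ord₀ : ℤ → (ℍ → ℂ) → ℤ) (v : Place ℂ ↥(FC M)) (m : ℕ) (hm : 0 < m)
    (hu : ∀ (g : FNL ℂ M) (k : ℤ) (A B : ModularForm (Gamma0 M) k), g ≠ 0 → IsRatio M g A B →
      ord₀ k A - ord₀ k B = (m : ℤ) * (v.restrictAlong (inclC M) hint).ord g)
    (w₁ : Place ℂ ↥(FC M)) (e₁ : ℕ) (he₁ : 0 < e₁)
    (hw₁ : ∀ (f : ↥(FC M)) (k : ℤ) (A B : ℍ → ℂ), f ≠ 0 →
      IsRep M (f : LaurentSeries ℂ) k A B → ord₀ k A - ord₀ k B = (e₁ : ℤ) * w₁.ord f)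
    (w : RangeU M → Place ℂ ↥(FC M)) (e : RangeU M → ℕ)
    (hw : ∀ (u : RangeU M) (f : ↥(FC M)) (k : ℤ) (A B : ℍ → ℂ), f ≠ 0 →
      IsRep M (f : LaurentSeries ℂ) k A B →
      ord₀ k (A ∣[k] ((rep u : Gamma0 M) : SL(2, ℤ))) - ord₀ k (B ∣[k] ((rep u : Gamma0 M) : SL(2, ℤ)))
        = (e u : ℤ) * (w u).ord f) :
    ∃ u, v = w u := by
  classical
  by_contra hcon
  push Not at hcon
  -- weak approximation
  obtain ⟨W, hW⟩ : ∃ W : Finset (Place ℂ ↥(FC M)), ∀ p, p ∈ W ↔ ∃ u, w u = p :=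
    ⟨Finset.univ.image w, fun p => by simp⟩
  obtain ⟨V, hV⟩ : ∃ V : Finset (Place ℂ ↥(FC M)),
      ∀ u, v.restrictAlong (τ u) (hτint u) ∈ V :=
    ⟨Finset.univ.image (fun u => v.restrictAlong (τ u) (hτint u)),
      fun u => Finset.mem_image.mpr ⟨u, Finset.mem_univ _, rfl⟩⟩
  obtain ⟨h, hh0, hh⟩ := Fermat.Agent.RED.H51.exists_ord_eq_family (insert v (W ∪ V))
    (fun p => if p ∈ W then 0 else 1)
  have hvW : v ∉ W := by
    intro hv
    obtain ⟨u, hu'⟩ := (hW v).mp hv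
    exact hcon u hu'.symm
  have hv1 : v.ord h = 1 := by
    have := hh v (Finset.mem_insert_self _ _)
    rwa [if_neg hvW] at this
  have hW0 : ∀ u, (w u).ord h = 0 := by
    intro u
    have hmem : w u ∈ W := (hW _).mpr ⟨u, rfl⟩
    have := hh _ (Finset.mem_insert_of_mem (Finset.mem_union_left _ hmem))
    rwa [if_pos hmem] at this
  have hV0 : ∀ u, 0 ≤ (v.restrictAlong (τ u) (hτint u)).ord h := by
    intro u
    have := hh _ (Finset.mem_insert_of_mem (Finset.mem_union_right _ (hV u)))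
    rw [this]
    split_ifs <;> norm_num
  -- the norm
  have hτne : ∀ u, τ u h ≠ 0 := fun u => (map_ne_zero (τ u)).mpr hh0
  have hgC0 : (∏ u, τ u h) ≠ 0 := Finset.prod_ne_zero_iff.mpr (fun u _ => hτne u)
  obtain ⟨g, hg⟩ := exists_norm96 rep hrep τ hτrel h
  have hg0 : g ≠ 0 := by
    intro h0
    apply hgC0
    rw [← hg, h0, map_zero]
  have hτ1 : τ ⟨1, 1, map_one _⟩ h = h := tau_one96 rep hrep τ hτrel _ rfl h
  -- Step A: the order of the norm at the base place is zero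
  have he1 : (0 : ℤ) < (e₁ : ℤ) := by exact_mod_cast he₁
  have hA : ∀ u, w₁.ord (τ u h) = 0 := by
    intro u
    obtain ⟨k, A, B, hA, hB, hB0, hx, hy⟩ := hτrel u h
    have r1 : IsRep M (h : LaurentSeries ℂ) k A B := ⟨hA, hB, hB0, hx⟩
    have r2 : IsRep M ((τ u h : ↥(FC M)) : LaurentSeries ℂ) k
        (A ∣[k] ((rep u : Gamma0 M) : SL(2, ℤ))) (B ∣[k] ((rep u : Gamma0 M) : SL(2, ℤ))) :=
      ⟨hA.slash_Gamma0 (rep u).2, hB.slash_Gamma0 (rep u).2, slash_ne_zero k _ hB0, hy⟩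
    have h1 := hw₁ (τ u h) k _ _ (hτne u) r2
    have h2 := hw u h k A B hh0 r1
    rw [hW0 u, mul_zero] at h2
    rw [h2] at h1
    rcases mul_eq_zero.mp h1.symm with h3 | h3
    · omega
    · exact h3
  have hw1g : w₁.ord (∏ u, τ u h) = 0 := by
    rw [Fermat.Agent.RED.H51.ord_prod _ _ _ (fun u _ => hτne u)]
    exact Finset.sum_eq_zero (fun u _ => hA u)
  -- Step B: the order of the norm at the place below is zero
  have hug : (v.restrictAlong (inclC M) hint).ord g = 0 := by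
    obtain ⟨k, A, B, hAB⟩ := Fermat.Agent.GTor.H58.stmt_A1 M g
    have h1 := hu g k A B hg0 hAB
    have r : IsRep M ((inclC M g : ↥(FC M)) : LaurentSeries ℂ) k A B :=
      ⟨isW_of_modularForm A, isW_of_modularForm B,
        fun h0 => hAB.1 (DFunLike.coe_injective h0), by rw [coe_inclC]; exact hAB.2⟩
    have h2 := hw₁ (inclC M g) k A B (by rw [hg]; exact hgC0) r
    rw [hg, hw1g, mul_zero] at h2
    rw [h2] at h1
    have hm' : (0 : ℤ) < (m : ℤ) := by exact_mod_cast hm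
    rcases mul_eq_zero.mp h1.symm with h3 | h3
    · omega
    · exact h3
  -- Step C
  have hvg : v.ord (∏ u, τ u h) = 0 := by
    rw [← hg, Place.ord_restrictAlong (inclC M) hint v g, hug, mul_zero]
  -- Step D
  have hpos : 0 < v.ord (∏ u, τ u h) := by
    rw [Fermat.Agent.RED.H51.ord_prod _ _ _ (fun u _ => hτne u)]
    have hterm : ∀ u, 0 ≤ v.ord (τ u h) := by
      intro u
      rw [Place.ord_restrictAlong (τ u) (hτint u) v h]
      exact mul_nonneg (Int.natCast_nonneg _) (hV0 u)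
    have h1 : v.ord (τ ⟨1, 1, map_one _⟩ h) ≤ ∑ u, v.ord (τ u h) :=
      Finset.single_le_sum (f := fun u => v.ord (τ u h)) (fun u _ => hterm u)
        (Finset.mem_univ _)
    rw [hτ1, hv1] at h1
    omega
  omega

end Core

/-- **The norm trick.**  `ord₀` is an order function (at a point or at a cusp), the place of `F_0`
below `v` is the place of `ord₀`, and `w γ` is the place of `F_C` of the order function
`A ↦ ord₀ (A ∣ γ)`.  Then `v` is one of the `w γ`. -/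
theorem exists_eq_of_norm (hint : (inclC M).toRingHom.IsIntegral)
    (hact : ∀ γ : SL(2, ℤ), γ ∈ Gamma0 M →
      ∃ τ : ↥(FC M) →ₐ[ℂ] ↥(FC M), τ.toRingHom.IsIntegral ∧
        ∀ x : ↥(FC M), Rel M γ (x : LaurentSeries ℂ) ((τ x : ↥(FC M)) : LaurentSeries ℂ))
    (ord₀ : ℤ → (ℍ → ℂ) → ℤ) (v : Place ℂ ↥(FC M)) (m : ℕ) (hm : 0 < m)
    (hu : ∀ (g : FNL ℂ M) (k : ℤ) (A B : ModularForm (Gamma0 M) k), g ≠ 0 → IsRatio M g A B →
      ord₀ k A - ord₀ k B = (m : ℤ) * (v.restrictAlong (inclC M) hint).ord g)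
    (w : SL(2, ℤ) → Place ℂ ↥(FC M)) (e : SL(2, ℤ) → ℕ)
    (he : ∀ γ, γ ∈ Gamma0 M → 0 < e γ)
    (hw : ∀ γ, γ ∈ Gamma0 M → ∀ (f : ↥(FC M)) (k : ℤ) (A B : ℍ → ℂ), f ≠ 0 →
      IsRep M (f : LaurentSeries ℂ) k A B →
      ord₀ k (A ∣[k] γ) - ord₀ k (B ∣[k] γ) = (e γ : ℤ) * (w γ).ord f) :
    ∃ γ, γ ∈ Gamma0 M ∧ v = w γ := by
  classical
  have : Finite (RangeU M) := Subtype.finite
  letI : Fintype (RangeU M) := Fintype.ofFinite _
  obtain ⟨rep, hrep⟩ : ∃ rep : RangeU M → Gamma0 M, ∀ u, Gamma0Map M (rep u) = u.1 :=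
    ⟨fun u => Classical.choose u.2, fun u => Classical.choose_spec u.2⟩
  choose τ hτint hτrel using (fun u : RangeU M => hact ((rep u : Gamma0 M) : SL(2, ℤ)) (rep u).2)
  have hγ1 : (1 : SL(2, ℤ)) ∈ Gamma0 M := (Gamma0 M).one_mem
  obtain ⟨u, hu'⟩ := norm_core96 rep hrep τ hτrel hint hτint ord₀ v m hm hu (w 1) (e 1)
    (he 1 hγ1)
    (fun f k A B hf hr => by
      have := hw 1 hγ1 f k A B hf hr
      rwa [SlashAction.slash_one, SlashAction.slash_one] at this)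
    (fun u => w ((rep u : Gamma0 M) : SL(2, ℤ))) (fun u => e ((rep u : Gamma0 M) : SL(2, ℤ)))
    (fun u f k A B hf hr => hw _ (rep u).2 f k A B hf hr)
  exact ⟨_, (rep u).2, hu'⟩

/-- **E-A5C**, from the action of `Γ₀(M)` on `F_C`, the order of a slash at a point and E-ORD. -/
theorem a5C_of (hAct : Stmt_A5Act) (hSl : Stmt_A5Slash) (hOrd : Stmt_OrdC) : Stmt_A5C := by
  intro M _ hM v
  obtain ⟨hint, hact⟩ := hAct M hM
  obtain ⟨hpt, hcu⟩ := hOrd M hM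
  have hMpos : 0 < M := Nat.pos_of_ne_zero (NeZero.ne M)
  rcases Fermat.Agent.GTor.Clo.stmt_A5 M (v.restrictAlong (inclC M) hint) with ⟨z, hz⟩ | ⟨σ, hσ⟩
  · left
    choose w e he0 he6 hw using hpt
    obtain ⟨γ, hγ, hv⟩ := exists_eq_of_norm hint hact (ordPt z) v (ellOrder M z)
      (Fermat.Agent.GTor.Clo.stmt_A3 M z).1
      (fun g k A B hg hAB => hz g k A B hg hAB)
      (fun γ => w (γ • z)) (fun γ => e (γ • z)) (fun γ _ => he0 _)
      (fun γ hγ f k A B hf hr => by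
        rw [hSl z γ k A hr.1.mdiff, hSl z γ k B hr.2.1.mdiff]
        exact hw (γ • z) f k A B hf hr)
    refine ⟨γ • z, e (γ • z), he0 _, he6 _, ?_⟩
    rw [hv]
    exact hw (γ • z)
  · right
    choose w e he0 hedvd hw using hcu
    obtain ⟨hcw0, hcwM, -⟩ := Fermat.Agent.GTor.Clo.stmt_A4 M σ
    obtain ⟨γ, hγ, hv⟩ := exists_eq_of_norm hint hact (ordCu M σ) v (M / cuspWidth M σ)
      (Nat.div_pos (Nat.le_of_dvd hMpos hcwM) hcw0)
      (fun g k A B hg hAB => hσ g k A B hg hAB)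
      (fun γ => w (γ * σ)) (fun γ => e (γ * σ)) (fun γ _ => he0 _)
      (fun γ hγ f k A B hf hr => by
        have h1 := hw (γ * σ) f k A B hf hr
        have e1 : ∀ X : ℍ → ℂ, ordCu M σ k (X ∣[k] γ) = ordCu M (γ * σ) k X := by
          intro X
          unfold ordCu
          rw [SlashAction.slash_mul]
        rw [e1, e1]
        exact h1)
    refine ⟨γ * σ, e (γ * σ), he0 _, hedvd _, ?_⟩
    rw [hv]
    exact hw (γ * σ)

end Fermat.Agent.S48.B2.T.H96
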