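import Fermat.Agent.S48.B2.T.Defs

/-!
# S48 / B2, slice T, leaf E-A5C (helper96): interfaces of the three parts

`Stmt_A5C` (every place of `F_C = FC M` is the place of a point or of a cusp) is proved by the
norm trick from `GTor.Clo.stmt_A5` (the same statement for `F_0 = FNL ℂ M`):

* `Stmt_A5Act`   : `Γ₀(M)` acts on `F_C` by `ℂ`-algebra maps with graph `NEB.H84.Rel M γ`, these maps
  and the inclusion `inclC M : F_0 → F_C` are integral (`F_C` is algebraic over `F_0`);
* `Stmt_A5Slash` : the order of `A ∣[k] δ` at `z` is the order of `A` at `δ • z`;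
* `a5C_of : Stmt_A5Act → Stmt_A5Slash → Stmt_OrdC → Stmt_A5C` (helper96, `H96_A5C.lean`):
  restriction of the place to `F_0`, `stmt_A5`, weak approximation, the norm
  `∏_u actC γ_u h ∈ F_0` (`NEB.H84.mem_FNL_of_rel`).

No `sorry`; everything here is a definition or a `Prop`.
-/

set_option autoImplicit false

noncomputable section

namespace Fermat.Agent.S48.B2.T.H96

open AlgebraicCurve ModularCurve UpperHalfPlane CongruenceSubgroup Matrix.SpecialLinearGroup
open Fermat.Agent.NEB Fermat.Agent.NEB.H84 Fermat.Agent.NEB.EIG.H98 Fermat.Agent.GTor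
open scoped MatrixGroups ModularForm Manifold

/-- The inclusion `F_0 ⊆ F_C` (function field of `X₀(M)` inside the one of `X₁(M)/±1`). -/
def inclC (M : ℕ) : FNL ℂ M →ₐ[ℂ] ↥(FC M) :=
  IntermediateField.inclusion (laurentBaseChange_mono (full_le_FHQ M M (⊥ : Subgroup (ZMod M)ˣ)))

@[simp]
theorem coe_inclC (M : ℕ) (x : FNL ℂ M) :
    ((inclC M x : ↥(FC M)) : LaurentSeries ℂ) = (x : LaurentSeries ℂ) :=
  IntermediateField.coe_inclusion _ x

/-- **A5C-ACT**: `F_C` is integral over `F_0`, and every `γ ∈ Γ₀(M)` acts on `F_C` by an integral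
`ℂ`-algebra map whose graph is the slash action on ratios of forms. -/
def Stmt_A5Act : Prop :=
  ∀ (M : ℕ) [NeZero M], 2 ≤ M →
    (inclC M).toRingHom.IsIntegral ∧
    ∀ γ : SL(2, ℤ), γ ∈ Gamma0 M →
      ∃ τ : ↥(FC M) →ₐ[ℂ] ↥(FC M), τ.toRingHom.IsIntegral ∧
        ∀ x : ↥(FC M), Rel M γ (x : LaurentSeries ℂ) ((τ x : ↥(FC M)) : LaurentSeries ℂ)

/-- **A5C-SLASH**: the order of vanishing of `A ∣[k] δ` at `z` is the order of `A` at `δ • z`. -/
def Stmt_A5Slash : Prop :=
  ∀ (z : ℍ) (δ : SL(2, ℤ)) (k : ℤ) (A : ℍ → ℂ), MDifferentiable 𝓘(ℂ) 𝓘(ℂ) A →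
    ordPt z k (A ∣[k] δ) = ordPt (δ • z) k A

end Fermat.Agent.S48.B2.T.H96
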